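import Mathlib
import Fermat.Prelude.Def_AlgebraicCurve_CanonicalDivisor

/-!
# S24 (genus of the function field of X₀(N)) — shared definitions

Blueprint: abstract Riemann–Hurwitz for a function field `F / K(x)` whose places are
controlled by finitely many embeddings of `F` into "valued differential fields"
(fields of Laurent series / meromorphic germs).
-/

set_option autoImplicit false

noncomputable section

namespace Fermat.Agent.S24

open AlgebraicCurve

variable {K F : Type*} [Field K] [Field F] [Algebra K F]

/-- the places of `F` at which `x - c` has a zero -/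
def placesOver (x : F) (c : K) : Set (Place K F) :=
  {v | 0 < v.ord (x - algebraMap K F c)}

/-- the places of `F` at which `x` has a pole -/
def placesOverInfty (K : Type*) {F : Type*} [Field K] [Field F] [Algebra K F] (x : F) :
    Set (Place K F) :=
  {v | v.ord x < 0}

/-- the places of `F` lying above a place `w` of a subfield `E` -/
def placesAbove {E : Type*} [Field E] [Algebra K E] [Algebra E F] (w : Place K E) :
    Set (Place K F) :=
  {v | ∀ a : E, a ∈ w.toValuationSubring ↔ algebraMap E F a ∈ v.toValuationSubring}

/-- number of orbits of a permutation -/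
def numOrbits {I : Type*} (ρ : Equiv.Perm I) : ℕ :=
  Nat.card (MulAction.orbitRel.Quotient (Subgroup.zpowers ρ) I)

/-- A `ℤ`-valued discrete valuation (junk value at `0`) on a field `M`, trivial on `K`,
together with a `K`-derivation lowering the order by exactly one away from order `0`. -/
structure OrdField (K : Type*) [Field K] (M : Type*) [Field M] [Algebra K M] where
  /-- the order function -/
  ord : M → ℤ
  ord_mul : ∀ a b : M, a ≠ 0 → b ≠ 0 → ord (a * b) = ord a + ord b
  ord_add : ∀ a b : M, a ≠ 0 → b ≠ 0 → a + b ≠ 0 → min (ord a) (ord b) ≤ ord (a + b)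
  ord_algebraMap : ∀ c : K, c ≠ 0 → ord (algebraMap K M c) = 0
  /-- the derivation -/
  der : Derivation K M M
  ord_der : ∀ a : M, a ≠ 0 → ord a ≠ 0 → der a ≠ 0 ∧ ord (der a) = ord a - 1

end Fermat.Agent.S24

namespace Fermat.Agent.S24

open AlgebraicCurve

/-- Local expansion datum for the extension `F / K(x)` at the place of `K(x)` with local
parameter `s` (`s = x - c` or `s = x⁻¹`): a family of pairwise distinct `K`-embeddings of `F`
into a valued differential field `M`, all agreeing at `x`, indexed by a finite set `I` on which
a "local monodromy" permutation `ρ` acts compatibly with an order-preserving automorphism `τ`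
of `M`; `Ew` is the order of `s` in `M` and elements fixed by `τ ^ k` have order divisible by
`Ew / gcd k Ew` (think: `M` = Laurent series in `w`, `τ : w ↦ ζ w`, `ζ` a primitive `Ew`-th root
of unity). -/
structure LocalDatum (K : Type*) {F : Type*} [Field K] [Field F] [Algebra K F]
    (x s : F) (I : Type*) where
  /-- the valued differential field -/
  M : Type
  [instField : Field M]
  [instAlgebra : Algebra K M]
  /-- its order function and derivation -/
  O : OrdField K M
  /-- the embeddings -/
  σ : I → (F →ₐ[K] M)
  σ_inj : Function.Injective σ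
  σ_x : ∀ i k : I, σ i x = σ k x
  /-- the order of the local parameter `s` of `K(x)` in `M` -/
  Ew : ℕ
  Ew_pos : 0 < Ew
  ord_s : ∀ i : I, O.ord (σ i s) = Ew
  /-- local monodromy -/
  ρ : Equiv.Perm I
  τ : M ≃+* M
  ord_τ : ∀ a : M, O.ord (τ a) = O.ord a
  σ_ρ : ∀ (i : I) (f : F), σ (ρ i) f = τ (σ i f)
  dvd_of_fixed : ∀ (k : ℕ) (a : M), a ≠ 0 → (τ ^ k) a = a →
    ((Ew / Nat.gcd k Ew : ℕ) : ℤ) ∣ O.ord a

attribute [instance] LocalDatum.instField LocalDatum.instAlgebra

end Fermat.Agent.S24
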