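import Mathlib
import Fermat.Prelude.Def_ModularCurve_ArithmeticGalois
import Fermat.Prelude.Def_ModularCurve_GenusNumerics
import Fermat.Agent.S24.Defs

/-!
# S24 — the concrete objects (function field of X₀(N) over `ℚ̄`, the element `j`, the coset space)
-/

set_option autoImplicit false

noncomputable section

namespace Fermat.Agent.S24

open ModularCurve
open scoped MatrixGroups

/-- `ℚ̄` -/
abbrev Kbar : Type := AlgebraicClosure ℚ

/-- the function field of `X₀(N)` over `ℚ̄` (the field of S24) -/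
abbrev FN (N : ℕ) [NeZero N] : Type := ↥(modularFunctionFieldBar N)

/-- the Laurent series `j(q^d)` with coefficients in `ℚ̄` -/
def jdSeries (d : ℕ) [NeZero d] : LaurentSeries Kbar := coeffEmb Kbar (qExpand ℚ d jq)

theorem jdSeries_mem (N : ℕ) [NeZero N] {d : ℕ} [NeZero d] (hd : d ∣ N) :
    jdSeries d ∈ modularFunctionFieldBar N :=
  coeffEmb_mem_laurentBaseChange Kbar (jqd_mem_full N hd)

/-- `j(q^d)` as an element of the function field, `d ∣ N` -/
def jdF (N : ℕ) [NeZero N] (d : ℕ) [NeZero d] (hd : d ∣ N) : FN N :=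
  ⟨jdSeries d, jdSeries_mem N hd⟩

/-- `j` as an element of the function field -/
def jF (N : ℕ) [NeZero N] : FN N := jdF N 1 (one_dvd N)

theorem coe_jF (N : ℕ) [NeZero N] : ((jF N : FN N) : LaurentSeries Kbar) = coeffEmb Kbar jq := by
  show coeffEmb Kbar (qExpand ℚ 1 jq) = coeffEmb Kbar jq
  rw [qExpand_one_apply]

/-- the coset space `SL₂(ℤ) / Γ₀(N)` (left cosets `g Γ₀(N)`; `SL₂(ℤ)` acts by left
multiplication) -/
abbrev I0 (N : ℕ) : Type := SL(2, ℤ) ⧸ CongruenceSubgroup.Gamma0 N

instance (N : ℕ) [NeZero N] : Fintype (I0 N) := Fintype.ofFinite _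

/-- the permutation of the coset space induced by left multiplication -/
def permOf (N : ℕ) (g : SL(2, ℤ)) : Equiv.Perm (I0 N) := MulAction.toPerm g

end Fermat.Agent.S24
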