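import Mathlib
import Fermat.Agent.S24.ModularDefs

/-!
# S24 — interface statements (as `Prop`s) between the modules of the blueprint

Every module `Mk` proves `theorem …: Iface.Mk…`; `Final.lean` assembles S24 from them.
Abstract part (`M1`–`M5`): any algebraically closed `K` of characteristic `0`, any `F / K(x)` finite.
-/

set_option autoImplicit false

noncomputable section

namespace Fermat.Agent.S24.Iface

open AlgebraicCurve KaehlerDifferential IntermediateField Fermat.Agent.S24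

universe u v

section Abstract

variable (K : Type u) (F : Type v) [Field K] [Field F] [Algebra K F]

/-- M1 (RatPlaces.lean): places of `K(x)`. -/
def M1 : Prop :=
  ∀ [IsAlgClosed K] (x : F), Transcendental K x →
    (∀ c : K, ∃ w : Place K K⟮x⟯, w.deg = 1 ∧
      w.ord (AdjoinSimple.gen K x - algebraMap K K⟮x⟯ c) = 1) ∧
    (∃ w : Place K K⟮x⟯, w.deg = 1 ∧ w.ord (AdjoinSimple.gen K x)⁻¹ = 1) ∧
    (∀ w : Place K K⟮x⟯, w.ord (AdjoinSimple.gen K x) < 0 ∨
      ∃ c : K, 0 < w.ord (AdjoinSimple.gen K x - algebraMap K K⟮x⟯ c)) ∧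
    (∀ (w w' : Place K K⟮x⟯) (c : K),
      0 < w.ord (AdjoinSimple.gen K x - algebraMap K K⟮x⟯ c) →
      0 < w'.ord (AdjoinSimple.gen K x - algebraMap K K⟮x⟯ c) → w = w') ∧
    (∀ w w' : Place K K⟮x⟯, w.ord (AdjoinSimple.gen K x) < 0 →
      w'.ord (AdjoinSimple.gen K x) < 0 → w = w') ∧
    (∀ a : K⟮x⟯, a ≠ 0 → ∃ S : Finset (Place K K⟮x⟯),
      (∀ w ∉ S, w.ord a = 0) ∧ ∑ w ∈ S, w.ord a = 0)

/-- M2 (PlacesAbove.lean): extension of places along a finite extension `F / E` (char 0):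
restriction, finiteness, ramification index, residue degree, norm formula, approximation. -/
def M2 : Prop :=
  ∀ [CharZero K] (E : Type v) [Field E] [Algebra K E] [Algebra E F] [IsScalarTower K E F]
    [FiniteDimensional E F],
    (∀ v : Place K F, ∃! w : Place K E, v ∈ placesAbove (F := F) w) ∧
    (∀ w : Place K E, (placesAbove (F := F) w).Finite ∧ (placesAbove (F := F) w).Nonempty) ∧
    (∀ (w : Place K E) (v : Place K F), v ∈ placesAbove w →
      ∃ e : ℕ, 0 < e ∧ ∀ a : E, v.ord (algebraMap E F a) = e * w.ord a) ∧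
    (∀ [IsAlgClosed K] (w : Place K E), w.deg = 1 → ∀ v ∈ placesAbove (F := F) w, v.deg = 1) ∧
    (∀ [IsAlgClosed K] (w : Place K E), w.deg = 1 → ∀ f : F, f ≠ 0 →
      ∀ S : Finset (Place K F), (∀ v, v ∈ S ↔ v ∈ placesAbove w) →
        w.ord (Algebra.norm E f) = ∑ v ∈ S, v.ord f) ∧
    (∀ (w : Place K E) (v : Place K F), v ∈ placesAbove w →
      ∃ f : F, f ≠ 0 ∧ 0 < v.ord f ∧ ∀ v' ∈ placesAbove (F := F) w, v' ≠ v → v'.ord f = 0)

/-- M3 (Differentials.lean): `Ω[F/K]` is one-dimensional, spanned by `dx`. -/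
def M3 : Prop :=
  ∀ [CharZero K] (x : F), Transcendental K x → ∀ [FiniteDimensional K⟮x⟯ F],
    D K F x ≠ 0 ∧ ∀ ω : Ω[F⁄K], ∃ g : F, ω = g • D K F x

/-- M4 (Loc.lean): places above `w` correspond to the orbits of the local monodromy, and each
such place is computed by one of the expansions. -/
def M4 : Prop :=
  ∀ [IsAlgClosed K] [CharZero K] (x : F), Transcendental K x → ∀ [FiniteDimensional K⟮x⟯ F]
    (s : K⟮x⟯) (w : Place K K⟮x⟯), w.deg = 1 → w.ord s = 1 →
    ∀ (I : Type) [Fintype I], Fintype.card I = Module.finrank K⟮x⟯ F →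
    ∀ L : LocalDatum K x (algebraMap K⟮x⟯ F s) I,
      Nat.card (placesAbove (F := F) w) = numOrbits L.ρ ∧
      ∀ v ∈ placesAbove (F := F) w, ∃ (i : I) (m : ℕ), 0 < m ∧
        ∀ f : F, f ≠ 0 → L.O.ord (L.σ i f) = m * v.ord f

/-- M4b (ExpansionDiff.lean): the order of `dx` at a place computed by an expansion. -/
def M4b : Prop :=
  ∀ [IsAlgClosed K] [CharZero K] (x : F), Transcendental K x → ∀ [FiniteDimensional K⟮x⟯ F]
    (v : Place K F) (M : Type) [Field M] [Algebra K M] (O : OrdField K M) (σ : F →ₐ[K] M)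
    (m : ℕ), 0 < m → (∀ f : F, f ≠ 0 → O.ord (σ f) = m * v.ord f) →
    ∀ s : F, v.ord s ≠ 0 → D K F s = D K F x →
      v.ordDifferential (D K F x) = v.ord s - 1

/-- M5 (Global.lean): abstract Riemann–Hurwitz for the genus of the prelude. -/
def M5 : Prop :=
  ∀ [IsAlgClosed K] [CharZero K] (x : F), Transcendental K x → ∀ [FiniteDimensional K⟮x⟯ F]
    [HasCanonicalDivisor (K := K) (F := F)]
    (B : Finset K) (r : K → ℕ) (rinf : ℕ),
    (∀ c ∈ B, Nat.card (placesOver x c) = r c) →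
    (∀ c ∉ B, ∀ v ∈ placesOver x c, v.ord (x - algebraMap K F c) = 1) →
    Nat.card (placesOverInfty K x) = rinf →
    (∀ (c : K) (v : Place K F), v ∈ placesOver x c →
      v.ordDifferential (D K F x) = v.ord (x - algebraMap K F c) - 1) →
    (∀ v ∈ placesOverInfty K x, v.ordDifferential (D K F x) = v.ord x - 1) →
    ∀ d : ℤ, d = ∑ c ∈ B, ((Module.finrank K⟮x⟯ F : ℤ) - r c) - Module.finrank K⟮x⟯ F - rinf →
      0 ≤ d + 2 → Even d → (genus K F : ℤ) = (d + 2) / 2

end Abstract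

section Modular

open ModularCurve
open scoped MatrixGroups

/-- M9 (Degree.lean): `F_N / ℚ̄(j)` is finite of degree `ψ(N)`. -/
def M9 (N : ℕ) [NeZero N] : Prop :=
  Transcendental Kbar (jF N) ∧ FiniteDimensional Kbar⟮jF N⟯ (FN N) ∧
    Module.finrank Kbar⟮jF N⟯ (FN N) = dedekindPsi N

/-- M7 (FinitePoints.lean): local data at the finite values of `j`. -/
def M7 (N : ℕ) [NeZero N] : Prop :=
  ∀ c : Kbar, ∃ L : LocalDatum Kbar (jF N) (jF N - algebraMap Kbar (FN N) c) (I0 N),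
    (c ≠ 0 → c ≠ 1728 → L.Ew = 1 ∧ L.ρ = 1) ∧
    (c = 1728 → L.Ew = 2 ∧ L.ρ = permOf N ModularGroup.S) ∧
    (c = 0 → L.Ew = 3 ∧ L.ρ = permOf N (ModularGroup.S * ModularGroup.T))

/-- M8 (Cusp.lean): local datum at `j = ∞`. -/
def M8 (N : ℕ) [NeZero N] : Prop :=
  ∃ L : LocalDatum Kbar (jF N) (jF N)⁻¹ (I0 N), L.Ew = N ∧ L.ρ = permOf N ModularGroup.T

/-- M11 (Comb*.lean): index and orbit counts on `SL₂(ℤ)/Γ₀(N)`. -/
def M11 (N : ℕ) [NeZero N] : Prop :=
  Fintype.card (I0 N) = dedekindPsi N ∧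
    2 * numOrbits (permOf N ModularGroup.S) = dedekindPsi N + nuTwo N ∧
    3 * numOrbits (permOf N (ModularGroup.S * ModularGroup.T)) = dedekindPsi N + 2 * nuThree N ∧
    numOrbits (permOf N ModularGroup.T) = cuspCount N

/-- M12 (Ree.lean): parity and nonnegativity (a transitive pair of permutations). -/
def M12 : Prop :=
  ∀ (I : Type) [Fintype I] [Nonempty I] (a b : Equiv.Perm I),
    (∀ i k : I, ∃ g ∈ Subgroup.closure {a, b}, g i = k) →
    Even ((Fintype.card I : ℤ) - numOrbits a - numOrbits b - numOrbits (a * b)) ∧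
    0 ≤ (Fintype.card I : ℤ) - numOrbits a - numOrbits b - numOrbits (a * b) + 2

end Modular

end Fermat.Agent.S24.Iface
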