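import Mathlib
import Fermat.Agent.S24.Interface
import Fermat.Agent.S24_helper66.NormCard

/-!
# S24 — norm formula for ANY family of `ψ(N)` distinct embeddings of `F_N`, given `M9`

Once `[F_N : ℚ̄(j)] = ψ(N) = |SL₂(ℤ)/Γ₀(N)|` is known (`Iface.M9`, from the cusp expansions),
every family `ρ q : F_N →+* L`, `q ∈ SL₂(ℤ)/Γ₀(N)`, of pairwise distinct ring homs into a field
`L` which agree on `ℚ̄` and at `j` satisfies the norm formula
`ρ q₀ (N_{F_N/ℚ̄(j)} f) = ∏ q, ρ q f` — no trace hypothesis, no algebra structure on `L`.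
(Application: the embeddings `f ↦ f̃ ∘ g⁻¹` into meromorphic functions / germs at interior
points.)
-/

set_option autoImplicit false

noncomputable section

namespace Fermat.Agent.S24.DegreeNorm

open ModularCurve IntermediateField Fermat.Agent.S24 Fermat.Agent.S24_helper66
open scoped MatrixGroups

variable {N : ℕ} [NeZero N] (h9 : Iface.M9 N) (h11 : Fintype.card (I0 N) = dedekindPsi N)
variable {L : Type*} [Field L] (ρ : I0 N → (FN N →+* L)) (q₀ : I0 N)
  (hK : ∀ q (c : Kbar), ρ q (algebraMap Kbar (FN N) c) = ρ q₀ (algebraMap Kbar (FN N) c))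
  (hj : ∀ q, ρ q (jF N) = ρ q₀ (jF N)) (hinj : Function.Injective ρ)
include h9 h11 hK hj hinj

/-- **norm formula** for a full family of embeddings of `F_N` -/
theorem norm_eq_prod (f : FN N) :
    ρ q₀ ((Algebra.norm Kbar⟮jF N⟯ f : Kbar⟮jF N⟯) : FN N) = ∏ q, ρ q f := by
  haveI := h9.2.1
  exact ringHom_norm_eq_prod (jF N) ρ q₀ hK hj hinj (h11.trans h9.2.2.symm) f

/-- trace formula -/
theorem trace_eq_sum (f : FN N) :
    ρ q₀ ((Algebra.trace Kbar⟮jF N⟯ (FN N) f : Kbar⟮jF N⟯) : FN N) = ∑ q, ρ q f := by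
  haveI := h9.2.1
  exact ringHom_trace_eq_sum (jF N) ρ q₀ hK hj hinj (h11.trans h9.2.2.symm) f

/-- every ring hom agreeing with `ρ q₀` on `ℚ̄` and at `j` is one of the `ρ q` -/
theorem mem_range (τ : FN N →+* L)
    (hτK : ∀ c : Kbar, τ (algebraMap Kbar (FN N) c) = ρ q₀ (algebraMap Kbar (FN N) c))
    (hτj : τ (jF N) = ρ q₀ (jF N)) : ∃ q, τ = ρ q := by
  haveI := h9.2.1
  exact ringHom_mem_range_of_card (jF N) ρ q₀ hK hj hinj (h11.trans h9.2.2.symm) τ hτK hτj

end Fermat.Agent.S24.DegreeNorm
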