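import Mathlib
import Fermat.Prelude.Def_AlgebraicCurve_DivisorClassGroup

set_option autoImplicit false

noncomputable section

namespace Fermat.Agent.S24

open AlgebraicCurve

/-- Integer valued valuation data on a field `F` over `K`: only the values at nonzero elements
matter (the value at `0` is junk), the valuation is trivial on `K`. -/
structure IntVal (K F : Type*) [Field K] [Field F] [Algebra K F] where
  /-- the underlying function -/
  toFun : F → ℤ
  map_mul' : ∀ {f g : F}, f ≠ 0 → g ≠ 0 → toFun (f * g) = toFun f + toFun g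
  map_add' : ∀ {f g : F}, f ≠ 0 → g ≠ 0 → f + g ≠ 0 → min (toFun f) (toFun g) ≤ toFun (f + g)
  map_algebraMap' : ∀ c : K, c ≠ 0 → toFun (algebraMap K F c) = 0

namespace IntVal

variable {K F : Type*} [Field K] [Field F] [Algebra K F]

instance : CoeFun (IntVal K F) (fun _ => F → ℤ) := ⟨IntVal.toFun⟩

@[ext]
theorem ext {v w : IntVal K F} (h : ∀ f, v f = w f) : v = w := by
  cases v; cases w
  congr
  exact funext h

variable (v : IntVal K F)

theorem map_mul {f g : F} (hf : f ≠ 0) (hg : g ≠ 0) : v (f * g) = v f + v g := v.map_mul' hf hg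

theorem map_add {f g : F} (hf : f ≠ 0) (hg : g ≠ 0) (hfg : f + g ≠ 0) :
    min (v f) (v g) ≤ v (f + g) := v.map_add' hf hg hfg

theorem map_algebraMap {c : K} (hc : c ≠ 0) : v (algebraMap K F c) = 0 := v.map_algebraMap' c hc

@[simp]
theorem map_one : v (1 : F) = 0 := by
  have h := v.map_algebraMap (c := (1 : K)) one_ne_zero
  rwa [_root_.map_one] at h

@[simp]
theorem map_neg_one : v (-1 : F) = 0 := by
  have h := v.map_algebraMap (c := (-1 : K)) (neg_ne_zero.mpr one_ne_zero)
  rwa [_root_.map_neg, _root_.map_one] at h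

theorem map_neg (f : F) : v (-f) = v f := by
  rcases eq_or_ne f 0 with rfl | hf
  · simp
  · rw [← neg_one_mul, v.map_mul (neg_ne_zero.mpr one_ne_zero) hf, map_neg_one, zero_add]

theorem map_inv {f : F} (hf : f ≠ 0) : v f⁻¹ = -v f := by
  have h := v.map_mul hf (inv_ne_zero hf)
  rw [mul_inv_cancel₀ hf, map_one] at h
  linarith

theorem map_div {f g : F} (hf : f ≠ 0) (hg : g ≠ 0) : v (f / g) = v f - v g := by
  rw [div_eq_mul_inv, v.map_mul hf (inv_ne_zero hg), v.map_inv hg, sub_eq_add_neg]

theorem map_pow {f : F} (hf : f ≠ 0) (n : ℕ) : v (f ^ n) = n * v f := by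
  induction n with
  | zero => simp
  | succ n ih =>
    rw [pow_succ, v.map_mul (pow_ne_zero n hf) hf, ih]
    push_cast
    ring

theorem map_zpow {f : F} (hf : f ≠ 0) (n : ℤ) : v (f ^ n) = n * v f := by
  cases n with
  | ofNat n => simpa using v.map_pow hf n
  | negSucc n =>
    rw [zpow_negSucc, v.map_inv (pow_ne_zero _ hf), v.map_pow hf]
    push_cast
    rw [Int.negSucc_eq]
    ring

theorem map_sub {f g : F} (hf : f ≠ 0) (hg : g ≠ 0) (hfg : f - g ≠ 0) :
    min (v f) (v g) ≤ v (f - g) := by
  have h := v.map_add hf (neg_ne_zero.mpr hg) (by rwa [← sub_eq_add_neg])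
  rwa [v.map_neg, ← sub_eq_add_neg] at h

theorem map_prod {ι : Type*} (s : Finset ι) (a : ι → F) (ha : ∀ i ∈ s, a i ≠ 0) :
    v (∏ i ∈ s, a i) = ∑ i ∈ s, v (a i) := by
  classical
  induction s using Finset.induction_on with
  | empty => simp
  | insert i s hi ih =>
    rw [Finset.prod_insert hi, Finset.sum_insert hi,
      v.map_mul (ha i (Finset.mem_insert_self i s))
        (Finset.prod_ne_zero_iff.mpr fun j hj => ha j (Finset.mem_insert_of_mem hj)),
      ih fun j hj => ha j (Finset.mem_insert_of_mem hj)]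

/-- pull back along an injective-by-default algebra map of fields -/
def comap {E : Type*} [Field E] [Algebra K E] (σ : F →ₐ[K] E) (vE : IntVal K E) : IntVal K F where
  toFun f := vE (σ f)
  map_mul' {f g} hf hg := by
    rw [_root_.map_mul]
    exact vE.map_mul ((map_ne_zero σ.toRingHom).mpr hf) ((map_ne_zero σ.toRingHom).mpr hg)
  map_add' {f g} hf hg hfg := by
    rw [_root_.map_add]
    refine vE.map_add ((map_ne_zero σ.toRingHom).mpr hf) ((map_ne_zero σ.toRingHom).mpr hg) ?_
    rw [← _root_.map_add]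
    exact (map_ne_zero σ.toRingHom).mpr hfg
  map_algebraMap' c hc := by
    rw [AlgHom.commutes]
    exact vE.map_algebraMap hc

@[simp]
theorem comap_apply {E : Type*} [Field E] [Algebra K E] (σ : F →ₐ[K] E) (vE : IntVal K E) (f : F) :
    comap σ vE f = vE (σ f) := rfl

/-- the valuation subring of an `IntVal` -/
def valuationSubring : ValuationSubring F where
  carrier := {f | f = 0 ∨ 0 ≤ v f}
  mul_mem' := by
    rintro a b (rfl | ha) (rfl | hb)
    · left; simp
    · left; simp
    · left; simp
    · rcases eq_or_ne a 0 with rfl | ha0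
      · left; simp
      rcases eq_or_ne b 0 with rfl | hb0
      · left; simp
      right
      rw [v.map_mul ha0 hb0]
      exact add_nonneg ha hb
  one_mem' := Or.inr (by simp)
  add_mem' := by
    rintro a b ha hb
    rcases eq_or_ne a 0 with rfl | ha0
    · simpa using hb
    rcases eq_or_ne b 0 with rfl | hb0
    · simpa using ha
    rcases eq_or_ne (a + b) 0 with h0 | h0
    · exact Or.inl h0
    right
    have ha' : 0 ≤ v a := ha.resolve_left ha0
    have hb' : 0 ≤ v b := hb.resolve_left hb0
    exact (le_min ha' hb').trans (v.map_add ha0 hb0 h0)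
  zero_mem' := Or.inl rfl
  neg_mem' := by
    rintro a (rfl | ha)
    · left; simp
    · right; rwa [v.map_neg]
  mem_or_inv_mem' := by
    intro a
    rcases eq_or_ne a 0 with rfl | ha0
    · exact Or.inl (Or.inl rfl)
    rcases le_total 0 (v a) with h | h
    · exact Or.inl (Or.inr h)
    · refine Or.inr (Or.inr ?_)
      rw [v.map_inv ha0]
      linarith

theorem mem_valuationSubring_iff {f : F} : f ∈ v.valuationSubring ↔ f = 0 ∨ 0 ≤ v f := Iff.rfl

theorem mem_valuationSubring_of_ne_zero {f : F} (hf : f ≠ 0) :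
    f ∈ v.valuationSubring ↔ 0 ≤ v f := by
  rw [mem_valuationSubring_iff, or_iff_right hf]

theorem algebraMap_mem (c : K) : algebraMap K F c ∈ v.valuationSubring := by
  rcases eq_or_ne c 0 with rfl | hc
  · left; simp
  · right; rw [v.map_algebraMap hc]

theorem valuationSubring_ne_top {x : F} (hx0 : x ≠ 0) (hx : v x ≠ 0) :
    v.valuationSubring ≠ ⊤ := by
  intro htop
  have h1 : x ∈ v.valuationSubring := htop ▸ ValuationSubring.mem_top x
  have h2 : x⁻¹ ∈ v.valuationSubring := htop ▸ ValuationSubring.mem_top x⁻¹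
  rw [v.mem_valuationSubring_of_ne_zero hx0] at h1
  rw [v.mem_valuationSubring_of_ne_zero (inv_ne_zero hx0), v.map_inv hx0] at h2
  exact hx (le_antisymm (by linarith) h1)

theorem isPrincipalIdealRing_valuationSubring : IsPrincipalIdealRing v.valuationSubring := by
  classical
  refine ⟨fun J => ?_⟩
  by_cases hJ : J = ⊥
  · subst hJ
    exact bot_isPrincipal
  obtain ⟨a, haJ, ha0⟩ := Submodule.exists_mem_ne_zero_of_ne_bot hJ
  have hne : ∀ b : v.valuationSubring, b ≠ 0 → (b : F) ≠ 0 := fun b hb h =>
    hb (Subtype.ext h)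
  have hnn : ∀ b : v.valuationSubring, b ≠ 0 → 0 ≤ v (b : F) := fun b hb =>
    (v.mem_valuationSubring_of_ne_zero (hne b hb)).mp b.2
  have hS : ∃ n : ℕ, ∃ a ∈ J, a ≠ 0 ∧ v (a : F) = n :=
    ⟨(v (a : F)).toNat, a, haJ, ha0, (Int.toNat_of_nonneg (hnn a ha0)).symm⟩
  obtain ⟨a₀, ha₀J, ha₀0, ha₀⟩ := Nat.find_spec hS
  refine ⟨⟨a₀, ?_⟩⟩
  apply le_antisymm
  · intro b hb
    by_cases hb0 : b = 0
    · simp [hb0]
    have hle : (Nat.find hS : ℤ) ≤ v (b : F) := by
      by_contra hlt
      rw [not_le] at hlt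
      have hvb := hnn b hb0
      exact Nat.find_min hS (m := (v (b : F)).toNat) (by omega)
        ⟨b, hb, hb0, (Int.toNat_of_nonneg hvb).symm⟩
    rw [Ideal.submodule_span_eq, Ideal.mem_span_singleton']
    have hmem : (b : F) / (a₀ : F) ∈ v.valuationSubring := by
      rw [v.mem_valuationSubring_of_ne_zero (div_ne_zero (hne b hb0) (hne a₀ ha₀0)),
        v.map_div (hne b hb0) (hne a₀ ha₀0), ha₀]
      linarith
    refine ⟨⟨_, hmem⟩, Subtype.ext ?_⟩
    show (b : F) / (a₀ : F) * (a₀ : F) = b
    exact div_mul_cancel₀ _ (hne a₀ ha₀0)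
  · rw [Ideal.submodule_span_eq, Ideal.span_singleton_le_iff_mem]
    exact ha₀J

/-- the valuation is nontrivial -/
def IsNontrivial : Prop := ∃ x : F, x ≠ 0 ∧ v x ≠ 0

variable {v}

/-- the place of `F` defined by a nontrivial `IntVal` -/
def placeOf (h : v.IsNontrivial) : Place K F where
  toValuationSubring := v.valuationSubring
  algebraMap_mem' := v.algebraMap_mem
  ne_top' := by
    obtain ⟨x, hx0, hx⟩ := h
    exact v.valuationSubring_ne_top hx0 hx
  isPrincipalIdealRing' := v.isPrincipalIdealRing_valuationSubring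

@[simp]
theorem placeOf_toValuationSubring (h : v.IsNontrivial) :
    (placeOf h).toValuationSubring = v.valuationSubring := rfl

theorem map_unit (h : v.IsNontrivial) (u : (placeOf h).toValuationSubringˣ) :
    v ((u : (placeOf h).toValuationSubring) : F) = 0 := by
  have hu0 : ((u : (placeOf h).toValuationSubring) : F) ≠ 0 := by
    simp [ne_eq, ZeroMemClass.coe_eq_zero]
  have h1 : 0 ≤ v ((u : (placeOf h).toValuationSubring) : F) :=
    (v.mem_valuationSubring_of_ne_zero hu0).mp (u : (placeOf h).toValuationSubring).2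
  have hinv : (((u⁻¹ : (placeOf h).toValuationSubringˣ) : (placeOf h).toValuationSubring) : F)
      = ((u : (placeOf h).toValuationSubring) : F)⁻¹ := by
    have := congrArg (Subtype.val) (u.inv_mul)
    simp only [MulMemClass.coe_mul, OneMemClass.coe_one] at this
    exact eq_inv_of_mul_eq_one_left this
  have h2 : 0 ≤ v (((u : (placeOf h).toValuationSubring) : F)⁻¹) := by
    rw [← hinv]
    refine (v.mem_valuationSubring_of_ne_zero ?_).mp
      ((u⁻¹ : (placeOf h).toValuationSubringˣ) : (placeOf h).toValuationSubring).2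
    rw [hinv]
    exact inv_ne_zero hu0
  rw [v.map_inv hu0] at h2
  linarith

/-- the multiplicity: the value of a uniformizer of the place -/
def mult (h : v.IsNontrivial) : ℤ :=
  v (((IsDiscreteValuationRing.exists_irreducible (placeOf h).toValuationSubring).choose :
    (placeOf h).toValuationSubring) : F)

theorem eq_mult_mul_ord (h : v.IsNontrivial) {f : F} (hf : f ≠ 0) :
    v f = mult h * (placeOf h).ord f := by
  have hπ := (IsDiscreteValuationRing.exists_irreducible (placeOf h).toValuationSubring).choose_spec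
  set π := (IsDiscreteValuationRing.exists_irreducible (placeOf h).toValuationSubring).choose
  obtain ⟨u, hu⟩ := (placeOf h).exists_unit_mul_zpow hf hπ
  have hπ0 : (π : F) ≠ 0 := by
    simpa [ne_eq, ZeroMemClass.coe_eq_zero] using hπ.ne_zero
  have hu0 : ((u : (placeOf h).toValuationSubring) : F) ≠ 0 := by
    simp [ne_eq, ZeroMemClass.coe_eq_zero]
  conv_lhs => rw [hu]
  rw [v.map_mul hu0 (zpow_ne_zero _ hπ0), map_unit h u, zero_add, v.map_zpow hπ0, mul_comm]
  rfl

theorem mult_pos (h : v.IsNontrivial) : 0 < mult h := by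
  have hπ := (IsDiscreteValuationRing.exists_irreducible (placeOf h).toValuationSubring).choose_spec
  set π := (IsDiscreteValuationRing.exists_irreducible (placeOf h).toValuationSubring).choose
    with hπdef
  have hπ0 : (π : F) ≠ 0 := by
    simpa [ne_eq, ZeroMemClass.coe_eq_zero] using hπ.ne_zero
  have h1 : 0 ≤ v (π : F) := (v.mem_valuationSubring_of_ne_zero hπ0).mp π.2
  rcases h1.lt_or_eq with h2 | h2
  · exact h2
  · exfalso
    apply hπ.not_isUnit
    have hmem : (π : F)⁻¹ ∈ v.valuationSubring := by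
      rw [v.mem_valuationSubring_of_ne_zero (inv_ne_zero hπ0), v.map_inv hπ0, ← h2]
      simp
    refine isUnit_iff_exists_inv.mpr ⟨⟨_, hmem⟩, Subtype.ext ?_⟩
    show (π : F) * (π : F)⁻¹ = 1
    exact mul_inv_cancel₀ hπ0

theorem ord_pos_iff (h : v.IsNontrivial) {f : F} (hf : f ≠ 0) :
    0 < (placeOf h).ord f ↔ 0 < v f := by
  rw [eq_mult_mul_ord h hf]
  constructor
  · intro h1
    exact mul_pos (mult_pos h) h1
  · intro h1
    exact (pos_iff_pos_of_mul_pos h1).mp (mult_pos h)

theorem placeOf_congr {v w : IntVal K F} (hv : v.IsNontrivial) (hw : w.IsNontrivial)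
    (h : ∀ f, v f = w f) : placeOf hv = placeOf hw ∧ mult hv = mult hw := by
  obtain rfl : v = w := IntVal.ext h
  exact ⟨rfl, rfl⟩

end IntVal

end Fermat.Agent.S24
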