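import Mathlib
import Fermat.Agent.S24.IntVal

set_option autoImplicit false

noncomputable section

namespace Fermat.Agent.S24

open AlgebraicCurve MulAction

/-- the places of `F` at which `x` has positive order -/
abbrev Fibre (K : Type*) {F : Type*} [Field K] [Field F] [Algebra K F] (x : F) : Type _ :=
  {w : Place K F // 0 < w.ord x}

/-- A family of integer valuations all taking the same positive value `e₀` at `x`. -/
structure OrbitData (K : Type*) {F : Type*} [Field K] [Field F] [Algebra K F] (x : F)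
    (I : Type*) where
  /-- the valuations -/
  V : I → IntVal K F
  /-- the common value at `x` -/
  e₀ : ℕ
  he₀ : 0 < e₀
  hx0 : x ≠ 0
  hVx : ∀ i, V i x = e₀

namespace OrbitData

variable {K F : Type*} [Field K] [Field F] [Algebra K F] {x : F} {I : Type*}
  (D : OrbitData K x I)

theorem nontrivial (i : I) : (D.V i).IsNontrivial :=
  ⟨x, D.hx0, by rw [D.hVx]; exact_mod_cast D.he₀.ne'⟩

/-- the place induced by `V i` -/
def place (i : I) : Fibre K x :=
  ⟨IntVal.placeOf (D.nontrivial i),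
    (IntVal.ord_pos_iff _ D.hx0).mpr (by rw [D.hVx]; exact_mod_cast D.he₀)⟩

/-- the multiplicity of `V i` with respect to its place -/
def mult (i : I) : ℤ := IntVal.mult (D.nontrivial i)

theorem eq_mult_mul_ord (i : I) {f : F} (hf : f ≠ 0) :
    D.V i f = D.mult i * (D.place i).1.ord f :=
  IntVal.eq_mult_mul_ord _ hf

theorem mult_pos (i : I) : 0 < D.mult i := IntVal.mult_pos _

theorem mult_mul_ord_x (i : I) : D.mult i * (D.place i).1.ord x = D.e₀ := by
  rw [← D.eq_mult_mul_ord i D.hx0, D.hVx]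

theorem place_mult_congr {i i' : I} (h : ∀ f, D.V i f = D.V i' f) :
    D.place i = D.place i' ∧ D.mult i = D.mult i' := by
  have h := IntVal.placeOf_congr (D.nontrivial i) (D.nontrivial i') h
  exact ⟨Subtype.ext h.1, h.2⟩

variable {G : Type*} [Group G] [MulAction G I] (g : G)

theorem smul_zpowers (hsymm : ∀ i f, D.V (g • i) f = D.V i f) (z : Subgroup.zpowers g) (i : I) :
    D.place (z • i) = D.place i ∧ D.mult (z • i) = D.mult i := by
  let H : Subgroup G :=
    { carrier := {a | ∀ i, D.place (a • i) = D.place i ∧ D.mult (a • i) = D.mult i}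
      mul_mem' := by
        intro a b ha hb i
        rw [mul_smul]
        exact ⟨(ha _).1.trans (hb _).1, (ha _).2.trans (hb _).2⟩
      one_mem' := by
        intro i
        rw [one_smul]
        exact ⟨rfl, rfl⟩
      inv_mem' := by
        intro a ha i
        have := ha (a⁻¹ • i)
        rw [smul_inv_smul] at this
        exact ⟨this.1.symm, this.2.symm⟩ }
  have hle : Subgroup.zpowers g ≤ H :=
    (Subgroup.zpowers_le).mpr (fun i => D.place_mult_congr (hsymm i))
  exact hle z.2 i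

end OrbitData

section Main

variable {K F : Type*} [Field K] [Field F] [Algebra K F]

/-- **The orbit lemma** (strong form: the bijection sends the orbit of `i` to `D.place i`). -/
theorem orbit_lemma (k : IntermediateField K F) [FiniteDimensional k F] (x : F)
    [Finite (Fibre K x)]
    (hN : ∀ f : F, f ≠ 0 → ∀ w₀ : Place K F, 0 < w₀.ord x →
      w₀.ord (algebraMap k F (Algebra.norm k f)) = w₀.ord x * ∑ᶠ w : Fibre K x, w.1.ord f)
    (hWA : ∀ w : Fibre K x, ∃ f : F, f ≠ 0 ∧ w.1.ord f = 1 ∧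
      ∀ w' : Fibre K x, w' ≠ w → w'.1.ord f = 0)
    {I : Type*} [Fintype I] [Nonempty I] {G : Type*} [Group G] [MulAction G I] (g : G)
    (D : OrbitData K x I)
    (hnorm : ∀ f : F, f ≠ 0 → ∀ i₀ : I,
      ∑ i, D.V i f = D.V i₀ (algebraMap k F (Algebra.norm k f)))
    (hsymm : ∀ i f, D.V (g • i) f = D.V i f)
    (hg : ∀ i : I, g ^ D.e₀ • i = i)
    (hdiv : ∀ (i : I) (h : ℕ), h ∣ D.e₀ → g ^ h • i = i → ∀ f : F, f ≠ 0 →
      ((D.e₀ / h : ℕ) : ℤ) ∣ D.V i f) :
    ∃ φ : orbitRel.Quotient (Subgroup.zpowers g) I ≃ Fibre K x,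
      (∀ i : I, φ (Quotient.mk'' i) = D.place i) ∧
      ∀ o, ((φ o).1.ord x : ℤ) = Nat.card o.orbit := by
  classical
  have : Fintype (Fibre K x) := Fintype.ofFinite _
  have hN' : ∀ f : F, f ≠ 0 → ∀ w₀ : Place K F, 0 < w₀.ord x →
      w₀.ord (algebraMap k F (Algebra.norm k f)) = w₀.ord x * ∑ w : Fibre K x, w.1.ord f := by
    intro f hf w₀ hw₀
    rw [hN f hf w₀ hw₀, finsum_eq_sum_of_fintype]
  -- Step 3 : the norm formula in terms of the `V i`
  have key : ∀ f : F, f ≠ 0 → ∑ i, D.V i f = D.e₀ * ∑ w : Fibre K x, w.1.ord f := by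
    intro f hf
    obtain ⟨i₀⟩ := ‹Nonempty I›
    have hNf : algebraMap k F (Algebra.norm k f) ≠ 0 := by
      rw [Ne, map_eq_zero_iff _ (algebraMap k F).injective, Algebra.norm_eq_zero_iff]
      exact hf
    rw [hnorm f hf i₀, D.eq_mult_mul_ord i₀ hNf, hN' f hf _ (D.place i₀).2, ← mul_assoc,
      D.mult_mul_ord_x]
  -- Step 4 : the sum of the multiplicities over a fibre
  have fibsum : ∀ w : Fibre K x, ∑ i ∈ Finset.univ.filter (fun i => D.place i = w), D.mult i
      = D.e₀ := by
    intro w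
    obtain ⟨f, hf, hfw, hfw'⟩ := hWA w
    have h1 : ∑ w' : Fibre K x, w'.1.ord f = 1 := by
      rw [Finset.sum_eq_single w (fun w' _ hw' => hfw' w' hw') (fun h => absurd (Finset.mem_univ w) h),
        hfw]
    have h2 := key f hf
    rw [h1, mul_one] at h2
    rw [← h2, Finset.sum_filter]
    refine Finset.sum_congr rfl fun i _ => ?_
    rw [D.eq_mult_mul_ord i hf]
    split_ifs with h
    · rw [h, hfw, mul_one]
    · rw [hfw' _ h, mul_zero]
  -- Step 6 : the fibre of `place` through `i` is the orbit of `i`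
  have hper : ∀ i : I, 0 < period g i ∧ period g i ∣ D.e₀ := fun i =>
    ⟨period_pos_of_fixed D.he₀ (hg i), pow_smul_eq_iff_period_dvd.mp (hg i)⟩
  have hmult_ge : ∀ i : I, ((D.e₀ / period g i : ℕ) : ℤ) ≤ D.mult i := by
    intro i
    obtain ⟨π, hπ⟩ := IsDiscreteValuationRing.exists_irreducible (D.place i).1.toValuationSubring
    have hπ0 : (π : F) ≠ 0 := by
      simpa [ne_eq, ZeroMemClass.coe_eq_zero] using hπ.ne_zero
    have h1 := hdiv i (period g i) (hper i).2 (pow_period_smul g i) (π : F) hπ0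
    rw [D.eq_mult_mul_ord i hπ0, (D.place i).1.ord_coe_irreducible hπ, mul_one] at h1
    exact Int.le_of_dvd (D.mult_pos i) h1
  have horb_card : ∀ i : I, (Finset.univ.filter (fun i' => i' ∈ orbit (Subgroup.zpowers g) i)).card
      = period g i := by
    intro i
    rw [period_eq_minimalPeriod, minimalPeriod_eq_card, ← Set.toFinset_card]
    congr 1
    ext i'
    simp
  have horb_sub : ∀ i : I, Finset.univ.filter (fun i' => i' ∈ orbit (Subgroup.zpowers g) i)
      ⊆ Finset.univ.filter (fun i' => D.place i' = D.place i) := by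
    intro i i' hi'
    simp only [Finset.mem_filter, Finset.mem_univ, true_and] at hi' ⊢
    obtain ⟨z, rfl⟩ := hi'
    exact (D.smul_zpowers g hsymm z i).1
  have horb_sum : ∀ i : I,
      ∑ i' ∈ Finset.univ.filter (fun i' => i' ∈ orbit (Subgroup.zpowers g) i), D.mult i'
        = period g i * D.mult i := by
    intro i
    rw [← horb_card i, ← nsmul_eq_mul, ← Finset.sum_const]
    refine Finset.sum_congr rfl fun i' hi' => ?_
    simp only [Finset.mem_filter, Finset.mem_univ, true_and] at hi'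
    obtain ⟨z, rfl⟩ := hi'
    exact (D.smul_zpowers g hsymm z i).2
  have hper_mul : ∀ i : I, (period g i : ℤ) * D.mult i = D.e₀ := by
    intro i
    apply le_antisymm
    · rw [← horb_sum i, ← fibsum (D.place i)]
      exact Finset.sum_le_sum_of_subset_of_nonneg (horb_sub i)
        (fun i' _ _ => (D.mult_pos i').le)
    · have h1 : ((period g i : ℕ) : ℤ) * ((D.e₀ / period g i : ℕ) : ℤ) = D.e₀ := by
        rw [← Nat.cast_mul, Nat.mul_div_cancel' (hper i).2]
      rw [← h1]
      exact mul_le_mul_of_nonneg_left (hmult_ge i) (Nat.cast_nonneg _)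
  have hfib_eq : ∀ i : I, Finset.univ.filter (fun i' => D.place i' = D.place i)
      = Finset.univ.filter (fun i' => i' ∈ orbit (Subgroup.zpowers g) i) := by
    intro i
    symm
    apply Finset.Subset.antisymm (horb_sub i)
    intro i' hi'
    by_contra hni'
    have hlt : ∑ i'' ∈ Finset.univ.filter (fun i' => i' ∈ orbit (Subgroup.zpowers g) i), D.mult i''
        < ∑ i'' ∈ Finset.univ.filter (fun i' => D.place i' = D.place i), D.mult i'' :=
      Finset.sum_lt_sum_of_subset (horb_sub i) hi' hni' (D.mult_pos i')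
        (fun i'' _ _ => (D.mult_pos i'').le)
    rw [horb_sum i, hper_mul i, fibsum] at hlt
    exact lt_irrefl _ hlt
  -- Step 7 : the bijection
  let φ₀ : orbitRel.Quotient (Subgroup.zpowers g) I → Fibre K x :=
    Quotient.lift (fun i => D.place i) (by
      intro i i' hii'
      change i ∈ orbit (Subgroup.zpowers g) i' at hii'
      obtain ⟨z, rfl⟩ := hii'
      exact (D.smul_zpowers g hsymm z i').1)
  have hφ₀_inj : Function.Injective φ₀ := by
    intro o o' hoo'
    induction o using Quotient.inductionOn with | _ i => ?_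
    induction o' using Quotient.inductionOn with | _ i' => ?_
    change D.place i = D.place i' at hoo'
    apply Quotient.sound
    change i ∈ orbit (Subgroup.zpowers g) i'
    have : i ∈ Finset.univ.filter (fun i'' => D.place i'' = D.place i') := by
      simp [hoo']
    rw [hfib_eq i'] at this
    simpa using this
  have hφ₀_surj : Function.Surjective φ₀ := by
    intro w
    have h1 := fibsum w
    have hne : (Finset.univ.filter (fun i => D.place i = w)).Nonempty := by
      by_contra hempty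
      rw [Finset.not_nonempty_iff_eq_empty] at hempty
      rw [hempty, Finset.sum_empty] at h1
      have := D.he₀
      omega
    obtain ⟨i, hi⟩ := hne
    simp only [Finset.mem_filter, Finset.mem_univ, true_and] at hi
    exact ⟨Quotient.mk'' i, hi⟩
  refine ⟨Equiv.ofBijective φ₀ ⟨hφ₀_inj, hφ₀_surj⟩, fun i => rfl, fun o => ?_⟩
  induction o using Quotient.inductionOn with | _ i => ?_
  change ((D.place i).1.ord x : ℤ) = Nat.card (orbitRel.Quotient.orbit (Quotient.mk'' i))
  rw [orbitRel.Quotient.orbit_mk, Nat.card_eq_fintype_card, ← minimalPeriod_eq_card,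
    ← period_eq_minimalPeriod]
  have h1 := D.mult_mul_ord_x i
  rw [← hper_mul i, mul_comm (period g i : ℤ)] at h1
  exact mul_left_cancel₀ (D.mult_pos i).ne' h1

/-- The orbit lemma, weak form (without the identification `φ ⟦i⟧ = D.place i`). -/
theorem orbit_lemma_weak (k : IntermediateField K F) [FiniteDimensional k F] (x : F)
    [Finite (Fibre K x)]
    (hN : ∀ f : F, f ≠ 0 → ∀ w₀ : Place K F, 0 < w₀.ord x →
      w₀.ord (algebraMap k F (Algebra.norm k f)) = w₀.ord x * ∑ᶠ w : Fibre K x, w.1.ord f)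
    (hWA : ∀ w : Fibre K x, ∃ f : F, f ≠ 0 ∧ w.1.ord f = 1 ∧
      ∀ w' : Fibre K x, w' ≠ w → w'.1.ord f = 0)
    {I : Type*} [Fintype I] [Nonempty I] {G : Type*} [Group G] [MulAction G I] (g : G)
    (D : OrbitData K x I)
    (hnorm : ∀ f : F, f ≠ 0 → ∀ i₀ : I,
      ∑ i, D.V i f = D.V i₀ (algebraMap k F (Algebra.norm k f)))
    (hsymm : ∀ i f, D.V (g • i) f = D.V i f)
    (hg : ∀ i : I, g ^ D.e₀ • i = i)
    (hdiv : ∀ (i : I) (h : ℕ), h ∣ D.e₀ → g ^ h • i = i → ∀ f : F, f ≠ 0 →
      ((D.e₀ / h : ℕ) : ℤ) ∣ D.V i f) :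
    ∃ φ : orbitRel.Quotient (Subgroup.zpowers g) I ≃ Fibre K x,
      ∀ o, ((φ o).1.ord x : ℤ) = Nat.card o.orbit := by
  obtain ⟨φ, -, hφ⟩ := orbit_lemma k x hN hWA g D hnorm hsymm hg hdiv
  exact ⟨φ, hφ⟩

/-- Corollary: the number of places in the fibre is the number of orbits. -/
theorem card_fibre_eq_card_orbits (k : IntermediateField K F) [FiniteDimensional k F] (x : F)
    [Finite (Fibre K x)]
    (hN : ∀ f : F, f ≠ 0 → ∀ w₀ : Place K F, 0 < w₀.ord x →
      w₀.ord (algebraMap k F (Algebra.norm k f)) = w₀.ord x * ∑ᶠ w : Fibre K x, w.1.ord f)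
    (hWA : ∀ w : Fibre K x, ∃ f : F, f ≠ 0 ∧ w.1.ord f = 1 ∧
      ∀ w' : Fibre K x, w' ≠ w → w'.1.ord f = 0)
    {I : Type*} [Fintype I] [Nonempty I] {G : Type*} [Group G] [MulAction G I] (g : G)
    (D : OrbitData K x I)
    (hnorm : ∀ f : F, f ≠ 0 → ∀ i₀ : I,
      ∑ i, D.V i f = D.V i₀ (algebraMap k F (Algebra.norm k f)))
    (hsymm : ∀ i f, D.V (g • i) f = D.V i f)
    (hg : ∀ i : I, g ^ D.e₀ • i = i)
    (hdiv : ∀ (i : I) (h : ℕ), h ∣ D.e₀ → g ^ h • i = i → ∀ f : F, f ≠ 0 →
      ((D.e₀ / h : ℕ) : ℤ) ∣ D.V i f) :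
    Nat.card (Fibre K x) = Nat.card (orbitRel.Quotient (Subgroup.zpowers g) I) := by
  obtain ⟨φ, -, -⟩ := orbit_lemma k x hN hWA g D hnorm hsymm hg hdiv
  exact (Nat.card_congr φ).symm

/-- Corollary: the sum of the ramification indices over the fibre is the number of
valuations. -/
theorem sum_ord_fibre_eq_card (k : IntermediateField K F) [FiniteDimensional k F] (x : F)
    [Finite (Fibre K x)]
    (hN : ∀ f : F, f ≠ 0 → ∀ w₀ : Place K F, 0 < w₀.ord x →
      w₀.ord (algebraMap k F (Algebra.norm k f)) = w₀.ord x * ∑ᶠ w : Fibre K x, w.1.ord f)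
    (hWA : ∀ w : Fibre K x, ∃ f : F, f ≠ 0 ∧ w.1.ord f = 1 ∧
      ∀ w' : Fibre K x, w' ≠ w → w'.1.ord f = 0)
    {I : Type*} [Fintype I] [Nonempty I] {G : Type*} [Group G] [MulAction G I] (g : G)
    (D : OrbitData K x I)
    (hnorm : ∀ f : F, f ≠ 0 → ∀ i₀ : I,
      ∑ i, D.V i f = D.V i₀ (algebraMap k F (Algebra.norm k f)))
    (hsymm : ∀ i f, D.V (g • i) f = D.V i f)
    (hg : ∀ i : I, g ^ D.e₀ • i = i)
    (hdiv : ∀ (i : I) (h : ℕ), h ∣ D.e₀ → g ^ h • i = i → ∀ f : F, f ≠ 0 →
      ((D.e₀ / h : ℕ) : ℤ) ∣ D.V i f) :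
    ∑ᶠ w : Fibre K x, w.1.ord x = Fintype.card I := by
  classical
  obtain ⟨φ, -, hφ⟩ := orbit_lemma k x hN hWA g D hnorm hsymm hg hdiv
  have : Fintype (Fibre K x) := Fintype.ofFinite _
  have : Fintype (orbitRel.Quotient (Subgroup.zpowers g) I) := Fintype.ofFinite _
  rw [finsum_eq_sum_of_fintype, ← Equiv.sum_comp φ]
  simp_rw [hφ]
  rw [← Nat.cast_sum]
  congr 1
  have e := selfEquivSigmaOrbits' (Subgroup.zpowers g) I
  rw [Fintype.card_congr e, Fintype.card_sigma]
  exact Finset.sum_congr rfl fun o _ => Nat.card_eq_fintype_card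

/-- Corollary (unramified case): if `e₀ = 1` then every place in the fibre is unramified and the
fibre has as many places as there are valuations. -/
theorem unramified_of_norm (k : IntermediateField K F) [FiniteDimensional k F] (x : F)
    [Finite (Fibre K x)]
    (hN : ∀ f : F, f ≠ 0 → ∀ w₀ : Place K F, 0 < w₀.ord x →
      w₀.ord (algebraMap k F (Algebra.norm k f)) = w₀.ord x * ∑ᶠ w : Fibre K x, w.1.ord f)
    (hWA : ∀ w : Fibre K x, ∃ f : F, f ≠ 0 ∧ w.1.ord f = 1 ∧
      ∀ w' : Fibre K x, w' ≠ w → w'.1.ord f = 0)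
    {I : Type*} [Fintype I] [Nonempty I]
    (D : OrbitData K x I) (he : D.e₀ = 1)
    (hnorm : ∀ f : F, f ≠ 0 → ∀ i₀ : I,
      ∑ i, D.V i f = D.V i₀ (algebraMap k F (Algebra.norm k f))) :
    (∀ w : Fibre K x, w.1.ord x = 1) ∧ Nat.card (Fibre K x) = Fintype.card I := by
  classical
  obtain ⟨φ, -, hφ⟩ := orbit_lemma k x hN hWA (1 : Equiv.Perm I) D hnorm
    (fun i f => by rw [one_smul]) (fun i => by rw [one_pow, one_smul])
    (fun i h hh _ f _ => by
      rw [he, Nat.dvd_one] at hh
      rw [he, hh]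
      simp)
  have horb : ∀ o : orbitRel.Quotient (Subgroup.zpowers (1 : Equiv.Perm I)) I,
      Nat.card o.orbit = 1 := by
    intro o
    induction o using Quotient.inductionOn with | _ i => ?_
    change Nat.card (orbitRel.Quotient.orbit (Quotient.mk'' i)) = 1
    rw [orbitRel.Quotient.orbit_mk, Nat.card_eq_fintype_card, ← minimalPeriod_eq_card]
    exact Function.minimalPeriod_eq_one_iff_isFixedPt.mpr (one_smul _ i)
  refine ⟨fun w => ?_, ?_⟩
  · have := hφ (φ.symm w)
    rw [Equiv.apply_symm_apply, horb] at this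
    exact_mod_cast this
  · rw [← Nat.card_congr φ, ← Nat.card_eq_fintype_card]
    have e := selfEquivSigmaOrbits' (Subgroup.zpowers (1 : Equiv.Perm I)) I
    have : Fintype (orbitRel.Quotient (Subgroup.zpowers (1 : Equiv.Perm I)) I) :=
      Fintype.ofFinite _
    rw [Nat.card_eq_fintype_card (α := I), Fintype.card_congr e, Fintype.card_sigma,
      Nat.card_eq_fintype_card]
    rw [Finset.sum_congr rfl fun o _ => (Nat.card_eq_fintype_card (α := o.orbit)).symm.trans (horb o)]
    simp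

/-- Corollary: every place of the fibre is the place of one of the valuations. -/
theorem exists_place_eq (k : IntermediateField K F) [FiniteDimensional k F] (x : F)
    [Finite (Fibre K x)]
    (hN : ∀ f : F, f ≠ 0 → ∀ w₀ : Place K F, 0 < w₀.ord x →
      w₀.ord (algebraMap k F (Algebra.norm k f)) = w₀.ord x * ∑ᶠ w : Fibre K x, w.1.ord f)
    (hWA : ∀ w : Fibre K x, ∃ f : F, f ≠ 0 ∧ w.1.ord f = 1 ∧
      ∀ w' : Fibre K x, w' ≠ w → w'.1.ord f = 0)
    {I : Type*} [Fintype I] [Nonempty I] {G : Type*} [Group G] [MulAction G I] (g : G)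
    (D : OrbitData K x I)
    (hnorm : ∀ f : F, f ≠ 0 → ∀ i₀ : I,
      ∑ i, D.V i f = D.V i₀ (algebraMap k F (Algebra.norm k f)))
    (hsymm : ∀ i f, D.V (g • i) f = D.V i f)
    (hg : ∀ i : I, g ^ D.e₀ • i = i)
    (hdiv : ∀ (i : I) (h : ℕ), h ∣ D.e₀ → g ^ h • i = i → ∀ f : F, f ≠ 0 →
      ((D.e₀ / h : ℕ) : ℤ) ∣ D.V i f)
    (w : Fibre K x) :
    ∃ i : I, w = D.place i ∧ 0 < D.mult i ∧ ∀ f : F, f ≠ 0 → D.V i f = D.mult i * w.1.ord f := by
  obtain ⟨φ, hφ, -⟩ := orbit_lemma k x hN hWA g D hnorm hsymm hg hdiv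
  obtain ⟨o, rfl⟩ := φ.surjective w
  induction o using Quotient.inductionOn with | _ i => ?_
  refine ⟨i, hφ i, D.mult_pos i, fun f hf => ?_⟩
  rw [show φ (Quotient.mk _ i) = D.place i from hφ i]
  exact D.eq_mult_mul_ord i hf

/-- The norm hypothesis of the orbit lemma, from a product formula for embeddings. -/
theorem hnorm_of_prod (k : IntermediateField K F) {E : Type*} [Field E] [Algebra K E]
    (vE : IntVal K E) {I : Type*} [Fintype I] (σ : I → F →ₐ[K] E)
    (hprod : ∀ (f : F) (i₀ : I), σ i₀ (algebraMap k F (Algebra.norm k f)) = ∏ i, σ i f)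
    (f : F) (hf : f ≠ 0) (i₀ : I) :
    ∑ i, IntVal.comap (σ i) vE f = IntVal.comap (σ i₀) vE (algebraMap k F (Algebra.norm k f)) := by
  simp only [IntVal.comap_apply]
  rw [hprod f i₀, vE.map_prod]
  intro i _
  exact (map_ne_zero (σ i).toRingHom).mpr hf

end Main

end Fermat.Agent.S24
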