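import Mathlib
import Fermat.Agent.S24_helper6.PlaceDict
import Fermat.Agent.S24.LOC
import Fermat.Agent.S24_helper38.OrdBasic

/-!
# S24 — NORM: finiteness of a fibre, the norm formula and weak approximation in `Place` language

Abstract "AKLB" part: `A` a Dedekind domain with fraction field `k`, `F / k` finite separable,
`B` the integral closure of `A` in `F`; `x₀ : A` generates a maximal ideal with residue field `K`
(algebraically closed).  The places of `F / K` at which `x = x₀` has positive order are the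
height-one primes of `B` containing `x₀`.
-/

set_option autoImplicit false
set_option linter.unusedSectionVars false

noncomputable section

namespace Fermat.Agent.S24.Norm

open AlgebraicCurve IsDedekindDomain IsDedekindDomain.HeightOneSpectrum WithZero
open Fermat.Agent.S24 Fermat.Agent.S24_helper6 Polynomial

section Contains

variable {K F : Type*} [Field K] [Field F] [Algebra K F]
  {A : Type*} [CommRing A] [Algebra A F]
  {B : Type*} [CommRing B] [Algebra A B] [Algebra B F] [IsScalarTower A B F]
  [IsIntegralClosure B A F]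

/-- A valuation subring containing `A` contains every element integral over `A`. -/
theorem mem_of_isIntegral (O : ValuationSubring F) (hA : ∀ a : A, algebraMap A F a ∈ O) (y : F)
    (hy : IsIntegral A y) : y ∈ O := by
  obtain ⟨p, hp, hpy⟩ := hy
  let φ : A →+* O := (algebraMap A F).codRestrict O.toSubring hA
  have h1 : IsIntegral O y := by
    refine ⟨p.map φ, hp.map φ, ?_⟩
    rw [eval₂_map]
    exact hpy
  obtain ⟨z, hz⟩ := IsIntegrallyClosed.isIntegral_iff.mp h1
  rw [← hz]
  exact z.2

/-- If `A ⊆ O_w` then `B ⊆ O_w`. -/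
theorem containsB_of (w : Place K F) (hA : ∀ a : A, algebraMap A F a ∈ w.toValuationSubring) :
    ContainsB B w := by
  intro b
  refine mem_of_isIntegral w.toValuationSubring hA _ ?_
  have h := IsIntegralClosure.isIntegral A F b
  have h2 := h.map (IsScalarTower.toAlgHom A B F)
  simpa using h2

end Contains

section Fibre

variable {K F : Type*} [Field K] [Field F] [Algebra K F]
  {A : Type*} [CommRing A] [Algebra A F]
  {B : Type*} [CommRing B] [IsDedekindDomain B] [Algebra A B] [Algebra B F] [IsScalarTower A B F]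
  [IsIntegralClosure B A F] [Algebra K B] [IsScalarTower K B F] [IsFractionRing B F]

/-- The height-one primes of `B` containing `b₀`. -/
abbrev PrimesAt (b₀ : B) : Type _ := {P : HeightOneSpectrum B // b₀ ∈ P.asIdeal}

theorem finite_primesAt {b₀ : B} (hb₀ : b₀ ≠ 0) : Finite (PrimesAt b₀) := by
  have h := Ideal.finite_factors (R := B) (I := Ideal.span {b₀}) (by simpa using hb₀)
  refine Set.Finite.to_subtype (h.subset ?_)
  intro P hP
  show P.asIdeal ∣ Ideal.span {b₀}
  rw [Ideal.dvd_span_singleton]
  exact hP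

variable (A) in
/-- The dictionary between the fibre of places `{w | 0 < w.ord x}` and the primes of `B`
containing `b₀`, where `x` is the image of `b₀`. -/
def fibreEquiv (b₀ : B) (hb₀ : b₀ ≠ 0)
    (hA : ∀ w : Place K F, 0 < w.ord (algebraMap B F b₀) →
      ∀ a : A, algebraMap A F a ∈ w.toValuationSubring) :
    Fibre K (algebraMap B F b₀) ≃ PrimesAt b₀ where
  toFun w := ⟨primeOfPlace w.1 (containsB_of w.1 (hA w.1 w.2)), by
    have h := w.2
    rw [← placeOfPrime_primeOfPlace w.1 (containsB_of (B := B) w.1 (hA w.1 w.2)),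
      placeOfPrime_ord_algebraMap_pos_iff _ hb₀] at h
    exact h⟩
  invFun P := ⟨placeOfPrime P.1, (placeOfPrime_ord_algebraMap_pos_iff _ hb₀).mpr P.2⟩
  left_inv w := Subtype.ext (placeOfPrime_primeOfPlace w.1 _)
  right_inv P := Subtype.ext (primeOfPlace_placeOfPrime P.1)

theorem fibreEquiv_symm_ord (b₀ : B) (hb₀ : b₀ ≠ 0)
    (hA : ∀ w : Place K F, 0 < w.ord (algebraMap B F b₀) →
      ∀ a : A, algebraMap A F a ∈ w.toValuationSubring) (P : PrimesAt b₀) (f : F) :
    ((fibreEquiv A b₀ hb₀ hA).symm P).1.ord f = -(log (P.1.valuation F f)) :=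
  placeOfPrime_ord P.1 f

theorem finite_fibre (b₀ : B) (hb₀ : b₀ ≠ 0)
    (hA : ∀ w : Place K F, 0 < w.ord (algebraMap B F b₀) →
      ∀ a : A, algebraMap A F a ∈ w.toValuationSubring) :
    Finite (Fibre K (algebraMap B F b₀)) :=
  have := finite_primesAt hb₀
  Finite.of_equiv _ (fibreEquiv A b₀ hb₀ hA).symm

end Fibre

section WeakApprox

variable {B : Type*} [CommRing B] [IsDedekindDomain B]

/-- Weak approximation for finitely many height-one primes of a Dedekind domain: an element with
valuation `exp (-1)` at `P` and valuation `1` at the other primes of the finite family. -/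
theorem exists_intValuation_eq {ι : Type*} [Fintype ι] [DecidableEq ι] (Q : ι → HeightOneSpectrum B)
    (hQ : Function.Injective Q) (i₀ : ι) :
    ∃ y : B, (Q i₀).intValuation y = exp (-1 : ℤ) ∧ ∀ i, i ≠ i₀ → (Q i).intValuation y = 1 := by
  obtain ⟨π, hπ⟩ := (Q i₀).intValuation_exists_uniformizer
  obtain ⟨y, hy⟩ := IsDedekindDomain.exists_forall_sub_mem_ideal (s := Finset.univ)
    (fun i => (Q i).asIdeal) (fun i => if i = i₀ then 2 else 1)
    (fun i _ => (Q i).prime)
    (fun i _ j _ hij h => hij (hQ (HeightOneSpectrum.ext h)))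
    (fun i => if i.1 = i₀ then π else 1)
  refine ⟨y, ?_, ?_⟩
  · have h := hy i₀ (Finset.mem_univ _)
    simp only [if_true] at h
    have h2 : (Q i₀).intValuation (y - π) ≤ exp (-((2 : ℕ) : ℤ)) :=
      ((Q i₀).intValuation_le_pow_iff_mem _ 2).mpr h
    have h3 : (Q i₀).intValuation (y - π) < (Q i₀).intValuation π := by
      rw [hπ]
      refine h2.trans_lt ?_
      rw [exp_lt_exp]
      norm_num
    have h4 : y = π + (y - π) := by ring
    rw [h4, Valuation.map_add_eq_of_lt_left _ h3, hπ]
  · intro i hi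
    have h := hy i (Finset.mem_univ _)
    simp only [if_neg hi, pow_one] at h
    have h2 : (Q i).intValuation (y - 1) < 1 := ((Q i).intValuation_lt_one_iff_mem _).mpr h
    have h4 : y = 1 + (y - 1) := by ring
    rw [h4, Valuation.map_add_eq_of_lt_left _ (by rwa [map_one]), map_one]

end WeakApprox

section FibreWA

variable {K F : Type*} [Field K] [Field F] [Algebra K F]
  {A : Type*} [CommRing A] [Algebra A F]
  {B : Type*} [CommRing B] [IsDedekindDomain B] [Algebra A B] [Algebra B F] [IsScalarTower A B F]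
  [IsIntegralClosure B A F] [Algebra K B] [IsScalarTower K B F] [IsFractionRing B F]

/-- Weak approximation in the fibre, in `Place` language (hypothesis `hWA` of the orbit lemma). -/
theorem weakApprox_fibre (b₀ : B) (hb₀ : b₀ ≠ 0)
    (hA : ∀ w : Place K F, 0 < w.ord (algebraMap B F b₀) →
      ∀ a : A, algebraMap A F a ∈ w.toValuationSubring)
    (w : Fibre K (algebraMap B F b₀)) :
    ∃ f : F, f ≠ 0 ∧ w.1.ord f = 1 ∧
      ∀ w' : Fibre K (algebraMap B F b₀), w' ≠ w → w'.1.ord f = 0 := by
  classical
  have := finite_primesAt hb₀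
  have : Fintype (PrimesAt b₀) := Fintype.ofFinite _
  let e := fibreEquiv (K := K) (F := F) A b₀ hb₀ hA
  obtain ⟨y, hy1, hy2⟩ := exists_intValuation_eq (fun P : PrimesAt b₀ => P.1)
    Subtype.val_injective (e w)
  have hy0 : y ≠ 0 := by
    rintro rfl
    rw [map_zero] at hy1
    exact WithZero.exp_ne_zero hy1.symm
  have hord : ∀ w' : Fibre K (algebraMap B F b₀),
      w'.1.ord (algebraMap B F y) = -(log ((e w').1.intValuation y)) := by
    intro w'
    have h := fibreEquiv_symm_ord (K := K) (F := F) (A := A) b₀ hb₀ hA (e w') (algebraMap B F y)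
    rw [Equiv.symm_apply_apply, valuation_of_algebraMap] at h
    exact h
  refine ⟨algebraMap B F y, ?_, ?_, ?_⟩
  · exact (map_ne_zero_iff _ (IsFractionRing.injective B F)).mpr hy0
  · rw [hord, hy1, log_exp, neg_neg]
  · intro w' hw'
    rw [hord, hy2 (e w') (fun h => hw' (e.injective h)), log_one, neg_zero]

end FibreWA

section RelNorm

open Ideal Module

variable {A : Type*} [CommRing A] [IsDedekindDomain A]
  {B : Type*} [CommRing B] [IsDedekindDomain B] [Algebra A B] [Module.Finite A B]
  [Module.IsTorsionFree A B] [PerfectField (FractionRing A)]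

theorem multiplicity_prime_prime {P Q : Ideal B} (hP : P.IsMaximal) (hQ : Q.IsMaximal)
    (hQ0 : Q ≠ ⊥) :
    multiplicity P Q = if P = Q then 1 else 0 := by
  split_ifs with h
  · rw [h]
    exact multiplicity_self
  · rw [multiplicity_eq_zero, Ideal.dvd_iff_le]
    intro hle
    exact h (hQ.eq_of_le hP.ne_top hle).symm

theorem multiplicity_relNorm (x₀ : A) (hx₀ : x₀ ≠ 0) [hmax : (Ideal.span {x₀}).IsMaximal]
    (hres : ∀ (Q : Ideal B) [Q.IsMaximal] [Q.LiesOver (Ideal.span {x₀})],
      Module.finrank (A ⧸ Ideal.span {x₀}) (B ⧸ Q) = 1)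
    [Fintype (PrimesAt (algebraMap A B x₀))]
    (I : Ideal B) (hI : I ≠ ⊥) :
    multiplicity (Ideal.span {x₀}) (Ideal.relNorm A I) =
      ∑ P : PrimesAt (algebraMap A B x₀), multiplicity P.1.asIdeal I := by
  classical
  have hp0 : Ideal.span {x₀} ≠ (⊥ : Ideal A) := by simpa using hx₀
  have hpprime : Prime (Ideal.span {x₀} : Ideal A) :=
    (Ideal.prime_iff_isPrime hp0).mpr hmax.isPrime
  induction I using UniqueFactorizationMonoid.induction_on_prime with
  | h₁ => exact absurd rfl hI
  | h₂ I hIu =>
    rw [Ideal.isUnit_iff] at hIu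
    subst hIu
    have h1 : multiplicity (Ideal.span {x₀}) (Ideal.relNorm A (⊤ : Ideal B)) = 0 := by
      rw [Ideal.relNorm_top, multiplicity_eq_zero, Ideal.dvd_iff_le, top_le_iff]
      exact hmax.ne_top
    rw [h1]
    symm
    apply Finset.sum_eq_zero
    intro P _
    rw [multiplicity_eq_zero, Ideal.dvd_iff_le, top_le_iff]
    exact P.1.isPrime.ne_top
  | h₃ J Q hJ hQ ih =>
    have hJ' : J ≠ ⊥ := hJ
    have hQ0 : Q ≠ ⊥ := hQ.ne_zero
    have hQprime : Q.IsPrime := (Ideal.prime_iff_isPrime hQ0).mp hQ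
    have hQmax : Q.IsMaximal := hQprime.isMaximal hQ0
    have ih' := ih hJ'
    rw [map_mul, multiplicity_mul hpprime
      (FiniteMultiplicity.of_prime_left hpprime (by
        rw [← map_mul]
        exact (Ideal.relNorm_eq_bot_iff.not).mpr hI)), ih']
    have hsum : ∑ P : PrimesAt (algebraMap A B x₀), multiplicity P.1.asIdeal (Q * J)
        = ∑ P : PrimesAt (algebraMap A B x₀), multiplicity P.1.asIdeal Q
          + ∑ P : PrimesAt (algebraMap A B x₀), multiplicity P.1.asIdeal J := by
      rw [← Finset.sum_add_distrib]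
      refine Finset.sum_congr rfl fun P _ => ?_
      exact multiplicity_mul P.1.prime (FiniteMultiplicity.of_prime_left P.1.prime hI)
    rw [hsum]
    congr 1
    -- the contribution of the prime `Q`
    by_cases hQx : algebraMap A B x₀ ∈ Q
    · -- `Q` lies over `(x₀)`
      have hle : Ideal.span {x₀} ≤ Q.under A := by
        rw [Ideal.span_singleton_le_iff_mem, Ideal.under_def, Ideal.mem_comap]
        exact hQx
      have hunder : Q.under A = Ideal.span {x₀} :=
        (hmax.eq_of_le (Ideal.IsPrime.ne_top (Ideal.IsPrime.under A Q)) hle).symm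
      have : Q.LiesOver (Ideal.span {x₀}) := ⟨hunder.symm⟩
      rw [Ideal.relNorm_eq_pow_of_isMaximal Q (Ideal.span {x₀}),
        Ideal.inertiaDeg_eq_of_isMaximal (Ideal.span {x₀}) Q, hres Q, pow_one, multiplicity_self]
      let P₀ : PrimesAt (algebraMap A B x₀) := ⟨⟨Q, hQprime, hQ0⟩, hQx⟩
      rw [Finset.sum_eq_single P₀]
      · exact multiplicity_self.symm
      · intro P _ hP
        rw [multiplicity_prime_prime (P.1.isPrime.isMaximal P.1.ne_bot) hQmax hQ0, if_neg]
        intro h
        exact hP (Subtype.ext (HeightOneSpectrum.ext h))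
      · intro h
        exact absurd (Finset.mem_univ _) h
    · -- `Q` does not lie over `(x₀)`
      have h1 : multiplicity (Ideal.span {x₀}) (Ideal.relNorm A Q) = 0 := by
        rw [multiplicity_eq_zero, Ideal.dvd_iff_le]
        intro hle
        have : (Q.under A).IsPrime := Ideal.IsPrime.under A Q
        obtain ⟨s, hs⟩ := Ideal.exists_relNorm_eq_pow_of_isPrime Q (Q.under A)
        rw [hs] at hle
        have hQn : Ideal.relNorm A Q ≠ ⊥ := (Ideal.relNorm_eq_bot_iff.not).mpr hQ0
        have hs0 : s ≠ 0 := by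
          rintro rfl
          rw [pow_zero, Ideal.one_eq_top, top_le_iff] at hle
          exact hmax.ne_top hle
        have hle' : Q.under A ≤ Ideal.span {x₀} := hmax.isPrime.le_of_pow_le hle
        have hun0 : Q.under A ≠ ⊥ := by
          intro h0
          rw [hs, h0, Ideal.bot_pow hs0] at hQn
          exact hQn rfl
        have hunmax : (Q.under A).IsMaximal := Ideal.IsPrime.isMaximal inferInstance hun0
        have heq : Q.under A = Ideal.span {x₀} := hunmax.eq_of_le hmax.ne_top hle'
        apply hQx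
        have : x₀ ∈ Q.under A := by
          rw [heq]
          exact Ideal.mem_span_singleton_self x₀
        rwa [Ideal.under_def, Ideal.mem_comap] at this
      rw [h1]
      symm
      apply Finset.sum_eq_zero
      intro P _
      rw [multiplicity_prime_prime (P.1.isPrime.isMaximal P.1.ne_bot) hQmax hQ0, if_neg]
      intro h
      apply hQx
      rw [← h]
      exact P.2

/-- the height one prime `(x₀)` -/
def primeOfGen (x₀ : A) (hx₀ : x₀ ≠ 0) [hmax : (Ideal.span {x₀}).IsMaximal] : HeightOneSpectrum A :=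
  ⟨Ideal.span {x₀}, hmax.isPrime, by simpa using hx₀⟩

theorem neg_log_intValuation_intNorm (x₀ : A) (hx₀ : x₀ ≠ 0) [hmax : (Ideal.span {x₀}).IsMaximal]
    (hres : ∀ (Q : Ideal B) [Q.IsMaximal] [Q.LiesOver (Ideal.span {x₀})],
      Module.finrank (A ⧸ Ideal.span {x₀}) (B ⧸ Q) = 1)
    [Fintype (PrimesAt (algebraMap A B x₀))] (b : B) (hb : b ≠ 0) :
    -(log ((primeOfGen x₀ hx₀).intValuation (Algebra.intNorm A B b))) =
      ∑ P : PrimesAt (algebraMap A B x₀), -(log (P.1.intValuation b)) := by
  have hI : Ideal.span {b} ≠ (⊥ : Ideal B) := by simpa using hb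
  have hN : Algebra.intNorm A B b ≠ 0 := by
    have h := (Ideal.relNorm_eq_bot_iff (R := A)).not.mpr hI
    rw [Ideal.relNorm_singleton] at h
    simpa using h
  rw [intValuation_eq_exp_neg_multiplicity _ hN, log_exp, neg_neg]
  have h := multiplicity_relNorm x₀ hx₀ hres (Ideal.span {b}) hI
  rw [Ideal.relNorm_singleton] at h
  show ((multiplicity (Ideal.span {x₀}) (Ideal.span {Algebra.intNorm A B b}) : ℕ) : ℤ) = _
  rw [h, Nat.cast_sum]
  refine Finset.sum_congr rfl fun P _ => ?_
  rw [intValuation_eq_exp_neg_multiplicity _ hb, log_exp, neg_neg]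

end RelNorm

section Field

open Ideal Module

variable {A : Type*} [CommRing A] [IsDedekindDomain A]
  {k : Type*} [Field k] [Algebra A k] [IsFractionRing A k]
  {F : Type*} [Field F] [Algebra k F] [Algebra A F] [IsScalarTower A k F] [FiniteDimensional k F]
  {B : Type*} [CommRing B] [IsDedekindDomain B] [Algebra A B] [Algebra B F] [IsScalarTower A B F]
  [IsIntegralClosure B A F] [IsFractionRing B F] [Module.Finite A B]
  [Module.IsTorsionFree A B] [PerfectField (FractionRing A)]

theorem neg_log_valuation_norm (x₀ : A) (hx₀ : x₀ ≠ 0) [hmax : (Ideal.span {x₀}).IsMaximal]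
    (hres : ∀ (Q : Ideal B) [Q.IsMaximal] [Q.LiesOver (Ideal.span {x₀})],
      Module.finrank (A ⧸ Ideal.span {x₀}) (B ⧸ Q) = 1)
    [Fintype (PrimesAt (algebraMap A B x₀))] (f : F) (hf : f ≠ 0) :
    -(log ((primeOfGen x₀ hx₀).valuation k (Algebra.norm k f))) =
      ∑ P : PrimesAt (algebraMap A B x₀), -(log (P.1.valuation F f)) := by
  obtain ⟨b, c, hc, rfl⟩ := IsFractionRing.div_surjective (A := B) f
  have hc0 : c ≠ 0 := nonZeroDivisors.ne_zero hc
  have hc0' : algebraMap B F c ≠ 0 := (map_ne_zero_iff _ (IsFractionRing.injective B F)).mpr hc0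
  have hb0 : b ≠ 0 := by
    rintro rfl
    simp at hf
  have hb0' : algebraMap B F b ≠ 0 := (map_ne_zero_iff _ (IsFractionRing.injective B F)).mpr hb0
  have hNc : Algebra.norm k (algebraMap B F c) ≠ 0 := Algebra.norm_ne_zero_iff.mpr hc0'
  have hNb : Algebra.norm k (algebraMap B F b) ≠ 0 := Algebra.norm_ne_zero_iff.mpr hb0'
  have hN : Algebra.norm k (algebraMap B F b / algebraMap B F c)
      = Algebra.norm k (algebraMap B F b) / Algebra.norm k (algebraMap B F c) := by
    rw [eq_div_iff hNc, ← map_mul, div_mul_cancel₀ _ hc0']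
  have hb := neg_log_intValuation_intNorm x₀ hx₀ hres b hb0
  have hc := neg_log_intValuation_intNorm x₀ hx₀ hres c hc0
  have hvb : (primeOfGen x₀ hx₀).valuation k (Algebra.norm k (algebraMap B F b))
      = (primeOfGen x₀ hx₀).intValuation (Algebra.intNorm A B b) := by
    rw [← Algebra.algebraMap_intNorm (A := A) (K := k) (L := F) (B := B) b, valuation_of_algebraMap]
  have hvc : (primeOfGen x₀ hx₀).valuation k (Algebra.norm k (algebraMap B F c))
      = (primeOfGen x₀ hx₀).intValuation (Algebra.intNorm A B c) := by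
    rw [← Algebra.algebraMap_intNorm (A := A) (K := k) (L := F) (B := B) c, valuation_of_algebraMap]
  have hL : -(log ((primeOfGen x₀ hx₀).valuation k
      (Algebra.norm k (algebraMap B F b / algebraMap B F c))))
      = -(log ((primeOfGen x₀ hx₀).intValuation (Algebra.intNorm A B b)))
        - -(log ((primeOfGen x₀ hx₀).intValuation (Algebra.intNorm A B c))) := by
    rw [hN, map_div₀, log_div ((Valuation.ne_zero_iff _).mpr hNb)
      ((Valuation.ne_zero_iff _).mpr hNc), hvb, hvc]
    ring
  rw [hL, hb, hc, ← Finset.sum_sub_distrib]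
  refine Finset.sum_congr rfl fun P _ => ?_
  rw [map_div₀, log_div ((Valuation.ne_zero_iff _).mpr hb0') ((Valuation.ne_zero_iff _).mpr hc0'),
    valuation_of_algebraMap, valuation_of_algebraMap]
  ring

end Field

section Residue

open Ideal Module

theorem finrank_quotient_eq_one {K : Type*} [Field K] [IsAlgClosed K]
    {A : Type*} [CommRing A] [Algebra K A]
    {B : Type*} [CommRing B] [Algebra A B] [Module.Finite A B]
    (p : Ideal A) [p.IsMaximal]
    (hK : Function.Surjective (algebraMap K (A ⧸ p)))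
    (Q : Ideal B) [Q.IsMaximal] [Q.LiesOver p] :
    Module.finrank (A ⧸ p) (B ⧸ Q) = 1 := by
  let _ : Field (A ⧸ p) := Ideal.Quotient.field p
  let _ : Field (B ⧸ Q) := Ideal.Quotient.field Q
  let f : K →+* B ⧸ Q := (algebraMap (A ⧸ p) (B ⧸ Q)).comp (algebraMap K (A ⧸ p))
  have hf : f.IsIntegral := by
    refine RingHom.IsIntegral.trans _ _ (RingHom.isIntegral_of_surjective _ hK) ?_
    exact algebraMap_isIntegral_iff.mpr inferInstance
  have hbij := IsAlgClosed.ringHom_bijective_of_isIntegral f hf
  rw [finrank_eq_one_iff_of_nonzero' (1 : B ⧸ Q) one_ne_zero]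
  intro w
  obtain ⟨c, hc⟩ := hbij.2 w
  refine ⟨algebraMap K (A ⧸ p) c, ?_⟩
  rw [Algebra.smul_def, mul_one]
  exact hc

end Residue

section Main

open Ideal Module

variable {K F : Type*} [Field K] [IsAlgClosed K] [Field F] [Algebra K F]
  {A : Type*} [CommRing A] [IsDedekindDomain A] [Algebra K A] [Algebra A F]
  {k : Type*} [Field k] [Algebra A k] [IsFractionRing A k] [Algebra k F] [IsScalarTower A k F]
  [FiniteDimensional k F]
  {B : Type*} [CommRing B] [IsDedekindDomain B] [Algebra A B] [Algebra B F] [IsScalarTower A B F]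
  [IsIntegralClosure B A F] [Algebra K B] [IsScalarTower K B F] [IsFractionRing B F]
  [Module.Finite A B] [Module.IsTorsionFree A B] [PerfectField (FractionRing A)]

/-- **Norm formula in `Place` language** (hypothesis `hN` of the orbit lemma), abstract form. -/
theorem norm_formula_fibre (x₀ : A) (hx₀ : x₀ ≠ 0) [hmax : (Ideal.span {x₀}).IsMaximal]
    (hK : Function.Surjective (algebraMap K (A ⧸ Ideal.span {x₀})))
    (hA : ∀ w : Place K F, 0 < w.ord (algebraMap B F (algebraMap A B x₀)) →
      ∀ a : A, algebraMap A F a ∈ w.toValuationSubring)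
    [Finite (Fibre K (algebraMap B F (algebraMap A B x₀)))]
    (f : F) (hf : f ≠ 0) (w₀ : Place K F)
    (hw₀ : 0 < w₀.ord (algebraMap B F (algebraMap A B x₀))) :
    w₀.ord (algebraMap k F (Algebra.norm k f)) =
      w₀.ord (algebraMap B F (algebraMap A B x₀)) *
        ∑ᶠ w : Fibre K (algebraMap B F (algebraMap A B x₀)), w.1.ord f := by
  classical
  have hb₀ : algebraMap A B x₀ ≠ 0 :=
    (map_ne_zero_iff _ (FaithfulSMul.algebraMap_injective A B)).mpr hx₀
  have := finite_primesAt hb₀
  have : Fintype (PrimesAt (algebraMap A B x₀)) := Fintype.ofFinite _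
  have : Fintype (Fibre K (algebraMap B F (algebraMap A B x₀))) := Fintype.ofFinite _
  let e := fibreEquiv (K := K) (F := F) A (algebraMap A B x₀) hb₀ hA
  have hres : ∀ (Q : Ideal B) [Q.IsMaximal] [Q.LiesOver (Ideal.span {x₀})],
      Module.finrank (A ⧸ Ideal.span {x₀}) (B ⧸ Q) = 1 := fun Q _ _ =>
    finrank_quotient_eq_one (Ideal.span {x₀}) hK Q
  -- the sum over the fibre is a sum over primes
  have hsum : ∑ᶠ w : Fibre K (algebraMap B F (algebraMap A B x₀)), w.1.ord f
      = ∑ P : PrimesAt (algebraMap A B x₀), -(log (P.1.valuation F f)) := by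
    rw [finsum_eq_sum_of_fintype, ← Equiv.sum_comp e.symm]
    refine Finset.sum_congr rfl fun P _ => ?_
    exact fibreEquiv_symm_ord (K := K) (F := F) (A := A) _ hb₀ hA P f
  -- the prime of `w₀`
  set P₀ := e ⟨w₀, hw₀⟩ with hP₀
  have hw₀ord : ∀ g : F, w₀.ord g = -(log (P₀.1.valuation F g)) := by
    intro g
    have h := fibreEquiv_symm_ord (K := K) (F := F) (A := A) _ hb₀ hA P₀ g
    rw [hP₀, Equiv.symm_apply_apply] at h
    exact h
  have hle : Ideal.span {x₀} ≤ P₀.1.asIdeal.under A := by
    rw [Ideal.span_singleton_le_iff_mem, Ideal.under_def, Ideal.mem_comap]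
    exact P₀.2
  have hunder : P₀.1.asIdeal.under A = Ideal.span {x₀} :=
    (hmax.eq_of_le (Ideal.IsPrime.ne_top (Ideal.IsPrime.under A P₀.1.asIdeal)) hle).symm
  have hlies : P₀.1.asIdeal.LiesOver (primeOfGen x₀ hx₀).asIdeal := ⟨hunder.symm⟩
  have hval : ∀ g : k, w₀.ord (algebraMap k F g)
      = ((primeOfGen x₀ hx₀).asIdeal.ramificationIdx' P₀.1.asIdeal : ℤ)
        * -(log ((primeOfGen x₀ hx₀).valuation k g)) := by
    intro g
    rw [hw₀ord, ← valuation_liesOver F (primeOfGen x₀ hx₀) P₀.1 g, log_pow]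
    simp
  have hx : algebraMap B F (algebraMap A B x₀) = algebraMap k F (algebraMap A k x₀) := by
    rw [← IsScalarTower.algebraMap_apply, ← IsScalarTower.algebraMap_apply]
  have hvx : -(log ((primeOfGen x₀ hx₀).valuation k (algebraMap A k x₀))) = 1 := by
    rw [valuation_of_algebraMap, intValuation_singleton _ hx₀ rfl, log_exp, neg_neg]
  have hvx' : w₀.ord (algebraMap B F (algebraMap A B x₀))
      = ((primeOfGen x₀ hx₀).asIdeal.ramificationIdx' P₀.1.asIdeal : ℤ) := by
    rw [hx, hval, hvx, mul_one]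
  rw [hsum, hvx', hval, neg_log_valuation_norm x₀ hx₀ hres f hf]

end Main

section Instantiate

open scoped IntermediateField IntermediateField.algebraAdjoinAdjoin

variable {K F : Type*} [Field K] [Field F] [Algebra K F]

/-- the generator `x` as an element of `K[x]` -/
def gen (x : F) : Algebra.adjoin K {x} := ⟨x, Algebra.self_mem_adjoin_singleton K x⟩

/-- evaluation at `x = 0` on `K[x]` -/
def ev0 (x : F) (hx : Transcendental K x) : Algebra.adjoin K {x} →ₐ[K] K :=
  (Polynomial.aeval (0 : K)).comp (Polynomial.algEquivOfTranscendental K x hx).symm.toAlgHom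

theorem algEquiv_X (x : F) (hx : Transcendental K x) :
    Polynomial.algEquivOfTranscendental K x hx X = gen x := by
  apply Subtype.ext
  simp [gen, Polynomial.algEquivOfTranscendental]

theorem ker_ev0 (x : F) (hx : Transcendental K x) :
    RingHom.ker (ev0 x hx : Algebra.adjoin K {x} →+* K) = Ideal.span {gen x} := by
  ext a
  rw [RingHom.mem_ker, Ideal.mem_span_singleton]
  set φ := Polynomial.algEquivOfTranscendental K x hx with hφ
  constructor
  · intro h
    have h1 : (φ.symm a).eval 0 = 0 := by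
      simpa [ev0, Polynomial.aeval_def, Polynomial.eval₂_eq_eval_map] using h
    have h2 : X ∣ φ.symm a := by
      rw [Polynomial.X_dvd_iff, Polynomial.coeff_zero_eq_eval_zero, h1]
    obtain ⟨q, hq⟩ := h2
    refine ⟨φ q, ?_⟩
    rw [← algEquiv_X x hx, ← map_mul, ← hq, AlgEquiv.apply_symm_apply]
  · rintro ⟨c, rfl⟩
    have : (ev0 x hx) (gen x * c) = (ev0 x hx) (gen x) * (ev0 x hx) c := map_mul _ _ _
    rw [show ((ev0 x hx : Algebra.adjoin K {x} →+* K) (gen x * c)) = (ev0 x hx) (gen x * c) from rfl,
      this]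
    have h0 : (ev0 x hx) (gen x) = 0 := by
      rw [← algEquiv_X x hx]
      simp [ev0]
    rw [h0, zero_mul]

theorem ev0_surjective (x : F) (hx : Transcendental K x) :
    Function.Surjective (ev0 x hx) := fun c => ⟨algebraMap K _ c, by simp⟩

theorem span_gen_isMaximal (x : F) (hx : Transcendental K x) :
    (Ideal.span {gen (K := K) x}).IsMaximal := by
  rw [← ker_ev0 x hx]
  exact RingHom.ker_isMaximal_of_surjective _ (ev0_surjective x hx)

theorem algebraMap_quotient_surjective (x : F) (hx : Transcendental K x) :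
    Function.Surjective (algebraMap K (Algebra.adjoin K {x} ⧸ Ideal.span {gen (K := K) x})) := by
  intro ā
  obtain ⟨a, rfl⟩ := Ideal.Quotient.mk_surjective ā
  refine ⟨ev0 x hx a, ?_⟩
  rw [IsScalarTower.algebraMap_apply K (Algebra.adjoin K {x}) _, Ideal.Quotient.algebraMap_eq,
    Ideal.Quotient.eq, ← ker_ev0 x hx, RingHom.mem_ker]
  simp

theorem gen_ne_zero (x : F) (hx : Transcendental K x) : gen (K := K) x ≠ 0 := by
  intro h
  have : x = 0 := congrArg Subtype.val h
  exact hx (this ▸ isAlgebraic_zero)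

/-- `K[x] ⊆ O_w` if `0 ≤ ord_w x`. -/
theorem adjoin_le_of_ord_nonneg (x : F) (w : Place K F) (hw : 0 ≤ w.ord x)
    (a : Algebra.adjoin K {x}) : algebraMap (Algebra.adjoin K {x}) F a ∈ w.toValuationSubring := by
  let S : Subalgebra K F :=
    { w.toValuationSubring.toSubring with algebraMap_mem' := w.algebraMap_mem' }
  have hle : Algebra.adjoin K {x} ≤ S := Algebra.adjoin_le (by
    rintro y (rfl : y = x)
    exact Fermat.Agent.S24_helper38.mem_of_ord_nonneg w hw)
  exact hle a.2

section Concrete

variable [IsAlgClosed K] [CharZero K] (x : F) (hx : Transcendental K x)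
  [FiniteDimensional K⟮x⟯ F]

include hx in
theorem fibre_package_aux :
    Finite (Fibre K x) ∧
    (∀ f : F, f ≠ 0 → ∀ w₀ : Place K F, 0 < w₀.ord x →
      w₀.ord (algebraMap K⟮x⟯ F (Algebra.norm K⟮x⟯ f)) = w₀.ord x * ∑ᶠ w : Fibre K x, w.1.ord f) ∧
    (∀ w : Fibre K x, ∃ f : F, f ≠ 0 ∧ w.1.ord f = 1 ∧
      ∀ w' : Fibre K x, w' ≠ w → w'.1.ord f = 0) := by
  have hPID : IsPrincipalIdealRing (Algebra.adjoin K {x}) :=
    IsPrincipalIdealRing.of_surjective
      (Polynomial.algEquivOfTranscendental K x hx).toRingEquiv.toRingHom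
      (Polynomial.algEquivOfTranscendental K x hx).surjective
  have : CharZero K⟮x⟯ := charZero_of_injective_algebraMap (algebraMap K K⟮x⟯).injective
  have hmax := span_gen_isMaximal (K := K) x hx
  have hcz : CharZero (Algebra.adjoin K {x}) :=
    charZero_of_injective_algebraMap (algebraMap K (Algebra.adjoin K {x})).injective
  have hcz2 : CharZero (FractionRing (Algebra.adjoin K {x})) :=
    charZero_of_injective_algebraMap (IsFractionRing.injective (Algebra.adjoin K {x}) _)
  have hfaith : FaithfulSMul (Algebra.adjoin K {x}) (integralClosure (Algebra.adjoin K {x}) F) := by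
    rw [faithfulSMul_iff_algebraMap_injective]
    intro a b hab
    apply Subtype.ext
    have := congrArg (algebraMap (integralClosure (Algebra.adjoin K {x}) F) F) hab
    exact this
  have hB1 : IsDedekindDomain (integralClosure (Algebra.adjoin K {x}) F) :=
    integralClosure.isDedekindDomain (Algebra.adjoin K {x}) K⟮x⟯ F
  have hB2 : IsFractionRing (integralClosure (Algebra.adjoin K {x}) F) F :=
    integralClosure.isFractionRing_of_finite_extension K⟮x⟯ F
  have hB3 : Module.Finite (Algebra.adjoin K {x}) (integralClosure (Algebra.adjoin K {x}) F) :=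
    IsIntegralClosure.finite (Algebra.adjoin K {x}) K⟮x⟯ F _
  have hA : ∀ w : Place K F, 0 < w.ord (algebraMap (integralClosure (Algebra.adjoin K {x}) F) F
      (algebraMap (Algebra.adjoin K {x}) (integralClosure (Algebra.adjoin K {x}) F) (gen x))) →
      ∀ a : Algebra.adjoin K {x}, algebraMap (Algebra.adjoin K {x}) F a ∈ w.toValuationSubring :=
    fun w hw a => adjoin_le_of_ord_nonneg x w hw.le a
  have hb₀ : algebraMap (Algebra.adjoin K {x}) (integralClosure (Algebra.adjoin K {x}) F) (gen x)
      ≠ 0 := (map_ne_zero_iff _ (FaithfulSMul.algebraMap_injective _ _)).mpr (gen_ne_zero x hx)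
  have hfin := finite_fibre (K := K) (F := F) (A := Algebra.adjoin K {x}) _ hb₀ hA
  refine ⟨hfin, ?_, ?_⟩
  · intro f hf w₀ hw₀
    exact norm_formula_fibre (K := K) (F := F) (A := Algebra.adjoin K {x}) (k := K⟮x⟯)
      (B := integralClosure (Algebra.adjoin K {x}) F) (gen x) (gen_ne_zero x hx)
      (algebraMap_quotient_surjective x hx) hA f hf w₀ hw₀
  · intro w
    exact weakApprox_fibre (K := K) (F := F) (A := Algebra.adjoin K {x}) _ hb₀ hA w


variable (k : IntermediateField K F) (hk : k = K⟮x⟯) [FiniteDimensional k F]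

include hx hk in
/-- **NORM package**: for a transcendental `x` with `F / K(x)` finite (`K` algebraically closed of
characteristic zero): the fibre `{w | 0 < w.ord x}` is finite, the norm formula `hN` and weak
approximation `hWA` of the orbit lemma hold.  `k` is any intermediate field equal to `K⟮x⟯`. -/
theorem fibre_package :
    Finite (Fibre K x) ∧
    (∀ f : F, f ≠ 0 → ∀ w₀ : Place K F, 0 < w₀.ord x →
      w₀.ord (algebraMap k F (Algebra.norm k f)) = w₀.ord x * ∑ᶠ w : Fibre K x, w.1.ord f) ∧
    (∀ w : Fibre K x, ∃ f : F, f ≠ 0 ∧ w.1.ord f = 1 ∧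
      ∀ w' : Fibre K x, w' ≠ w → w'.1.ord f = 0) := by
  subst hk
  exact fibre_package_aux x hx

include hx hk in
theorem finite_fibre_of_transcendental : Finite (Fibre K x) := (fibre_package x hx k hk).1

include hx hk in
theorem norm_formula (f : F) (hf : f ≠ 0) (w₀ : Place K F) (hw₀ : 0 < w₀.ord x) :
    w₀.ord (algebraMap k F (Algebra.norm k f)) = w₀.ord x * ∑ᶠ w : Fibre K x, w.1.ord f :=
  (fibre_package x hx k hk).2.1 f hf w₀ hw₀

include hx hk in
theorem weak_approx (w : Fibre K x) :
    ∃ f : F, f ≠ 0 ∧ w.1.ord f = 1 ∧ ∀ w' : Fibre K x, w' ≠ w → w'.1.ord f = 0 :=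
  (fibre_package x hx k hk).2.2 w

include hx hk in
/-- **LOC + NORM**: the places of `F` in the fibre `{w | 0 < w.ord x}` correspond to the orbits
of the local monodromy; consumer form. -/
theorem fibre_orbits {I : Type*} [Fintype I] [Nonempty I] {G : Type*} [Group G] [MulAction G I]
    (g : G) (D : OrbitData K x I)
    (hnorm : ∀ f : F, f ≠ 0 → ∀ i₀ : I,
      ∑ i, D.V i f = D.V i₀ (algebraMap k F (Algebra.norm k f)))
    (hsymm : ∀ i f, D.V (g • i) f = D.V i f)
    (hg : ∀ i : I, g ^ D.e₀ • i = i)
    (hdiv : ∀ (i : I) (h : ℕ), h ∣ D.e₀ → g ^ h • i = i → ∀ f : F, f ≠ 0 →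
      ((D.e₀ / h : ℕ) : ℤ) ∣ D.V i f) :
    Finite (Fibre K x) ∧
    Nat.card (Fibre K x) = Nat.card (MulAction.orbitRel.Quotient (Subgroup.zpowers g) I) ∧
    ∑ᶠ w : Fibre K x, w.1.ord x = Fintype.card I ∧
    ∀ w : Fibre K x, ∃ i : I, w = D.place i ∧ 0 < D.mult i ∧
      ∀ f : F, f ≠ 0 → D.V i f = D.mult i * w.1.ord f := by
  obtain ⟨hfin, hN, hWA⟩ := fibre_package x hx k hk
  refine ⟨hfin, card_fibre_eq_card_orbits k x hN hWA g D hnorm hsymm hg hdiv,
    sum_ord_fibre_eq_card k x hN hWA g D hnorm hsymm hg hdiv, ?_⟩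
  exact fun w => exists_place_eq k x hN hWA g D hnorm hsymm hg hdiv w

end Concrete

/-! ### Changing the coordinate -/

theorem adjoin_simple_sub_algebraMap (j : F) (c : K) : K⟮j - algebraMap K F c⟯ = K⟮j⟯ := by
  apply le_antisymm
  · rw [IntermediateField.adjoin_simple_le_iff]
    exact sub_mem (IntermediateField.mem_adjoin_simple_self K j) (IntermediateField.algebraMap_mem _ c)
  · rw [IntermediateField.adjoin_simple_le_iff]
    have h : (j - algebraMap K F c) + algebraMap K F c ∈ K⟮j - algebraMap K F c⟯ :=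
      add_mem (IntermediateField.mem_adjoin_simple_self K _)
        (IntermediateField.algebraMap_mem _ c)
    simpa using h

theorem adjoin_simple_inv (j : F) : K⟮j⁻¹⟯ = K⟮j⟯ := by
  apply le_antisymm
  · rw [IntermediateField.adjoin_simple_le_iff]
    exact inv_mem (IntermediateField.mem_adjoin_simple_self K j)
  · rw [IntermediateField.adjoin_simple_le_iff]
    have h : (j⁻¹)⁻¹ ∈ K⟮j⁻¹⟯ := inv_mem (IntermediateField.mem_adjoin_simple_self K _)
    simpa using h

theorem transcendental_sub_algebraMap {j : F} (hj : Transcendental K j) (c : K) :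
    Transcendental K (j - algebraMap K F c) := by
  intro h
  apply hj
  have h2 : j = (j - algebraMap K F c) + algebraMap K F c := by ring
  rw [h2]
  exact h.add (isAlgebraic_algebraMap c)

theorem transcendental_inv {j : F} (hj : Transcendental K j) : Transcendental K j⁻¹ := by
  intro h
  apply hj
  have := h.inv
  rwa [inv_inv] at this

end Instantiate

end Fermat.Agent.S24.Norm
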