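/-
S24 / M11 (tasks 105-107): index and orbit counts on `SL(2,ℤ) ⧸ Γ₀(N)` in the interface shape
`Iface.M11`, obtained from the landed shared combinatorics of T20
(`S20_helper27` : index, fixed points of `S`, `S * T`; `S20_helper11` : `T`-orbits).
-/
import Fermat.Agent.S24.Interface
import Fermat.Agent.S20_helper27.Counts
import Fermat.Agent.S20_helper11.CuspCount

set_option autoImplicit false

namespace Fermat.Agent.S24.Comb

open MulAction ModularGroup CongruenceSubgroup
open scoped MatrixGroups

section General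

variable {G X : Type*} [Group G] [MulAction G X]

theorem toPerm_zpow (g : G) (k : ℤ) : (MulAction.toPerm g : Equiv.Perm X) ^ k = MulAction.toPerm (g ^ k) :=
  (map_zpow (MulAction.toPermHom G X) g k).symm

theorem orbitRel_zpowers_toPerm_iff (g : G) (x y : X) :
    (orbitRel (Subgroup.zpowers (MulAction.toPerm g : Equiv.Perm X)) X) x y ↔
      (orbitRel (Subgroup.zpowers g) X) x y := by
  rw [orbitRel_apply, orbitRel_apply]
  constructor
  · rintro ⟨⟨_, k, rfl⟩, hk⟩
    refine ⟨⟨g ^ k, k, rfl⟩, ?_⟩
    have h1 : ((MulAction.toPerm g : Equiv.Perm X) ^ k) y = x := hk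
    rw [toPerm_zpow] at h1
    exact h1
  · rintro ⟨⟨_, k, rfl⟩, hk⟩
    refine ⟨⟨(MulAction.toPerm g : Equiv.Perm X) ^ k, k, rfl⟩, ?_⟩
    have h1 : (g ^ k) • y = x := hk
    show ((MulAction.toPerm g : Equiv.Perm X) ^ k) y = x
    rw [toPerm_zpow]
    exact h1

/-- The number of orbits of the permutation induced by `g` is the number of orbits of the cyclic
group generated by `g`. -/
theorem numOrbits_toPerm (g : G) :
    numOrbits (MulAction.toPerm g : Equiv.Perm X) =
      Nat.card (orbitRel.Quotient (Subgroup.zpowers g) X) := by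
  unfold numOrbits orbitRel.Quotient
  exact Nat.card_congr (Quotient.congr (Equiv.refl X) fun a b => orbitRel_zpowers_toPerm_iff g a b)

end General

theorem numOrbits_permOf (N : ℕ) (g : SL(2, ℤ)) :
    numOrbits (permOf N g) =
      Nat.card (orbitRel.Quotient (Subgroup.zpowers g) (SL(2, ℤ) ⧸ Gamma0 N)) :=
  numOrbits_toPerm g

theorem card_I0 (N : ℕ) [NeZero N] : Fintype.card (I0 N) = ModularCurve.dedekindPsi N := by
  rw [← Nat.card_eq_fintype_card]
  exact Fermat.Agent.S20_helper27.card_XN N

theorem two_mul_numOrbits_S (N : ℕ) [NeZero N] :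
    2 * numOrbits (permOf N S) = ModularCurve.dedekindPsi N + ModularCurve.nuTwo N := by
  rw [numOrbits_permOf]
  exact Fermat.Agent.S20_helper27.two_mul_card_orbits_S N

theorem three_mul_numOrbits_ST (N : ℕ) [NeZero N] :
    3 * numOrbits (permOf N (S * T)) = ModularCurve.dedekindPsi N + 2 * ModularCurve.nuThree N := by
  rw [numOrbits_permOf]
  exact Fermat.Agent.S20_helper27.three_mul_card_orbits_ST N

theorem numOrbits_T (N : ℕ) [NeZero N] : numOrbits (permOf N T) = ModularCurve.cuspCount N := by
  rw [numOrbits_permOf]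
  exact Fermat.Agent.S20_helper11.card_orbits_T N

/-- **M11**: index and orbit counts on `SL₂(ℤ)/Γ₀(N)` in the interface shape. -/
theorem m11 (N : ℕ) [NeZero N] : Iface.M11 N :=
  ⟨card_I0 N, two_mul_numOrbits_S N, three_mul_numOrbits_ST N, numOrbits_T N⟩

end Fermat.Agent.S24.Comb
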