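import Mathlib
import Fermat.Prelude.Def_ModularCurve_X0ModL
import Fermat.Agent.S24.Interface
import Fermat.Agent.S24_helper66.NormEmb

/-!
# S24 / M9 — the degree `[F_N : ℚ̄(j)] = ψ(N)` (glue file)

* `transcendental_jF` : `j` is transcendental over `ℚ̄` (pole of order one);
* `fieldGen` : `F_N` is generated over `ℚ̄` by the `j(q^d)`, `d ∣ N`;
* `m9_of_embeddings`, `m9_of_cuspEmb` : `Iface.M9 N` from a family of pairwise distinct
  `ℚ̄`-embeddings of `F_N` indexed by `SL₂(ℤ)/Γ₀(N)` which agree at `j` and whose traces on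
  `ℚ̄[j(q^d) : d ∣ N]` are polynomials in `j`.
-/

set_option autoImplicit false

noncomputable section

namespace Fermat.Agent.S24.Degree

open ModularCurve IntermediateField Polynomial Fermat.Agent.S24
open scoped MatrixGroups

/-! ### (a) transcendence of `j` -/

section Transcendence

variable (K : Type*) [Field K]

/-- the coefficient of `P(j)` at `q^(-deg P)` is the leading coefficient of `P` -/
theorem coeff_aeval_jqModC_neg_natDegree' (p : K[X]) :
    (aeval (jqModC K) p).coeff (-(p.natDegree : ℤ)) = p.leadingCoeff := by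
  rw [Polynomial.aeval_eq_sum_range]
  simp only [Algebra.smul_def]
  rw [HahnSeries.coeff_sum, Finset.sum_range_succ]
  have h1 : ∀ i ∈ Finset.range p.natDegree,
      (algebraMap K (LaurentSeries K) (p.coeff i) * jqModC K ^ i).coeff (-(p.natDegree : ℤ))
        = 0 := by
    intro i hi
    rw [algebraMap_laurentSeries_eq_single, HahnSeries.coeff_single_zero_mul,
      coeff_jqModC_pow_of_lt K (by
        rw [Finset.mem_range] at hi
        have : (i : ℤ) < p.natDegree := by exact_mod_cast hi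
        omega), mul_zero]
  rw [Finset.sum_eq_zero h1, zero_add, algebraMap_laurentSeries_eq_single,
    HahnSeries.coeff_single_zero_mul, coeff_jqModC_pow_self, mul_one]
  rfl

/-- `j = q⁻¹ + 744 + ⋯` is transcendental over the field of constants -/
theorem transcendental_jqModC' : Transcendental K (jqModC K) := by
  rw [transcendental_iff]
  intro p hp
  by_contra hp0
  have hcoeff := coeff_aeval_jqModC_neg_natDegree' K p
  rw [hp, HahnSeries.coeff_zero] at hcoeff
  exact hp0 (Polynomial.leadingCoeff_eq_zero.1 hcoeff.symm)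

end Transcendence

theorem coeffEmb_jq (L : Type*) [Field L] [Algebra ℚ L] : coeffEmb L jq = jqModC L := by
  rw [← jqModC_rat, coeffEmb, coeffMap_jqModC]

theorem coe_jF' (N : ℕ) [NeZero N] :
    ((jF N : FN N) : LaurentSeries Kbar) = jqModC Kbar := by
  rw [coe_jF, coeffEmb_jq]

/-- **M9 (a)**: `j` is transcendental over `ℚ̄` in the function field of `X₀(N)`. -/
theorem transcendental_jF (N : ℕ) [NeZero N] : Transcendental Kbar (jF N) := by
  have h : Transcendental Kbar ((modularFunctionFieldBar N).val (jF N)) := by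
    show Transcendental Kbar ((jF N : FN N) : LaurentSeries Kbar)
    rw [coe_jF']
    exact transcendental_jqModC' Kbar
  intro halg
  exact h (IsAlgebraic.algHom (modularFunctionFieldBar N).val halg)

/-! ### (b) generators of the function field -/

section FieldGen

variable (N : ℕ) [NeZero N]

theorem coe_jdF (d : ℕ) [NeZero d] (hd : d ∣ N) :
    ((jdF N d hd : FN N) : LaurentSeries Kbar) = jdSeries d := rfl

/-- `j(q^d)` with coefficients in `ℚ̄` is the prelude's `qExpand ℚ̄ d (jqModC ℚ̄)` -/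
theorem jdSeries_eq (d : ℕ) [NeZero d] : jdSeries d = qExpand Kbar d (jqModC Kbar) := by
  rw [jdSeries, coeffEmb, coeffMap_qExpand, ← coeffEmb, coeffEmb_jq]

/-- the set of generators `j(q^d)`, `d ∣ N`, inside `LaurentSeries ℚ̄` -/
def genSeries : Set (LaurentSeries Kbar) :=
  {x | ∃ (d : ℕ) (_ : NeZero d), d ∣ N ∧ x = jdSeries d}

/-- the set of generators `j(q^d)`, `d ∣ N`, of the function field -/
def genSet : Set (FN N) :=
  {x | ∃ (d : ℕ) (_ : NeZero d) (hd : d ∣ N), x = jdF N d hd}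

theorem jdF_mem_genSet (d : ℕ) [NeZero d] (hd : d ∣ N) : jdF N d hd ∈ genSet N :=
  ⟨d, ‹_›, hd, rfl⟩

theorem jF_mem_genSet : jF N ∈ genSet N := jdF_mem_genSet N 1 (one_dvd N)

theorem val_image_genSet : (Subtype.val '' genSet N : Set (LaurentSeries Kbar)) = genSeries N := by
  ext x
  constructor
  · rintro ⟨y, ⟨d, hne, hd, rfl⟩, rfl⟩
    exact ⟨d, hne, hd, rfl⟩
  · rintro ⟨d, hne, hd, rfl⟩
    exact ⟨jdF N d hd, ⟨d, hne, hd, rfl⟩, rfl⟩

omit [NeZero N] in
theorem genSeries_eq_image :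
    genSeries N = ⇑(coeffEmb Kbar) '' divisorExpansions N := by
  ext x
  constructor
  · rintro ⟨d, hne, hd, rfl⟩
    exact ⟨qExpand ℚ d jq, ⟨d, hne, hd, rfl⟩, rfl⟩
  · rintro ⟨y, ⟨d, hne, hd, rfl⟩, rfl⟩
    exact ⟨d, hne, hd, rfl⟩

omit [NeZero N] in
theorem coeffEmb_mem_adjoin_genSeries {x : LaurentSeries ℚ}
    (hx : x ∈ IntermediateField.adjoin ℚ (divisorExpansions N)) :
    coeffEmb Kbar x ∈ IntermediateField.adjoin Kbar (genSeries N) := by
  induction hx using IntermediateField.adjoin_induction with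
  | mem y hy =>
    apply IntermediateField.subset_adjoin
    rw [genSeries_eq_image]
    exact ⟨y, hy, rfl⟩
  | algebraMap c =>
    have : coeffEmb Kbar (algebraMap ℚ (LaurentSeries ℚ) c)
        = algebraMap Kbar (LaurentSeries Kbar) (algebraMap ℚ Kbar c) := by
      rw [algebraMap_laurentSeries_eq_single, algebraMap_laurentSeries_eq_single, coeffEmb,
        coeffMap_single]
    rw [this]
    exact IntermediateField.algebraMap_mem _ _
  | add y z _ _ hy hz =>
    rw [map_add]
    exact add_mem hy hz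
  | inv y _ hy =>
    rw [map_inv₀]
    exact inv_mem hy
  | mul y z _ _ hy hz =>
    rw [map_mul]
    exact mul_mem hy hz

/-- the function field over `ℚ̄` is generated, inside `ℚ̄((q))`, by the `j(q^d)`, `d ∣ N` -/
theorem modularFunctionFieldBar_eq_adjoin :
    modularFunctionFieldBar N = IntermediateField.adjoin Kbar (genSeries N) := by
  apply le_antisymm
  · show laurentBaseChange Kbar (modularFunctionFieldFull N) ≤ _
    rw [laurentBaseChange, IntermediateField.adjoin_le_iff]
    rintro _ ⟨x, hx, rfl⟩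
    exact coeffEmb_mem_adjoin_genSeries N hx
  · rw [IntermediateField.adjoin_le_iff]
    rintro _ ⟨d, hne, hd, rfl⟩
    exact jdSeries_mem N hd

/-- **FieldGen**: `F_N = ℚ̄(j(q^d) : d ∣ N)` -/
theorem fieldGen : IntermediateField.adjoin Kbar (genSet N) = ⊤ := by
  apply IntermediateField.map_injective (modularFunctionFieldBar N).val
  rw [IntermediateField.adjoin_map]
  have h2 : (⊤ : IntermediateField Kbar (FN N)).map (modularFunctionFieldBar N).val
      = modularFunctionFieldBar N := by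
    rw [← AlgHom.fieldRange_eq_map, IntermediateField.fieldRange_val]
  rw [h2]
  have h1 : ((modularFunctionFieldBar N).val '' genSet N : Set (LaurentSeries Kbar))
      = genSeries N := val_image_genSet N
  rw [h1]
  exact (modularFunctionFieldBar_eq_adjoin N).symm

/-- the `ℚ̄`-algebra `ℚ̄[j(q^d) : d ∣ N]` -/
def RN : Subalgebra Kbar (FN N) := Algebra.adjoin Kbar (genSet N)

theorem genSet_subset_RN : genSet N ⊆ (RN N : Set (FN N)) := Algebra.subset_adjoin

theorem jF_mem_RN : jF N ∈ RN N := genSet_subset_RN N (jF_mem_genSet N)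

theorem adjoin_RN : IntermediateField.adjoin Kbar ((RN N).toSubring : Set (FN N)) = ⊤ := by
  rw [eq_top_iff, ← fieldGen N]
  exact IntermediateField.adjoin.mono _ _ _ (genSet_subset_RN N)

end FieldGen

/-! ### (c) the degree from a family of embeddings -/

section Glue

open Fermat.Agent.S24_helper66

variable (N : ℕ) [NeZero N] {L : Type*} [Field L] [Algebra Kbar L]
variable (σ : I0 N → (FN N →ₐ[Kbar] L))

/-- the base coset -/
def i0 : I0 N := ((1 : SL(2, ℤ)) : I0 N)

instance : Nonempty (I0 N) := ⟨i0 N⟩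

/-- a polynomial in `j` as an element of `ℚ̄(j)` -/
def polyJ (P : Kbar[X]) : Kbar⟮jF N⟯ := aeval (AdjoinSimple.gen Kbar (jF N)) P

theorem coe_polyJ (P : Kbar[X]) : ((polyJ N P : Kbar⟮jF N⟯) : FN N) = aeval (jF N) P := by
  have h := Polynomial.aeval_algHom_apply (Kbar⟮jF N⟯).val (AdjoinSimple.gen Kbar (jF N)) P
  rw [polyJ]
  exact h.symm

theorem map_polyJ (φ : FN N →ₐ[Kbar] L) (P : Kbar[X]) :
    φ ((polyJ N P : Kbar⟮jF N⟯) : FN N) = aeval (φ (jF N)) P := by
  rw [coe_polyJ, Polynomial.aeval_algHom_apply]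

variable {N σ}
variable (hinj : Function.Injective σ) (J : L) (hJ : ∀ q, σ q (jF N) = J)
  (htr : ∀ a ∈ RN N, ∃ P : Kbar[X], aeval J P = ∑ q, σ q a)
include hinj hJ htr

omit hinj htr in
theorem hj_of_hJ : ∀ q, σ q (jF N) = σ (i0 N) (jF N) := fun q => by rw [hJ q, hJ (i0 N)]

omit hinj in
theorem htr_of_poly : ∀ a ∈ (RN N).toSubring, ∃ c : Kbar⟮jF N⟯, ∑ q, σ q a = σ (i0 N) c := by
  intro a ha
  obtain ⟨P, hP⟩ := htr a ha
  exact ⟨polyJ N P, by rw [map_polyJ, hJ (i0 N), hP]⟩

/-- `F_N / ℚ̄(j)` is finite. -/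
theorem finiteDimensional_of_embeddings : FiniteDimensional Kbar⟮jF N⟯ (FN N) :=
  finiteDimensional_adjoin_simple (i₀ := i0 N) (hj_of_hJ J hJ) hinj (RN N).toSubring
    (adjoin_RN N) (htr_of_poly J hJ htr)

/-- `[F_N : ℚ̄(j)]` is the number of embeddings. -/
theorem finrank_of_embeddings : Module.finrank Kbar⟮jF N⟯ (FN N) = Fintype.card (I0 N) :=
  finrank_adjoin_simple_eq_card (i₀ := i0 N) (hj_of_hJ J hJ) hinj (RN N).toSubring
    (adjoin_RN N) (htr_of_poly J hJ htr)

/-- norm formula: the expansion of the norm is the product of all expansions -/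
theorem norm_of_embeddings (f : FN N) (q₀ : I0 N) :
    σ q₀ ((Algebra.norm Kbar⟮jF N⟯ f : Kbar⟮jF N⟯) : FN N) = ∏ q, σ q f := by
  rw [← emb_norm_eq_prod (i₀ := i0 N) (hj_of_hJ J hJ) hinj (RN N).toSubring
    (adjoin_RN N) (htr_of_poly J hJ htr) f]
  exact algHom_eq_on_adjoin_simple (σ q₀) (σ (i0 N)) (jF N) (by rw [hJ q₀, hJ (i0 N)]) _

/-- trace formula -/
theorem trace_of_embeddings (f : FN N) (q₀ : I0 N) :
    σ q₀ ((Algebra.trace Kbar⟮jF N⟯ (FN N) f : Kbar⟮jF N⟯) : FN N) = ∑ q, σ q f := by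
  rw [← emb_trace_eq_sum (i₀ := i0 N) (hj_of_hJ J hJ) hinj (RN N).toSubring
    (adjoin_RN N) (htr_of_poly J hJ htr) f]
  exact algHom_eq_on_adjoin_simple (σ q₀) (σ (i0 N)) (jF N) (by rw [hJ q₀, hJ (i0 N)]) _

/-- every `ℚ̄`-embedding of `F_N` with the same value at `j` is one of the `σ q` -/
theorem algHom_mem_range_of_embeddings (τ : FN N →ₐ[Kbar] L) (hτ : τ (jF N) = J) :
    ∃ q, τ = σ q :=
  algHom_mem_range_of_fixes (i₀ := i0 N) (hj_of_hJ J hJ) hinj (RN N).toSubring
    (adjoin_RN N) (htr_of_poly J hJ htr) τ (by rw [hτ, hJ (i0 N)])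

/-- **M9 from embeddings**: if `σ q`, `q ∈ SL₂(ℤ)/Γ₀(N)`, are pairwise distinct `ℚ̄`-embeddings
of `F_N` into a field `L` which all send `j` to `J`, and the trace `∑ q, σ q a` of every
`a ∈ ℚ̄[j(q^d) : d ∣ N]` is a polynomial in `J`, then `[F_N : ℚ̄(j)] = ψ(N)`. -/
theorem m9_of_embeddings (h11 : Fintype.card (I0 N) = dedekindPsi N) : Iface.M9 N :=
  ⟨transcendental_jF N, finiteDimensional_of_embeddings hinj J hJ htr,
    (finrank_of_embeddings hinj J hJ htr).trans h11⟩

end Glue

/-! ### (c') the same from the cusp embeddings in the shape `(C1)`–`(C3)` -/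

section CuspShape

variable {N : ℕ} [NeZero N] {σ : I0 N → (FN N →ₐ[Kbar] LaurentSeries Kbar)}

/-- an element of `qExpand ℚ̄ N '' ℚ̄[j]` is a polynomial in `j(q^N)` -/
theorem exists_poly_of_mem_image {y : LaurentSeries Kbar}
    (hy : y ∈ qExpand Kbar N '' (Algebra.adjoin Kbar {jqModC Kbar} : Set (LaurentSeries Kbar))) :
    ∃ P : Kbar[X], aeval (qExpand Kbar N (jqModC Kbar)) P = y := by
  obtain ⟨x, hx, rfl⟩ := hy
  rw [SetLike.mem_coe, Algebra.adjoin_singleton_eq_range_aeval] at hx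
  obtain ⟨P, rfl⟩ := hx
  refine ⟨P, ?_⟩
  have := Polynomial.aeval_algHom_apply (qExpandAlgHomC Kbar N) (jqModC Kbar) P
  simpa using this

/-- the trace hypothesis from the hypothesis on all coefficients of `∏ (X - σ q a)` -/
theorem htr_of_hsym
    (hsym : ∀ a ∈ RN N, ∀ m, (∏ q, (X - C (σ q a))).coeff m ∈
      qExpand Kbar N '' (Algebra.adjoin Kbar {jqModC Kbar} : Set (LaurentSeries Kbar))) :
    ∀ a ∈ RN N, ∃ P : Kbar[X], aeval (qExpand Kbar N (jqModC Kbar)) P = ∑ q, σ q a := by
  intro a ha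
  have hpos : 0 < (Finset.univ : Finset (I0 N)).card := Finset.card_pos.mpr Finset.univ_nonempty
  have h1 := Polynomial.prod_X_sub_C_coeff_card_pred (Finset.univ : Finset (I0 N))
    (fun q => σ q a) hpos
  obtain ⟨P, hP⟩ := exists_poly_of_mem_image (hsym a ha ((Finset.univ : Finset (I0 N)).card - 1))
  rw [h1] at hP
  exact ⟨-P, by rw [map_neg, hP, neg_neg]⟩

/-- **M9 from the cusp embeddings** (`(C1)`: all `σ q` send `j` to `j(q^N)`, i.e. to `j` in the
variable `t = q^(1/N)`; `(C2)`: pairwise distinct; `(C3)`: the coefficients of `∏ (X - σ q a)`,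
`a ∈ ℚ̄[j(q^d) : d ∣ N]`, are polynomials in `j(q^N)`). -/
theorem m9_of_cuspEmb
    (hC1 : ∀ q, σ q (jF N) = qExpand Kbar N (jqModC Kbar))
    (hC2 : Function.Injective σ)
    (hC3 : ∀ a ∈ RN N, ∀ m, (∏ q, (X - C (σ q a))).coeff m ∈
      qExpand Kbar N '' (Algebra.adjoin Kbar {jqModC Kbar} : Set (LaurentSeries Kbar)))
    (h11 : Fintype.card (I0 N) = dedekindPsi N) : Iface.M9 N :=
  m9_of_embeddings hC2 _ hC1 (htr_of_hsym hC3) h11

end CuspShape

end Fermat.Agent.S24.Degree
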