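/-
T24 / M6(A) (helper68): Laurent series over a field of characteristic zero as a valued
differential field (`OrdField`), with the rotation automorphisms `T ↦ ζ T`.
-/
import Mathlib
import Fermat.Agent.S24.Defs
import Fermat.Agent.S28.Defs

set_option autoImplicit false

namespace Fermat.Agent.S24.Fields

open HahnSeries

noncomputable section

variable {L : Type*} [Field L]

/-! ### The formal derivative -/

/-- formal derivative `d/dT` of a Laurent series -/
def dT (a : LaurentSeries L) : LaurentSeries L := LaurentSeries.derivative L a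

lemma dT_coeff (a : LaurentSeries L) (n : ℤ) : (dT a).coeff n = (n + 1 : ℤ) • a.coeff (n + 1) := by
  show (LaurentSeries.hasseDeriv L 1 a).coeff n = _
  rw [LaurentSeries.hasseDeriv_coeff]
  simp

lemma dT_coeff' (a : LaurentSeries L) (n : ℤ) :
    (dT a).coeff n = ((n + 1 : ℤ) : L) * a.coeff (n + 1) := by
  rw [dT_coeff, zsmul_eq_mul]

lemma dT_add (a b : LaurentSeries L) : dT (a + b) = dT a + dT b := map_add _ a b

lemma dT_smul (c : L) (a : LaurentSeries L) : dT (c • a) = c • dT a :=
  (LaurentSeries.derivative L).map_smul c a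

/-- derivative of a shifted series -/
lemma dT_single_mul (s : ℤ) (f : LaurentSeries L) :
    dT (single s (1 : L) * f) = single (s - 1) ((s : ℤ) : L) * f + single s (1 : L) * dT f := by
  ext k
  rw [dT_coeff', coeff_add]
  have h1 : (single s (1 : L) * f).coeff (k + 1) = f.coeff (k + 1 - s) := by
    have := coeff_single_mul_add (r := (1 : L)) (x := f) (a := k + 1 - s) (b := s)
    rw [sub_add_cancel] at this
    rw [this, one_mul]
  have h2 : (single (s - 1) ((s : ℤ) : L) * f).coeff k = ((s : ℤ) : L) * f.coeff (k + 1 - s) := by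
    have := coeff_single_mul_add (r := ((s : ℤ) : L)) (x := f) (a := k + 1 - s) (b := s - 1)
    rw [show k + 1 - s + (s - 1) = k by ring] at this
    exact this
  have h3 : (single s (1 : L) * dT f).coeff k = (dT f).coeff (k - s) := by
    have := coeff_single_mul_add (r := (1 : L)) (x := dT f) (a := k - s) (b := s)
    rw [sub_add_cancel] at this
    rw [this, one_mul]
  rw [h1, h2, h3, dT_coeff', show k - s + 1 = k + 1 - s by ring]
  push_cast
  ring

/-- derivative of a power series -/
lemma dT_ofPowerSeries (p : PowerSeries L) :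
    dT (ofPowerSeries ℤ L p) = ofPowerSeries ℤ L (PowerSeries.derivative L p) := by
  ext k
  rw [dT_coeff']
  rcases lt_or_ge k 0 with hk | hk
  · rw [ModularCurve.ofPowerSeries_coeff_of_neg _ hk]
    rcases lt_or_eq_of_le (Int.add_one_le_of_lt hk) with h | h
    · rw [ModularCurve.ofPowerSeries_coeff_of_neg _ h, mul_zero]
    · rw [h]; simp
  · lift k to ℕ using hk
    have : ((k : ℤ) + 1) = ((k + 1 : ℕ) : ℤ) := by push_cast; ring
    rw [ofPowerSeries_apply_coeff, this, ofPowerSeries_apply_coeff, PowerSeries.coeff_derivative]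
    push_cast
    ring

/-- every Laurent series is a shift of a power series -/
lemma exists_shift_eq_ofPowerSeries (a : LaurentSeries L) :
    ∃ (m : ℤ) (p : PowerSeries L), single m (1 : L) * a = ofPowerSeries ℤ L p := by
  refine ⟨-a.order, a.powerSeriesPart, ?_⟩
  rw [LaurentSeries.ofPowerSeries_powerSeriesPart]

lemma single_ne_zero' (m : ℤ) : (single m (1 : L) : LaurentSeries L) ≠ 0 :=
  single_ne_zero one_ne_zero

/-- **Leibniz rule** for the formal derivative of Laurent series. -/
lemma dT_mul (a b : LaurentSeries L) : dT (a * b) = a * dT b + b * dT a := by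
  obtain ⟨m, p, hp⟩ := exists_shift_eq_ofPowerSeries a
  obtain ⟨n, q, hq⟩ := exists_shift_eq_ofPowerSeries b
  -- `A = T^m a`, `B = T^n b` are power series
  have hAB : single (m + n) (1 : L) * (a * b) = ofPowerSeries ℤ L (p * q) := by
    rw [map_mul, ← hp, ← hq, ← mul_one (1 : L), ← single_mul_single, mul_one]
    ring
  have h1 := congrArg dT hAB
  rw [dT_single_mul, dT_ofPowerSeries, Derivation.leibniz, map_add, smul_eq_mul, smul_eq_mul,
    map_mul, map_mul, ← dT_ofPowerSeries, ← dT_ofPowerSeries, ← hp, ← hq, dT_single_mul,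
    dT_single_mul] at h1
  -- cancel `T^(m+n)`
  have hT : (single (m + n) (1 : L) : LaurentSeries L) ≠ 0 := single_ne_zero' _
  apply mul_left_cancel₀ hT
  have e1 : (single (m + n) (1 : L) : LaurentSeries L) = single m 1 * single n 1 := by
    rw [single_mul_single, mul_one]
  have e2 : (single (m + n - 1) (((m + n : ℤ)) : L) : LaurentSeries L)
      = single (m - 1) ((m : ℤ) : L) * single n 1 + single m 1 * single (n - 1) ((n : ℤ) : L) := by
    rw [single_mul_single, single_mul_single, mul_one, one_mul,
      show m - 1 + n = m + n - 1 by ring, show m + (n - 1) = m + n - 1 by ring, ← single_add]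
    push_cast
    rfl
  rw [e2] at h1
  rw [e1] at h1 ⊢
  linear_combination h1

/-- `d/dT` kills constants -/
lemma dT_C (c : L) : dT (C c : LaurentSeries L) = 0 := by
  ext k
  rw [dT_coeff', coeff_zero]
  by_cases hk : k + 1 = 0
  · rw [hk]; simp
  · rw [C_apply, coeff_single_of_ne hk, mul_zero]

lemma dT_one : dT (1 : LaurentSeries L) = 0 := by
  have := dT_C (L := L) 1
  rwa [map_one] at this

lemma dT_C_mul (c : L) (a : LaurentSeries L) : dT (C c * a) = C c * dT a := by
  rw [dT_mul, dT_C, mul_zero, add_zero]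

/-! ### Orders -/

/-- characterisation of the order of a Laurent series -/
lemma order_eq_of_coeff {a : LaurentSeries L} {n : ℤ} (hn : a.coeff n ≠ 0)
    (hlt : ∀ k < n, a.coeff k = 0) : a.order = n := by
  have ha : a ≠ 0 := fun h => hn (by rw [h, coeff_zero])
  refine le_antisymm (order_le_of_coeff_ne_zero hn) ?_
  by_contra hcon
  exact (mt coeff_order_eq_zero.mp ha) (hlt _ (not_le.mp hcon))

variable [CharZero L]

/-- the derivative lowers a nonzero order by exactly one -/
lemma order_dT {a : LaurentSeries L} (ha : a ≠ 0) (hord : a.order ≠ 0) :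
    dT a ≠ 0 ∧ (dT a).order = a.order - 1 := by
  have hc : (dT a).coeff (a.order - 1) ≠ 0 := by
    rw [dT_coeff', sub_add_cancel]
    exact mul_ne_zero (by exact_mod_cast hord) (mt coeff_order_eq_zero.mp ha)
  refine ⟨fun h => hc (by rw [h, coeff_zero]), order_eq_of_coeff hc fun k hk => ?_⟩
  rw [dT_coeff', coeff_eq_zero_of_lt_order (by omega), mul_zero]

/-! ### The `OrdField` structure -/

section OrdField

variable (K : Type*) [Field K]

/-- the `K`-algebra structure on `L((T))` induced by a ring hom `ι : K →+* L` (constants) -/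
@[reducible] def laurentAlgebra (ι : K →+* L) : Algebra K (LaurentSeries L) :=
  ((C : L →+* LaurentSeries L).comp ι).toAlgebra

omit [CharZero L] in
lemma laurentAlgebra_algebraMap (ι : K →+* L) (c : K) :
    @algebraMap K (LaurentSeries L) _ _ (laurentAlgebra K ι) c = C (ι c) := rfl

/-- **Laurent series over a field of characteristic zero form an `OrdField`**, for any
`K`-algebra structure on `L((T))` whose structure map is `c ↦ C (ι c)`. -/
def laurentOrdField [Algebra K (LaurentSeries L)] (ι : K →+* L)
    (halg : ∀ c : K, algebraMap K (LaurentSeries L) c = C (ι c)) :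
    OrdField K (LaurentSeries L) where
  ord a := a.order
  ord_mul a b ha hb := order_mul ha hb
  ord_add a b _ _ hab := min_order_le_order_add hab
  ord_algebraMap c _ := by rw [halg, order_C]
  der :=
    { toFun := dT
      map_add' := dT_add
      map_smul' := fun c a => by
        rw [RingHom.id_apply, Algebra.smul_def, Algebra.smul_def, halg]
        exact dT_C_mul _ a
      map_one_eq_zero' := dT_one
      leibniz' := fun a b => by
        show dT (a * b) = a • dT b + b • dT a
        rw [dT_mul, smul_eq_mul, smul_eq_mul] }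
  ord_der a ha hord := order_dT ha hord

@[simp] lemma laurentOrdField_ord [Algebra K (LaurentSeries L)] (ι : K →+* L)
    (halg : ∀ c : K, algebraMap K (LaurentSeries L) c = C (ι c))
    (a : LaurentSeries L) : (laurentOrdField K ι halg).ord a = a.order := rfl

@[simp] lemma laurentOrdField_der [Algebra K (LaurentSeries L)] (ι : K →+* L)
    (halg : ∀ c : K, algebraMap K (LaurentSeries L) c = C (ι c))
    (a : LaurentSeries L) : (laurentOrdField K ι halg).der a = dT a := rfl

/-- the `OrdField` for the algebra structure `laurentAlgebra K ι` -/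
def laurentOrdField' (ι : K →+* L) :
    @OrdField K _ (LaurentSeries L) _ (laurentAlgebra K ι) :=
  @laurentOrdField L _ _ K _ (laurentAlgebra K ι) ι (fun _ => rfl)

end OrdField

/-! ### Rotations `T ↦ ζ T` -/

section Scale

omit [CharZero L]

open Fermat.Agent.S28 in
/-- the automorphism `∑ aₙ Tⁿ ↦ ∑ ζⁿ aₙ Tⁿ` of `L((T))` -/
def scaleEquiv (ζ : Lˣ) : LaurentSeries L ≃+* LaurentSeries L :=
  RingEquiv.ofRingHom (scaleHom L ζ) (scaleHom L ζ⁻¹)
    (by
      ext a n
      simp only [RingHom.comp_apply, scaleHom_coeff, RingHom.id_apply, ← mul_assoc,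
        ← Units.val_mul, ← mul_zpow, mul_inv_cancel, one_zpow, Units.val_one, one_mul])
    (by
      ext a n
      simp only [RingHom.comp_apply, scaleHom_coeff, RingHom.id_apply, ← mul_assoc,
        ← Units.val_mul, ← mul_zpow, inv_mul_cancel, one_zpow, Units.val_one, one_mul])

@[simp] lemma scaleEquiv_coeff (ζ : Lˣ) (a : LaurentSeries L) (n : ℤ) :
    (scaleEquiv ζ a).coeff n = ((ζ ^ n : Lˣ) : L) * a.coeff n := rfl

lemma scaleEquiv_one : scaleEquiv (1 : Lˣ) = RingEquiv.refl (LaurentSeries L) := by
  ext a n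
  simp

lemma scaleEquiv_mul (ζ ξ : Lˣ) (a : LaurentSeries L) :
    scaleEquiv (ζ * ξ) a = scaleEquiv ζ (scaleEquiv ξ a) := by
  ext n
  simp only [scaleEquiv_coeff, mul_zpow, Units.val_mul, mul_assoc]

/-- powers of a rotation -/
lemma scaleEquiv_pow (ζ : Lˣ) (k : ℕ) (a : LaurentSeries L) :
    (scaleEquiv ζ ^ k) a = scaleEquiv (ζ ^ k) a := by
  induction k generalizing a with
  | zero => simp [scaleEquiv_one]
  | succ k ih =>
    rw [pow_succ, RingAut.mul_apply, ih, pow_succ, scaleEquiv_mul]

/-- rotations preserve the order -/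
lemma order_scaleEquiv (ζ : Lˣ) (a : LaurentSeries L) : (scaleEquiv ζ a).order = a.order := by
  by_cases ha : a = 0
  · rw [ha, map_zero]
  · refine order_eq_of_coeff ?_ fun k hk => ?_
    · rw [scaleEquiv_coeff]
      exact mul_ne_zero (Units.ne_zero _) (mt coeff_order_eq_zero.mp ha)
    · rw [scaleEquiv_coeff, coeff_eq_zero_of_lt_order hk, mul_zero]

/-- **Fixed elements of a rotation of exact order `E`.** If `ζ` has order `E > 0` and `a ≠ 0` is
fixed by the `k`-th power of the rotation by `ζ`, then `E / gcd k E` divides the order of `a`. -/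
theorem dvd_order_of_fixed (ζ : Lˣ) {E : ℕ} (hE : 0 < E) (hζ : orderOf ζ = E) (k : ℕ)
    {a : LaurentSeries L} (ha : a ≠ 0) (hfix : (scaleEquiv ζ ^ k) a = a) :
    ((E / Nat.gcd k E : ℕ) : ℤ) ∣ a.order := by
  -- compare the leading coefficients
  have h1 := congrArg (fun x => x.coeff a.order) hfix
  simp only [scaleEquiv_pow, scaleEquiv_coeff] at h1
  have hc : a.coeff a.order ≠ 0 := mt coeff_order_eq_zero.mp ha
  have h2 : (((ζ ^ k) ^ a.order : Lˣ) : L) = 1 := by
    have : (((ζ ^ k) ^ a.order : Lˣ) : L) * a.coeff a.order = 1 * a.coeff a.order := by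
      rw [h1, one_mul]
    exact mul_right_cancel₀ hc this
  have h3 : ζ ^ ((k : ℤ) * a.order) = 1 := by
    rw [zpow_mul, zpow_natCast]
    exact Units.ext h2
  have h4 : (E : ℤ) ∣ (k : ℤ) * a.order := by
    rw [← hζ]
    exact orderOf_dvd_iff_zpow_eq_one.mpr h3
  -- `E = g E'`, `k = g k'` with `E'`, `k'` coprime
  set g := Nat.gcd k E with hg
  have hgpos : 0 < g := Nat.gcd_pos_of_pos_right k hE
  obtain ⟨E', hE'⟩ : g ∣ E := Nat.gcd_dvd_right k E
  obtain ⟨k', hk'⟩ : g ∣ k := Nat.gcd_dvd_left k E
  have hdiv : E / g = E' := by rw [hE', Nat.mul_div_cancel_left _ hgpos]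
  rw [hdiv]
  have hcop : Nat.Coprime E' k' := by
    have := Nat.coprime_div_gcd_div_gcd (m := k) (n := E) hgpos
    rw [← hg, hdiv] at this
    have hk'' : k / g = k' := by rw [hk', Nat.mul_div_cancel_left _ hgpos]
    rw [hk''] at this
    exact this.symm
  have h5 : ((g : ℤ) * E') ∣ ((g : ℤ) * (k' * a.order)) := by
    have : (E : ℤ) = (g : ℤ) * E' := by exact_mod_cast hE'
    have hk2 : (k : ℤ) = (g : ℤ) * k' := by exact_mod_cast hk'
    rw [this, hk2, mul_assoc] at h4
    exact h4
  have h6 : (E' : ℤ) ∣ (k' : ℤ) * a.order :=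
    (mul_dvd_mul_iff_left (by exact_mod_cast hgpos.ne')).mp h5
  have hcopZ : IsCoprime (E' : ℤ) (k' : ℤ) := by
    exact_mod_cast Nat.isCoprime_iff_coprime.mpr hcop
  exact hcopZ.dvd_of_dvd_mul_left h6

end Scale

end

end Fermat.Agent.S24.Fields
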