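import Fermat.Agent.S24.InteriorOrbit
import Fermat.Agent.S24.Norm
import Fermat.Agent.S24.DegreeNorm
import Fermat.Agent.S24_helper82.Realize
import Fermat.Agent.S24_helper66.CosetSepJ
import Fermat.Agent.S24_helper62.CuspEmb

/-!
# S24: the three interior fibre counts `hgen`, `h0`, `h1728` of `FinalB`

`InteriorOrbit` (abstract realization) is instantiated with helper82's `realize N`; the norm
hypothesis comes from `DegreeNorm.norm_eq_prod` (degree known from the cusps, `m9`) and the
distinctness of the conjugates (helper66 `CosetSepJ`); the algebraic inputs `hN`, `hWA`, finiteness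
from helper47's `Norm.fibre_package`.
-/

set_option autoImplicit false

noncomputable section

namespace Fermat.Agent.S24.InteriorCounts

open UpperHalfPlane ModularCurve IntermediateField AlgebraicCurve
open Fermat.Agent.S24 Fermat.Agent.S24_helper82 Fermat.Agent.S24_helper62
open Fermat.Agent.S28 Fermat.Agent.S28.CuspExp
open scoped MatrixGroups

variable (N : ℕ) [NeZero N]

theorem dilate_one (z : ℍ) : dilate 1 one_pos z = z := by
  apply UpperHalfPlane.ext
  rw [coe_dilate]
  simp

theorem jDil_one_eq_jInv (z : ℍ) :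
    jDil 1 one_pos z = Fermat.Agent.LevelOne_helper29.jInv z := by
  rw [jDil, dilate_one]
  rfl

/-- helper82's realization of `F_N`, as a `Realization`. -/
def realization : Interior.Realization N where
  ι := iotaC
  R := (realize N : FN N →+* Mer)
  R_const a := by
    rw [RingHom.coe_coe, AlgHom.commutes]
    rfl
  jH := jDilHol 1 one_pos
  jH_apply τ := jDil_one_eq_jInv τ
  R_j := realize_jF N
  R_inv _ hγ f := compM_realize_of_mem_Gamma0 N hγ f

@[simp] theorem realization_ι : (realization N).ι = iotaC := rfl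

@[simp] theorem realization_R (f : FN N) : (realization N).R f = realize N f := rfl

/-- the conjugate embeddings `f ↦ f̃ ∘ g⁻¹`, `g` running through representatives of the cosets -/
def conj (q : I0 N) : FN N →+* Mer := (compM (Quotient.out q)⁻¹).comp (realization N).R

theorem conj_apply (q : I0 N) (f : FN N) :
    conj N q f = compM (Quotient.out q)⁻¹ (realize N f) := rfl

theorem conj_const (q : I0 N) (c : Kbar) :
    conj N q (algebraMap Kbar (FN N) c) = algebraMap ℂ Mer (iotaC c) := by
  rw [conj_apply, AlgHom.commutes, algebraMap_Kbar_Mer, compM_const]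

theorem conj_jF (q : I0 N) : conj N q (jF N) = algebraMap Hol Mer (jDilHol 1 one_pos) :=
  Sig_jF N (Quotient.out q)

theorem conj_injective : Function.Injective (conj N) := by
  intro q q' h
  have hN : 0 < N := Nat.pos_of_ne_zero (NeZero.ne N)
  have h1 := congrArg (fun ρ : FN N →+* Mer => ρ (jdF N N dvd_rfl)) h
  simp only [conj_apply, realize_jdF, compM_algebraMap] at h1
  have h2 : compSL (Quotient.out q : SL(2, ℤ))⁻¹ (jDilHol N hN)
      = compSL (Quotient.out q' : SL(2, ℤ))⁻¹ (jDilHol N hN) :=
    IsFractionRing.injective Hol Mer h1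
  have h3 : ((Quotient.out q : SL(2, ℤ)) : I0 N) = ((Quotient.out q' : SL(2, ℤ)) : I0 N) := by
    refine Fermat.Agent.S24_helper66.CosetSep.coset_eq_of_jDil_eq hN _ _ fun τ => ?_
    have := congrArg (fun f : Hol => (f : ℍ → ℂ) τ) h2
    exact this
  rwa [QuotientGroup.out_eq', QuotientGroup.out_eq'] at h3

/-- the product formula `hprod` of `InteriorOrbit` -/
theorem hprod (f : FN N) (i₀ : I0 N) :
    compM (Quotient.out i₀)⁻¹ ((realization N).R
        (algebraMap Kbar⟮jF N⟯ (FN N) (Algebra.norm Kbar⟮jF N⟯ f)))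
      = ∏ i : I0 N, compM (Quotient.out i)⁻¹ ((realization N).R f) :=
  DegreeNorm.norm_eq_prod (m9 N) (Comb.m11 N).1 (conj N) i₀
    (fun q c => by rw [conj_const, conj_const])
    (fun q => by rw [conj_jF, conj_jF])
    (conj_injective N) f

theorem finiteDimensional_adjoin_jF : FiniteDimensional Kbar⟮jF N⟯ (FN N) := (m9 N).2.1

theorem transcendental_sub (c : Kbar) : Transcendental Kbar (jF N - algebraMap Kbar (FN N) c) :=
  Norm.transcendental_sub_algebraMap (m9 N).1 c

/-- the `NORM` package of helper47 at `x = j - c`, with `k = ℚ̄(j)` -/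
theorem norm_package (c : Kbar) :
    Finite (Fibre Kbar (jF N - algebraMap Kbar (FN N) c)) ∧
    (∀ f : FN N, f ≠ 0 → ∀ w₀ : Place Kbar (FN N),
      0 < w₀.ord (jF N - algebraMap Kbar (FN N) c) →
      w₀.ord (algebraMap Kbar⟮jF N⟯ (FN N) (Algebra.norm Kbar⟮jF N⟯ f)) =
        w₀.ord (jF N - algebraMap Kbar (FN N) c) *
          ∑ᶠ w : Fibre Kbar (jF N - algebraMap Kbar (FN N) c), w.1.ord f) ∧
    (∀ w : Fibre Kbar (jF N - algebraMap Kbar (FN N) c), ∃ f : FN N, f ≠ 0 ∧
      w.1.ord f = 1 ∧ ∀ w' : Fibre Kbar (jF N - algebraMap Kbar (FN N) c), w' ≠ w →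
        w'.1.ord f = 0) := by
  haveI := finiteDimensional_adjoin_jF N
  have hk : Kbar⟮jF N⟯ = Kbar⟮jF N - algebraMap Kbar (FN N) c⟯ :=
    (Norm.adjoin_simple_sub_algebraMap (jF N) c).symm
  haveI : FiniteDimensional Kbar⟮jF N - algebraMap Kbar (FN N) c⟯ (FN N) := by
    rw [← hk]; infer_instance
  exact Norm.fibre_package (jF N - algebraMap Kbar (FN N) c) (transcendental_sub N c)
    Kbar⟮jF N⟯ hk

theorem iotaC_eq_zero_iff (c : Kbar) : iotaC c = 0 ↔ c = 0 := map_eq_zero iotaC

theorem iotaC_eq_1728_iff (c : Kbar) : iotaC c = 1728 ↔ c = 1728 := by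
  constructor
  · intro h
    apply iotaC.injective
    rw [h, map_ofNat]
  · rintro rfl
    rw [map_ofNat]

/-- **`hgen`** of `FinalB.genus_eq_genusFormula_of_counts` -/
theorem hgen (c : Kbar) (h0 : c ≠ 0) (h1 : c ≠ 1728) :
    Nat.card (Fibre Kbar (jF N - algebraMap Kbar (FN N) c)) = dedekindPsi N := by
  haveI := finiteDimensional_adjoin_jF N
  obtain ⟨hfin, hN, hWA⟩ := norm_package N c
  haveI := hfin
  rw [← (Comb.m11 N).1]
  exact ((realization N).unramified_generic Kbar⟮jF N⟯
    (fun h => h0 ((iotaC_eq_zero_iff c).mp h)) (fun h => h1 ((iotaC_eq_1728_iff c).mp h))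
    hN hWA (hprod N)).2

/-- all places above a generic value are unramified -/
theorem unramified (c : Kbar) (h0 : c ≠ 0) (h1 : c ≠ 1728)
    (w : Fibre Kbar (jF N - algebraMap Kbar (FN N) c)) :
    w.1.ord (jF N - algebraMap Kbar (FN N) c) = 1 := by
  haveI := finiteDimensional_adjoin_jF N
  obtain ⟨hfin, hN, hWA⟩ := norm_package N c
  haveI := hfin
  exact ((realization N).unramified_generic Kbar⟮jF N⟯
    (fun h => h0 ((iotaC_eq_zero_iff c).mp h)) (fun h => h1 ((iotaC_eq_1728_iff c).mp h))
    hN hWA (hprod N)).1 w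

/-- **`h0`** of `FinalB.genus_eq_genusFormula_of_counts` -/
theorem h0 :
    Nat.card (Fibre Kbar (jF N - algebraMap Kbar (FN N) 0))
      = numOrbits (permOf N (ModularGroup.S * ModularGroup.T)) := by
  haveI := finiteDimensional_adjoin_jF N
  obtain ⟨hfin, hN, hWA⟩ := norm_package N 0
  haveI := hfin
  exact (realization N).card_fibre_zero Kbar⟮jF N⟯ (map_zero iotaC) hN hWA (hprod N)

/-- **`h1728`** of `FinalB.genus_eq_genusFormula_of_counts` -/
theorem h1728 :
    Nat.card (Fibre Kbar (jF N - algebraMap Kbar (FN N) 1728))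
      = numOrbits (permOf N ModularGroup.S) := by
  haveI := finiteDimensional_adjoin_jF N
  obtain ⟨hfin, hN, hWA⟩ := norm_package N 1728
  haveI := hfin
  exact (realization N).card_fibre_1728 Kbar⟮jF N⟯ (map_ofNat iotaC 1728) hN hWA (hprod N)

end Fermat.Agent.S24.InteriorCounts
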