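import Fermat.Agent.LevelOne_helper29.JOrders
import Fermat.Agent.LevelOne_helper63.ZeroSets
import Fermat.Agent.S20_helper25.Elliptic

/-!
# M10c: the local order of `j - j(z₀)` is the order of the stabiliser of `z₀` modulo `±1`

Assembly of `LevelOne_helper29` (Ramanujan identities, exact orders in terms of the values of
`E₄`, `E₆`), `LevelOne_helper63` (`j` is injective modulo `SL(2, ℤ)`, zero sets of `E₄`, `E₆`)
and `S20_helper25` (stabilisers).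
-/

set_option autoImplicit false

open UpperHalfPlane ModularForm EisensteinSeries ModularGroup
open scoped MatrixGroups

namespace Fermat.Agent.S24.LocalOrder

open Fermat.Agent.LevelOne_helper29 Fermat.Agent.S20_helper25

/-- `j` separates `SL(2, ℤ)`-orbits. -/
theorem jInv_eq_iff (z₁ z₂ : ℍ) : jInv z₁ = jInv z₂ ↔ ∃ γ : SL(2, ℤ), z₂ = γ • z₁ := by
  rw [← Fermat.Agent.LevelOne_helper63.jRel_iff z₁ z₂, jInv, jInv,
    div_eq_div_iff (discriminant_ne_zero z₁) (discriminant_ne_zero z₂)]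
  exact eq_comm

theorem jInjective : JInjective := fun τ τ' h => (jInv_eq_iff τ τ').mp h

/-- `j` induces a bijection `SL(2, ℤ) \ ℍ → ℂ`: surjectivity. -/
theorem exists_jInv_eq (c : ℂ) : ∃ z : ℍ, jInv z = c := jInv_surjective c

theorem E4_eq_zero_iff (z : ℍ) : E₄ z = 0 ↔ ∃ γ : SL(2, ℤ), z = γ • ρ :=
  E4_eq_zero_iff_of_injective jInjective z

theorem E6_eq_zero_iff (z : ℍ) : E₆ z = 0 ↔ ∃ γ : SL(2, ℤ), z = γ • I :=
  E6_eq_zero_iff_of_injective jInjective z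

theorem jInv_eq_zero_iff_orbit (z : ℍ) : jInv z = 0 ↔ ∃ γ : SL(2, ℤ), γ • z = ρ := by
  rw [jInv_eq_zero_iff, E4_eq_zero_iff]
  constructor
  · rintro ⟨γ, rfl⟩
    exact ⟨γ⁻¹, inv_smul_smul γ ρ⟩
  · rintro ⟨γ, h⟩
    exact ⟨γ⁻¹, by rw [← h, inv_smul_smul]⟩

theorem jInv_eq_1728_iff_orbit (z : ℍ) : jInv z = 1728 ↔ ∃ γ : SL(2, ℤ), γ • z = I := by
  rw [jInv_eq_1728_iff, E6_eq_zero_iff]
  constructor
  · rintro ⟨γ, rfl⟩
    exact ⟨γ⁻¹, inv_smul_smul γ I⟩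
  · rintro ⟨γ, h⟩
    exact ⟨γ⁻¹, by rw [← h, inv_smul_smul]⟩

/-- Off `j = 0, 1728` the stabiliser is `{±1}`. -/
theorem eq_one_or_neg_one_of_smul_eq {z₀ : ℍ} (h0 : jInv z₀ ≠ 0) (h1 : jInv z₀ ≠ 1728)
    {γ : SL(2, ℤ)} (hγ : γ • z₀ = z₀) : γ = 1 ∨ γ = -1 := by
  refine eq_one_or_neg_one_of_mem_Stab (τ := z₀) (fun g hg => h1 ?_) (fun g hg => h0 ?_)
    (mem_Stab.mpr hγ)
  · exact (jInv_eq_1728_iff_orbit z₀).mpr ⟨g, hg⟩
  · exact (jInv_eq_zero_iff_orbit z₀).mpr ⟨g, hg⟩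

/-- The order of `j - j(z₀)` at `z₀`, in the three cases. -/
theorem ordAt_generic {z₀ : ℍ} (h0 : jInv z₀ ≠ 0) (h1 : jInv z₀ ≠ 1728) :
    ordAt (fun z => jInv z - jInv z₀) z₀ = 1 :=
  ordAt_jInv_sub_of_ne_zero (fun h => h0 ((jInv_eq_zero_iff z₀).mpr h))
    (fun h => h1 ((jInv_eq_1728_iff z₀).mpr h))

theorem ordAt_of_eq_1728 {z₀ : ℍ} (h1 : jInv z₀ = 1728) :
    ordAt (fun z => jInv z - jInv z₀) z₀ = 2 := by
  rw [h1]
  exact ordAt_jInv_sub_of_E6_eq_zero ((jInv_eq_1728_iff z₀).mp h1)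

theorem ordAt_of_eq_zero {z₀ : ℍ} (h0 : jInv z₀ = 0) :
    ordAt (fun z => jInv z - jInv z₀) z₀ = 3 := by
  rw [h0]
  simp only [sub_zero]
  exact ordAt_jInv_of_E4_eq_zero ((jInv_eq_zero_iff z₀).mp h0)

/-- **M10c.** The order of `j - j(z₀)` at `z₀` is `|Stab(z₀) / ±1|`. -/
theorem ordAt_eq_card_Stab (z₀ : ℍ) :
    ordAt (fun z => jInv z - jInv z₀) z₀ = ((Nat.card (Stab z₀) / 2 : ℕ) : ℕ∞) := by
  rcases Stab_trichotomy z₀ with ⟨hI, hρ, -, hc⟩ | ⟨g, hg, -, hc⟩ | ⟨g, hg, -, hc⟩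
  · rw [hc, ordAt_generic]
    · rfl
    · exact fun h => by
        obtain ⟨γ, hγ⟩ := (jInv_eq_zero_iff_orbit z₀).mp h
        exact hρ γ hγ
    · exact fun h => by
        obtain ⟨γ, hγ⟩ := (jInv_eq_1728_iff_orbit z₀).mp h
        exact hI γ hγ
  · rw [hc, ordAt_of_eq_1728 ((jInv_eq_1728_iff_orbit z₀).mpr ⟨g, hg⟩)]
    rfl
  · rw [hc, ordAt_of_eq_zero ((jInv_eq_zero_iff_orbit z₀).mpr ⟨g, hg⟩)]
    rfl

/-- The same statement for an arbitrary presentation `J` of the `j`-function and with the order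
unfolded: `analyticOrderAt` in the complex variable. -/
theorem analyticOrderAt_sub_eq_card_Stab {J : ℍ → ℂ}
    (hJ : ∀ z, J z = E₄ z ^ 3 / ModularForm.discriminant z) (z₀ : ℍ) :
    analyticOrderAt (fun w : ℂ => J (ofComplex w) - J z₀) (z₀ : ℂ) =
      ((Nat.card (Stab z₀) / 2 : ℕ) : ℕ∞) := by
  have hJ' : J = jInv := funext hJ
  rw [hJ', ← ordAt_eq_card_Stab z₀]
  rfl

end Fermat.Agent.S24.LocalOrder
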