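import Mathlib
import Fermat.Prelude.Def_AlgebraicCurve_DivisorClassGroup

/-!
Basic facts about `AlgebraicCurve.Place` (S24 project, FF1).
-/

set_option autoImplicit false

namespace Fermat.Agent.S24

open AlgebraicCurve IsDedekindDomain WithZero

variable {K F : Type*} [Field K] [Field F] [Algebra K F]

namespace PlaceB

variable (v : Place K F)

theorem adicValuation_le_one_iff (f : F) :
    v.adicValuation f ≤ 1 ↔ f ∈ v.toValuationSubring := by
  constructor
  · intro h
    have key : ∀ w : HeightOneSpectrum v.toValuationSubring, w.valuation F f ≤ 1 := by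
      intro w
      have hw : w = v.heightOneSpectrum := by
        apply HeightOneSpectrum.ext
        rw [Place.heightOneSpectrum_asIdeal]
        exact IsLocalRing.eq_maximalIdeal (w.isPrime.isMaximal w.ne_bot)
      rw [hw]
      exact h
    obtain ⟨a, ha⟩ := HeightOneSpectrum.mem_integers_of_valuation_le_one F f key
    rw [← ha]
    exact a.2
  · intro h
    exact v.heightOneSpectrum.valuation_le_one (K := F) (⟨f, h⟩ : v.toValuationSubring)

theorem ord_nonneg_iff {f : F} (hf : f ≠ 0) : 0 ≤ v.ord f ↔ f ∈ v.toValuationSubring := by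
  rw [← adicValuation_le_one_iff, Place.ord, neg_nonneg,
    log_le_iff_le_exp (v.adicValuation_ne_zero hf), exp_zero]

theorem ord_pos_iff {f : F} (hf : f ≠ 0) : 0 < v.ord f ↔ v.adicValuation f < 1 := by
  rw [Place.ord, neg_pos, log_lt_iff_lt_exp (v.adicValuation_ne_zero hf), exp_zero]

theorem ord_neg (f : F) : v.ord (-f) = v.ord f := by
  simp [Place.ord]

theorem ord_add_ge {f g : F} (hf : f ≠ 0) (hg : g ≠ 0) (hfg : f + g ≠ 0) :
    min (v.ord f) (v.ord g) ≤ v.ord (f + g) := by
  have h := v.adicValuation.map_add f g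
  have h0f := v.adicValuation_ne_zero hf
  have h0g := v.adicValuation_ne_zero hg
  have h0 := v.adicValuation_ne_zero hfg
  rcases le_max_iff.mp h with h1 | h1
  · have : v.ord f ≤ v.ord (f + g) := by
      rw [Place.ord, Place.ord, neg_le_neg_iff, log_le_log h0 h0f]
      exact h1
    exact (min_le_left _ _).trans this
  · have : v.ord g ≤ v.ord (f + g) := by
      rw [Place.ord, Place.ord, neg_le_neg_iff, log_le_log h0 h0g]
      exact h1
    exact (min_le_right _ _).trans this

theorem ord_algebraMap {a : K} (ha : a ≠ 0) : v.ord (algebraMap K F a) = 0 := by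
  have h1 : algebraMap K F a ≠ 0 := by simpa using ha
  have h2 : (algebraMap K F a)⁻¹ ≠ 0 := inv_ne_zero h1
  have m1 : algebraMap K F a ∈ v.toValuationSubring := v.algebraMap_mem' a
  have m2 : (algebraMap K F a)⁻¹ ∈ v.toValuationSubring := by
    rw [← map_inv₀]; exact v.algebraMap_mem' _
  have := (ord_nonneg_iff v h1).mpr m1
  have h3 := (ord_nonneg_iff v h2).mpr m2
  rw [Place.ord_inv] at h3
  omega

theorem eq_of_le {v w : Place K F} (h : v.toValuationSubring ≤ w.toValuationSubring) : v = w := by
  apply Place.ext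
  exact ValuationSubring.eq_of_le_of_ne_top _ h w.ne_top'

theorem ord_eq_of_eq_mul {f π u : F} {n : ℤ} (hπ : v.ord π = 1) (hu0 : u ≠ 0) (hu : v.ord u = 0)
    (h : f = u * π ^ n) : v.ord f = n := by
  have hπ0 : π ≠ 0 := by
    rintro rfl; simp at hπ
  rw [h, v.ord_mul hu0 (zpow_ne_zero n hπ0), hu, v.ord_zpow, hπ]; ring

end PlaceB

end Fermat.Agent.S24
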