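import Mathlib
import Fermat.Agent.S24.PlaceBasic

/-!
Generators of a function field in one variable (S24 project, FF1).
-/

set_option autoImplicit false

namespace Fermat.Agent.S24

open AlgebraicCurve IntermediateField

/-- `x` is a generator: transcendental over `K` with `F` finite over `K(x)`. -/
class IsGen (K : Type*) {F : Type*} [Field K] [Field F] [Algebra K F] (x : F) : Prop where
  transcendental : Transcendental K x
  finite : FiniteDimensional K⟮x⟯ F

variable {K F : Type*} [Field K] [Field F] [Algebra K F]

instance IsGen.finiteDimensional (x : F) [hx : IsGen K x] : FiniteDimensional K⟮x⟯ F := hx.finite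

/-- Any transcendental element of a function field in one variable is a generator. -/
theorem IsGen.of_transcendental (x : F) [hx : IsGen K x] {y : F} (hy : Transcendental K y) :
    IsGen K y := by
  classical
  let e : RatFunc K ≃ₐ[K] K⟮x⟯ := RatFunc.algEquivOfTranscendental x hx.transcendental
  let φ : RatFunc K →ₐ[K] F := (IntermediateField.val K⟮x⟯).comp e.toAlgHom
  let : Algebra (RatFunc K) F := φ.toRingHom.toAlgebra
  have : IsScalarTower K (RatFunc K) F := IsScalarTower.of_algebraMap_eq fun a => by
    rw [RingHom.algebraMap_toAlgebra]
    exact (φ.commutes a).symm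
  have : FunctionField K F := by
    refine Module.Finite.of_equiv_equiv (A₁ := K⟮x⟯) (B₁ := F) e.symm.toRingEquiv
      (RingEquiv.refl F) ?_
    ext a
    simp only [RingHom.algebraMap_toAlgebra, RingHom.coe_comp, Function.comp_apply]
    show φ (e.symm a) = a
    simp [φ]
  exact ⟨hy, FunctionField.finiteDimensional_of_adjoin_transcendental hy⟩

end Fermat.Agent.S24
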