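import Mathlib
import Fermat.Agent.S24.Gen

/-!
Places of a function field in one variable over an algebraically closed field have degree one
(S24 project, FF1).
-/

set_option autoImplicit false

namespace Fermat.Agent.S24

open AlgebraicCurve IntermediateField Polynomial

variable {K F : Type*} [Field K] [Field F] [Algebra K F]

namespace PlaceB

variable (v : Place K F)

theorem coe_aeval (a : v.toValuationSubring) (p : K[X]) :
    ((aeval a p : v.toValuationSubring) : F) = aeval (a : F) p := by
  have := Polynomial.aeval_algebraMap_apply (R := K) (A := v.toValuationSubring) F a p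
  exact this.symm

theorem residue_aeval (a : v.toValuationSubring) (p : K[X]) :
    IsLocalRing.residue v.toValuationSubring (aeval a p) =
      aeval (IsLocalRing.residue v.toValuationSubring a) p := by
  have := Polynomial.aeval_algebraMap_apply (R := K) (A := v.toValuationSubring)
    (IsLocalRing.ResidueField v.toValuationSubring) a p
  exact this.symm

/-- The residue field of a place is algebraic over the constant field. -/
theorem residue_isAlgebraic (x : F) [hx : IsGen K x] (a : v.toValuationSubring) :
    IsAlgebraic K (IsLocalRing.residue v.toValuationSubring a) := by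
  by_contra htr
  have htr' : Transcendental K (IsLocalRing.residue v.toValuationSubring a) := htr
  -- `a` itself is transcendental
  have ha : Transcendental K (a : F) := by
    intro ⟨p, hp0, hp⟩
    apply htr
    refine ⟨p, hp0, ?_⟩
    rw [← residue_aeval]
    have : (aeval a p : v.toValuationSubring) = 0 := by
      apply Subtype.ext
      rw [coe_aeval, hp]; rfl
    rw [this, map_zero]
  have hgen : IsGen K (a : F) := IsGen.of_transcendental x ha
  -- `K(a)` is contained in the valuation ring
  have hle : ∀ z ∈ K⟮(a : F)⟯, z ∈ v.toValuationSubring := by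
    intro z hz
    obtain ⟨r, s, rfl⟩ := (mem_adjoin_simple_iff K z).mp hz
    by_cases hs : s = 0
    · simp [hs, v.toValuationSubring.zero_mem]
    have hsu : IsUnit (aeval a s : v.toValuationSubring) := by
      rw [← IsLocalRing.residue_ne_zero_iff_isUnit, residue_aeval]
      intro h0
      exact htr' ⟨s, hs, h0⟩
    obtain ⟨u, hu⟩ := hsu
    have h1 : aeval (a : F) s = ((u : v.toValuationSubring) : F) := by
      rw [hu, coe_aeval]
    have h2 : (aeval (a : F) s)⁻¹ = (((u⁻¹ : (v.toValuationSubring)ˣ) : v.toValuationSubring) : F) := by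
      rw [h1]
      have : ((u : v.toValuationSubring) : F) * (((u⁻¹ : (v.toValuationSubring)ˣ) :
          v.toValuationSubring) : F) = 1 := by
        rw [← MulMemClass.coe_mul, Units.mul_inv]; rfl
      exact inv_eq_of_mul_eq_one_right this
    rw [div_eq_mul_inv, h2, ← coe_aeval]
    exact (aeval a r * ((u⁻¹ : (v.toValuationSubring)ˣ) : v.toValuationSubring)).2
  -- hence everything is integral over the valuation ring
  apply v.ne_top'
  rw [eq_top_iff]
  intro z _
  have hfin : FiniteDimensional K⟮(a : F)⟯ F := hgen.finite
  have hz : IsIntegral K⟮(a : F)⟯ z := Algebra.IsIntegral.isIntegral z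
  obtain ⟨q, hq, hqz⟩ := hz
  let ι : K⟮(a : F)⟯ →+* v.toValuationSubring :=
    { toFun := fun z => ⟨z.1, hle z.1 z.2⟩
      map_one' := rfl
      map_mul' := fun _ _ => rfl
      map_zero' := rfl
      map_add' := fun _ _ => rfl }
  have hint : IsIntegral v.toValuationSubring z := by
    refine ⟨q.map ι, hq.map ι, ?_⟩
    rw [Polynomial.eval₂_map]
    exact hqz
  obtain ⟨y, hy⟩ := (IsIntegrallyClosed.isIntegral_iff (R := v.toValuationSubring) (K := F)).mp hint
  rw [← hy]
  exact y.2

/-- Over an algebraically closed constant field every place has degree one. -/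
theorem deg_eq_one [IsAlgClosed K] (x : F) [hx : IsGen K x] : v.deg = 1 := by
  have hint : Algebra.IsIntegral K v.ResidueField := ⟨fun b => by
    obtain ⟨a, rfl⟩ := IsLocalRing.residue_surjective b
    exact (residue_isAlgebraic v x a).isIntegral⟩
  have hbij : Function.Bijective (algebraMap K v.ResidueField) :=
    IsAlgClosed.algebraMap_bijective_of_isIntegral
  let e : K ≃ₗ[K] v.ResidueField :=
    LinearEquiv.ofBijective (Algebra.linearMap K v.ResidueField) hbij
  rw [Place.deg, ← e.finrank_eq, Module.finrank_self]

theorem ord_pos_iff_mem_maximalIdeal {a : v.toValuationSubring} (ha : a ≠ 0) :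
    0 < v.ord (a : F) ↔ a ∈ IsLocalRing.maximalIdeal v.toValuationSubring := by
  have ha' : (a : F) ≠ 0 := by
    intro h; apply ha; exact Subtype.ext h
  rw [ord_pos_iff v ha', Place.adicValuation_coe,
    IsDedekindDomain.HeightOneSpectrum.intValuation_lt_one_iff_mem, Place.heightOneSpectrum_asIdeal]

/-- Every place at which `x` is regular is centred at a unique point `c` of the `x`-line. -/
theorem exists_center [IsAlgClosed K] (x : F) [hx : IsGen K x]
    (hv : x ∈ v.toValuationSubring) : ∃ c : K, 0 < v.ord (x - algebraMap K F c) := by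
  have hint : Algebra.IsIntegral K v.ResidueField := ⟨fun b => by
    obtain ⟨a, rfl⟩ := IsLocalRing.residue_surjective b
    exact (residue_isAlgebraic v x a).isIntegral⟩
  have hbij : Function.Bijective (algebraMap K v.ResidueField) :=
    IsAlgClosed.algebraMap_bijective_of_isIntegral
  obtain ⟨c, hc⟩ := hbij.2 (IsLocalRing.residue v.toValuationSubring ⟨x, hv⟩)
  refine ⟨c, ?_⟩
  have hne : (⟨x, hv⟩ - algebraMap K v.toValuationSubring c : v.toValuationSubring) ≠ 0 := by
    intro h
    have h' : x - algebraMap K F c = 0 := congrArg Subtype.val h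
    have hxc : x = algebraMap K F c := sub_eq_zero.mp h'
    exact hx.transcendental (hxc ▸ isAlgebraic_algebraMap c)
  have hmem : (⟨x, hv⟩ - algebraMap K v.toValuationSubring c : v.toValuationSubring) ∈
      IsLocalRing.maximalIdeal v.toValuationSubring := by
    rw [← IsLocalRing.residue_eq_zero_iff, map_sub, sub_eq_zero, ← hc]
    rfl
  exact (ord_pos_iff_mem_maximalIdeal v hne).mpr hmem

theorem center_unique {x : F} {c c' : K} (h : 0 < v.ord (x - algebraMap K F c))
    (h' : 0 < v.ord (x - algebraMap K F c')) : c = c' := by
  by_contra hne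
  have h1 : x - algebraMap K F c ≠ 0 := by
    intro h0; rw [h0] at h; simp at h
  have h2 : x - algebraMap K F c' ≠ 0 := by
    intro h0; rw [h0] at h'; simp at h'
  have hcc : algebraMap K F (c - c') ≠ 0 := by
    rw [map_ne_zero_iff _ (algebraMap K F).injective]
    exact sub_ne_zero.mpr hne
  have h3 : -(x - algebraMap K F c) ≠ 0 := neg_ne_zero.mpr h1
  have hsum : (x - algebraMap K F c') + -(x - algebraMap K F c) = algebraMap K F (c - c') := by
    rw [map_sub]; ring
  have := ord_add_ge v h2 h3 (by rw [hsum]; exact hcc)
  rw [hsum, ord_algebraMap v (sub_ne_zero.mpr hne), ord_neg] at this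
  have := le_min_iff.mp (le_of_eq rfl : min (v.ord (x - algebraMap K F c')) (v.ord (x - algebraMap K F c)) ≤ _)
  omega

/-- Every place is a pole of `x` or a zero of `x - c` for a (unique) constant `c`. -/
theorem pole_or_center [IsAlgClosed K] (x : F) [hx : IsGen K x] :
    v.ord x < 0 ∨ ∃ c : K, 0 < v.ord (x - algebraMap K F c) := by
  have hx0 : x ≠ 0 := fun h => hx.transcendental (h ▸ isAlgebraic_zero)
  by_cases hv : x ∈ v.toValuationSubring
  · exact Or.inr (exists_center v x hv)
  · left
    by_contra hlt
    exact hv ((ord_nonneg_iff v hx0).mp (not_lt.mp hlt))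

end PlaceB

end Fermat.Agent.S24
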