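import Mathlib
import Fermat.Agent.S24.DegOne
import Fermat.Agent.S24.LOC
import Fermat.Agent.S24_helper6.PlaceDict

/-!
# S24 / FF1: the Dedekind domain attached to a generator `x` of a function field

`Rx K x = K[x]`, `Ax K x` = integral closure of `K[x]` in `F`; the zeros of `x` are the primes of
`Ax K x` containing `x`; fundamental identity `∑ ord_v x = [F : K(x)]`.
-/

set_option autoImplicit false
set_option linter.unusedSectionVars false

namespace Fermat.Agent.S24

open AlgebraicCurve IsDedekindDomain WithZero IntermediateField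
open scoped IntermediateField.algebraAdjoinAdjoin

variable {K F : Type*} [Field K] [Field F] [Algebra K F]

/-- Over an algebraically closed constant field all inertia degrees are one. -/
theorem inertiaDeg_eq_one_of_surjective (K : Type*) {R A : Type*} [Field K] [IsAlgClosed K]
    [CommRing R] [CommRing A]
    [Algebra K R] [Algebra R A] [Algebra K A] [IsScalarTower K R A] [Algebra.IsIntegral R A]
    (p : Ideal R) [p.IsMaximal] (q : Ideal A) [q.IsMaximal] [q.LiesOver p]
    (hsurj : Function.Surjective (algebraMap K (R ⧸ p))) : q.inertiaDeg R = 1 := by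
  rw [Ideal.inertiaDeg_eq_of_isMaximal p q]
  have h1 : Algebra.IsIntegral K (R ⧸ p) := Algebra.isIntegral_of_surjective hsurj
  have h2 : Algebra.IsIntegral K (A ⧸ q) := Algebra.IsIntegral.trans (R ⧸ p)
  have hbij : Function.Bijective (algebraMap K (A ⧸ q)) :=
    IsAlgClosed.algebraMap_bijective_of_isIntegral
  let _ : Field (R ⧸ p) := Ideal.Quotient.field _
  let _ : Field (A ⧸ q) := Ideal.Quotient.field _
  rw [finrank_eq_one_iff_of_nonzero' (1 : A ⧸ q) one_ne_zero]
  intro w
  obtain ⟨c, rfl⟩ := hbij.2 w
  refine ⟨algebraMap K _ c, ?_⟩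
  rw [Algebra.smul_def, mul_one, ← IsScalarTower.algebraMap_apply]


variable (K) (x : F)

/-- the polynomial ring `K[x]` inside `F` -/
abbrev Rx : Subalgebra K F := Algebra.adjoin K {x}

/-- the integral closure of `K[x]` in `F` -/
abbrev Ax : Subalgebra (Rx K x) F := integralClosure (Rx K x) F

/-- `x` as an element of `K[x]` -/
def xR : Rx K x := ⟨x, Algebra.self_mem_adjoin_singleton K x⟩

/-- `x` as an element of the integral closure -/
def xA : Ax K x := algebraMap (Rx K x) (Ax K x) (xR K x)

@[simp] theorem coe_xR : ((xR K x : Rx K x) : F) = x := rfl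

@[simp] theorem coe_xA : ((xA K x : Ax K x) : F) = x := rfl

theorem algebraMap_xA : algebraMap (Ax K x) F (xA K x) = x := rfl

variable [hx : IsGen K x]

instance instPIDRx : IsPrincipalIdealRing (Rx K x) :=
  IsPrincipalIdealRing.of_surjective
    (Polynomial.algEquivOfTranscendental K x hx.transcendental).toRingEquiv.toRingHom
    (Polynomial.algEquivOfTranscendental K x hx.transcendental).surjective

theorem irreducible_xR : Irreducible (xR K x) := by
  have h := (MulEquiv.irreducible_iff
    (Polynomial.algEquivOfTranscendental K x hx.transcendental).toMulEquiv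
    (x := (Polynomial.X : Polynomial K))).mpr Polynomial.irreducible_X
  have h2 : (Polynomial.algEquivOfTranscendental K x hx.transcendental).toMulEquiv Polynomial.X
      = xR K x := Polynomial.algEquivOfTranscendental_apply_X K x hx.transcendental
  rwa [h2] at h

theorem xR_ne_zero : xR K x ≠ 0 := (irreducible_xR K x).ne_zero

theorem xA_ne_zero : xA K x ≠ 0 := by
  intro h
  apply xR_ne_zero K x
  apply Subtype.ext
  have := congrArg (fun a : Ax K x => (a : F)) h
  simpa using this

/-- the maximal ideal `(x)` of `K[x]` -/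
abbrev px : Ideal (Rx K x) := Ideal.span {xR K x}

instance instMaximalPx : (px K x).IsMaximal :=
  PrincipalIdealRing.isMaximal_of_irreducible (irreducible_xR K x)

theorem px_ne_bot : px K x ≠ ⊥ := by
  rw [Ne, Ideal.span_singleton_eq_bot]
  exact xR_ne_zero K x

variable [CharZero K]

instance instFracAx : IsFractionRing (Ax K x) F :=
  integralClosure.isFractionRing_of_finite_extension K⟮x⟯ F

instance instDedekindAx : IsDedekindDomain (Ax K x) :=
  IsIntegralClosure.isDedekindDomain (Rx K x) K⟮x⟯ F (Ax K x)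

instance instFiniteAx : Module.Finite (Rx K x) (Ax K x) :=
  IsIntegralClosure.finite (Rx K x) K⟮x⟯ F (Ax K x)

omit [CharZero K] in
theorem finrank_Ax : Module.finrank (Rx K x) (Ax K x) = Module.finrank K⟮x⟯ F :=
  (IsFractionRing.finrank_eq (Rx K x) K⟮x⟯ (Ax K x) F).symm

/-! ### Places at which `x` is regular contain `Ax K x` -/

omit hx [CharZero K] in
theorem Rx_le_of_mem (v : Place K F) (hv : x ∈ v.toValuationSubring) (a : Rx K x) :
    (a : F) ∈ v.toValuationSubring := by
  let S : Subalgebra K F :=
    { v.toValuationSubring.toSubring with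
      algebraMap_mem' := fun r => v.algebraMap_mem' r }
  have hle : Algebra.adjoin K {x} ≤ S := Algebra.adjoin_le (by
    intro y hy
    rw [Set.mem_singleton_iff] at hy
    rw [hy]
    exact hv)
  exact hle a.2

omit hx [CharZero K] in
theorem containsB_of_mem (v : Place K F) (hv : x ∈ v.toValuationSubring) :
    Fermat.Agent.S24_helper6.ContainsB (Ax K x) v := by
  intro b
  -- `b` is integral over `K[x] ⊆ O_v`, and `O_v` is integrally closed
  obtain ⟨q, hq, hqb⟩ := b.2
  let ι : Rx K x →+* v.toValuationSubring :=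
    { toFun := fun a => ⟨a.1, Rx_le_of_mem K x v hv a⟩
      map_one' := rfl
      map_mul' := fun _ _ => rfl
      map_zero' := rfl
      map_add' := fun _ _ => rfl }
  have hint : IsIntegral v.toValuationSubring (b : F) := by
    refine ⟨q.map ι, hq.map ι, ?_⟩
    rw [Polynomial.eval₂_map]
    exact hqb
  obtain ⟨y, hy⟩ := (IsIntegrallyClosed.isIntegral_iff (R := v.toValuationSubring) (K := F)).mp hint
  show (b : F) ∈ v.toValuationSubring
  rw [← hy]
  exact y.2

/-! ### The fundamental identity for the fibre of `x` over `0` -/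

theorem map_px :
    Ideal.map (algebraMap (Rx K x) (Ax K x)) (px K x) = Ideal.span {xA K x} := by
  rw [Ideal.map_span, Set.image_singleton]
  rfl

theorem map_px_ne_bot : Ideal.map (algebraMap (Rx K x) (Ax K x)) (px K x) ≠ ⊥ := by
  rw [map_px, Ne, Ideal.span_singleton_eq_bot]
  exact xA_ne_zero K x

/-- evaluation at `x = 0` on `K[x]` -/
noncomputable def ev0 : Rx K x →ₐ[K] K :=
  (Polynomial.aeval (0 : K)).comp
    (Polynomial.algEquivOfTranscendental K x hx.transcendental).symm.toAlgHom

omit [CharZero K] in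
theorem ev0_xR : ev0 K x (xR K x) = 0 := by
  have h : (Polynomial.algEquivOfTranscendental K x hx.transcendental).symm (xR K x)
      = Polynomial.X := by
    rw [AlgEquiv.symm_apply_eq]
    exact (Polynomial.algEquivOfTranscendental_apply_X K x hx.transcendental).symm
  simp [ev0, h]

omit [CharZero K] in
/-- a `K`-algebra hom out of `K[x]` is determined by its value at `x` -/
theorem algHom_ext_Rx {B : Type*} [Semiring B] [Algebra K B] (φ ψ : Rx K x →ₐ[K] B)
    (h : φ (xR K x) = ψ (xR K x)) : φ = ψ := by
  apply AlgHom.ext_of_adjoin_eq_top (s := {xR K x})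
  · have := Algebra.adjoin_adjoin_coe_preimage (R := K) (s := ({x} : Set F))
    convert this using 2
    ext a
    simp only [Set.mem_singleton_iff, Set.mem_preimage]
    exact ⟨fun h => by rw [h]; rfl, fun h => Subtype.ext h⟩
  · intro a ha
    rw [Set.mem_singleton_iff] at ha
    rw [ha]
    exact h

omit [CharZero K] in
theorem mk_eq_algebraMap_ev0 (r : Rx K x) :
    Ideal.Quotient.mk (px K x) r = algebraMap K (Rx K x ⧸ px K x) (ev0 K x r) := by
  let φ : Rx K x →ₐ[K] (Rx K x ⧸ px K x) := Ideal.Quotient.mkₐ K (px K x)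
  let ψ : Rx K x →ₐ[K] (Rx K x ⧸ px K x) := (Algebra.ofId K (Rx K x ⧸ px K x)).comp (ev0 K x)
  have hφψ : φ = ψ := by
    apply algHom_ext_Rx
    show Ideal.Quotient.mk (px K x) (xR K x) = algebraMap K _ (ev0 K x (xR K x))
    rw [ev0_xR, map_zero, Ideal.Quotient.eq_zero_iff_mem]
    exact Ideal.mem_span_singleton_self _
  exact congrArg (fun f : Rx K x →ₐ[K] (Rx K x ⧸ px K x) => f r) hφψ

instance instFaithfulRxAx : FaithfulSMul (Rx K x) (Ax K x) := by
  rw [faithfulSMul_iff_algebraMap_injective]
  intro a b h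
  apply Subtype.ext
  exact congrArg (fun y : Ax K x => (y : F)) h

variable [IsAlgClosed K]

theorem inertiaDeg_eq_one (q : Ideal (Ax K x)) [hq : q.IsPrime] [hl : q.LiesOver (px K x)] :
    q.inertiaDeg (Rx K x) = 1 := by
  have hq0 : q ≠ ⊥ := Ideal.ne_bot_of_liesOver_of_ne_bot (px_ne_bot K x) q
  have hqm : q.IsMaximal := hq.isMaximal hq0
  refine inertiaDeg_eq_one_of_surjective K (px K x) q ?_
  intro y
  obtain ⟨r, rfl⟩ := Ideal.Quotient.mk_surjective y
  exact ⟨ev0 K x r, (mk_eq_algebraMap_ev0 K x r).symm⟩

/-! ### The zeros of `x` and the primes of `Ax K x` containing `x` -/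

open Fermat.Agent.S24_helper6

omit hx [CharZero K] [IsAlgClosed K] in
theorem mem_of_ord_pos (v : Place K F) (h : 0 < v.ord x) : x ∈ v.toValuationSubring := by
  have hx0 : x ≠ 0 := by
    rintro rfl
    simp at h
  exact (PlaceB.ord_nonneg_iff v hx0).mp h.le

/-- the prime of `Ax K x` below a zero of `x` -/
noncomputable def fibrePrime (w : Fibre K x) : HeightOneSpectrum (Ax K x) :=
  primeOfPlace w.1 (containsB_of_mem K x w.1 (mem_of_ord_pos K x w.1 w.2))

theorem placeOfPrime_fibrePrime (w : Fibre K x) :
    placeOfPrime (K := K) (F := F) (fibrePrime K x w) = w.1 :=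
  placeOfPrime_primeOfPlace _ _

theorem ord_placeOfPrime_x (P : HeightOneSpectrum (Ax K x)) :
    (placeOfPrime (K := K) (F := F) P).ord x
      = (multiplicity P.asIdeal (Ideal.span {xA K x}) : ℤ) := by
  have h : (placeOfPrime (K := K) (F := F) P).ord (algebraMap (Ax K x) F (xA K x))
      = (multiplicity P.asIdeal (Ideal.span {xA K x}) : ℤ) := by
    rw [placeOfPrime_ord, P.valuation_of_algebraMap,
      P.intValuation_eq_exp_neg_multiplicity (xA_ne_zero K x), log_exp, neg_neg]
  exact h

theorem ord_pos_iff_dvd (P : HeightOneSpectrum (Ax K x)) :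
    0 < (placeOfPrime (K := K) (F := F) P).ord x ↔
      P.asIdeal ∣ Ideal.map (algebraMap (Rx K x) (Ax K x)) (px K x) := by
  have h : 0 < (placeOfPrime (K := K) (F := F) P).ord (algebraMap (Ax K x) F (xA K x)) ↔
      P.asIdeal ∣ Ideal.map (algebraMap (Rx K x) (Ax K x)) (px K x) := by
    rw [placeOfPrime_ord_algebraMap_pos_iff P (xA_ne_zero K x), map_px,
      Ideal.dvd_span_singleton]
  exact h

/-- zeros of `x` ↔ primes of `Ax K x` dividing `(x)` -/
noncomputable def fibreEquiv : Fibre K x ≃ {P : HeightOneSpectrum (Ax K x) //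
    P.asIdeal ∣ Ideal.map (algebraMap (Rx K x) (Ax K x)) (px K x)} where
  toFun w := ⟨fibrePrime K x w, (ord_pos_iff_dvd K x _).mp (by
    rw [placeOfPrime_fibrePrime]; exact w.2)⟩
  invFun P := ⟨placeOfPrime P.1, (ord_pos_iff_dvd K x P.1).mpr P.2⟩
  left_inv w := Subtype.ext (placeOfPrime_fibrePrime K x w)
  right_inv P := Subtype.ext (primeOfPlace_placeOfPrime P.1)

/-- zeros of `x` ↔ primes of `Ax K x` over `(x) ⊂ K[x]` -/
noncomputable def fibreEquivPrimesOver : Fibre K x ≃ (px K x).primesOver (Ax K x) :=
  (fibreEquiv K x).trans (HeightOneSpectrum.equivPrimesOver (Ax K x) (px_ne_bot K x))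

theorem fibreEquivPrimesOver_apply (w : Fibre K x) :
    (fibreEquivPrimesOver K x w : Ideal (Ax K x)) = (fibrePrime K x w).asIdeal := rfl

/-- **N1**: an element has finitely many zeros. -/
instance finite_fibre : Finite (Fibre K x) :=
  Finite.of_equiv _ (fibreEquivPrimesOver K x).symm

theorem ord_eq_ramificationIdx (w : Fibre K x) :
    w.1.ord x = ((fibreEquivPrimesOver K x w).1.ramificationIdx (Rx K x) : ℤ) := by
  have hq : (fibreEquivPrimesOver K x w).1.IsPrime := (fibreEquivPrimesOver K x w).2.1
  have hl : (fibreEquivPrimesOver K x w).1.LiesOver (px K x) := (fibreEquivPrimesOver K x w).2.2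
  rw [Ideal.IsDedekindDomain.ramificationIdx_eq_multiplicity (px K x) _ (map_px_ne_bot K x),
    map_px, fibreEquivPrimesOver_apply, ← ord_placeOfPrime_x, placeOfPrime_fibrePrime]

/-- **Fundamental identity**: the zeros of `x`, counted with multiplicity, are `[F : K(x)]`. -/
theorem sum_ord_fibre : ∑ᶠ w : Fibre K x, w.1.ord x = (Module.finrank K⟮x⟯ F : ℤ) := by
  classical
  let _ : Fintype (Fibre K x) := Fintype.ofFinite _
  rw [finsum_eq_sum_of_fintype, ← finrank_Ax,
    ← Ideal.sum_ramification_inertia_eq_finrank (px K x) (Ax K x), Nat.cast_sum]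
  refine Fintype.sum_equiv (fibreEquivPrimesOver K x) _ _ fun w => ?_
  have hq : (fibreEquivPrimesOver K x w).1.IsPrime := (fibreEquivPrimesOver K x w).2.1
  have hl : (fibreEquivPrimesOver K x w).1.LiesOver (px K x) := (fibreEquivPrimesOver K x w).2.2
  rw [inertiaDeg_eq_one K x, mul_one]
  exact ord_eq_ramificationIdx K x w

end Fermat.Agent.S24
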