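import Mathlib
import Fermat.Prelude.Def_AlgebraicCurve_CanonicalDivisor

/-!
# T24 / FF4 : Hurwitz assembly (helper31)

Pure bookkeeping over the Prelude's `Place` / `Divisor` / `canonicalDivisorOf` API.
Every other module's deliverable enters as an explicit hypothesis.
-/

set_option autoImplicit false

noncomputable section

open KaehlerDifferential AlgebraicCurve WithZero

namespace Fermat.Agent.S24.Hurwitz

variable {K F : Type*} [Field K] [Field F] [Algebra K F]

/-! ### Small facts on `Place.ord` -/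

theorem ord_algebraMap (v : Place K F) (a : K) : v.ord (algebraMap K F a) = 0 := by
  rcases eq_or_ne a 0 with rfl | ha
  · simp
  · have hu : IsUnit (algebraMap K v.toValuationSubring a) := (Ne.isUnit ha).map _
    have h := v.ord_coe_unit hu.unit
    rwa [IsUnit.unit_spec, v.coe_algebraMap] at h

theorem ord_neg (v : Place K F) (f : F) : v.ord (-f) = v.ord f := by
  simp [Place.ord, Valuation.map_neg]

theorem min_le_ord_add (v : Place K F) {f g : F} (hf : f ≠ 0) (hg : g ≠ 0) (hfg : f + g ≠ 0) :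
    min (v.ord f) (v.ord g) ≤ v.ord (f + g) := by
  have h := v.adicValuation.map_add f g
  have h0f := v.adicValuation_ne_zero hf
  have h0g := v.adicValuation_ne_zero hg
  have h0 := v.adicValuation_ne_zero hfg
  simp only [Place.ord]
  rcases le_max_iff.mp h with h1 | h1
  · have := (WithZero.log_le_log h0 h0f).mpr h1
    exact (min_le_left _ _).trans (by omega)
  · have := (WithZero.log_le_log h0 h0g).mpr h1
    exact (min_le_right _ _).trans (by omega)

/-- two different constants cannot both be the value of `x` at `v` -/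
theorem not_pos_ord_sub_of_ne (v : Place K F) (x : F) {c c' : K} (hcc : c ≠ c')
    (h : 0 < v.ord (x - algebraMap K F c)) : ¬ 0 < v.ord (x - algebraMap K F c') := by
  intro h'
  have hne : algebraMap K F (c' - c) ≠ 0 := by
    rw [Ne, map_eq_zero_iff _ (algebraMap K F).injective]
    exact sub_ne_zero.mpr (Ne.symm hcc)
  have h1 : x - algebraMap K F c ≠ 0 := fun h0 => by simp [h0] at h
  have h2 : -(x - algebraMap K F c') ≠ 0 := fun h0 => by
    rw [neg_eq_zero] at h0; simp [h0] at h'
  have hsum : (x - algebraMap K F c) + -(x - algebraMap K F c') = algebraMap K F (c' - c) := by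
    rw [map_sub]; ring
  have h3 := min_le_ord_add v h1 h2 (by rw [hsum]; exact hne)
  rw [hsum, ord_algebraMap, ord_neg] at h3
  have : 0 < min (v.ord (x - algebraMap K F c)) (v.ord (x - algebraMap K F c')) := lt_min h h'
  omega

/-- a pole of `x` is not a zero of `x - c` -/
theorem not_pos_ord_sub_of_ord_neg (v : Place K F) (x : F) (c : K) (h : v.ord x < 0) :
    ¬ 0 < v.ord (x - algebraMap K F c) := by
  intro h'
  rcases eq_or_ne c 0 with rfl | hc
  · simp only [map_zero, sub_zero] at h'; omega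
  have hne : algebraMap K F c ≠ 0 := by
    rwa [Ne, map_eq_zero_iff _ (algebraMap K F).injective]
  have h1 : x - algebraMap K F c ≠ 0 := fun h0 => by simp [h0] at h'
  have hx : x ≠ 0 := fun h0 => by simp [h0] at h
  have hsum : (x - algebraMap K F c) + algebraMap K F c = x := by ring
  have h3 := min_le_ord_add v h1 hne (by rw [hsum]; exact hx)
  rw [hsum, ord_algebraMap] at h3
  have : 0 ≤ min (v.ord (x - algebraMap K F c)) 0 := le_min h'.le le_rfl
  omega

/-! ### Degree of a divisor as a finite sum -/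

theorem degree_eq_sum (D : Divisor K F) (s : Finset (Place K F)) (hs : D.support ⊆ s) :
    Divisor.degree D = ∑ v ∈ s, D v * (v.deg : ℤ) := by
  rw [Divisor.degree, Finsupp.liftAddHom_apply]
  exact Finsupp.sum_of_support_subset D hs _ (fun v _ => by simp)

theorem degree_eq_sum_of_deg_one (D : Divisor K F) (s : Finset (Place K F)) (hs : D.support ⊆ s)
    (hdeg : ∀ v : Place K F, v.deg = 1) :
    Divisor.degree D = ∑ v ∈ s, D v := by
  rw [degree_eq_sum D s hs]
  exact Finset.sum_congr rfl fun v _ => by rw [hdeg v]; simp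

/-! ### The fibre data of `x : F` -/

/-- The fibres of the "function" `x` over the points `c : K` and over `∞`, as finsets of places,
together with the fundamental identity `∑ e_v = n`.  (Deliverable of FF1.) -/
structure FibreData (x : F) (n : ℕ) where
  /-- places over `x = c` -/
  fin : K → Finset (Place K F)
  /-- places over `x = ∞` -/
  inf : Finset (Place K F)
  mem_fin : ∀ c v, v ∈ fin c ↔ 0 < v.ord (x - algebraMap K F c)
  mem_inf : ∀ v, v ∈ inf ↔ v.ord x < 0
  sum_fin : ∀ c, ∑ v ∈ fin c, v.ord (x - algebraMap K F c) = n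
  sum_inf : ∑ v ∈ inf, v.ord x = -(n : ℤ)
  cases : ∀ v, v ∈ inf ∨ ∃ c, v ∈ fin c

namespace FibreData

variable {x : F} {n : ℕ} (Φ : FibreData (K := K) x n)

theorem disjoint_fin {c c' : K} (h : c ≠ c') : Disjoint (Φ.fin c) (Φ.fin c') := by
  rw [Finset.disjoint_left]
  intro v hv hv'
  exact not_pos_ord_sub_of_ne v x h ((Φ.mem_fin c v).mp hv) ((Φ.mem_fin c' v).mp hv')

theorem disjoint_inf_fin (c : K) : Disjoint Φ.inf (Φ.fin c) := by
  rw [Finset.disjoint_left]
  intro v hv hv'
  exact not_pos_ord_sub_of_ord_neg v x c ((Φ.mem_inf v).mp hv) ((Φ.mem_fin c v).mp hv')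

/-- over an unramified value all ramification indices are `1` -/
theorem ord_eq_one_of_card_eq {c : K} (hc : (Φ.fin c).card = n) {v : Place K F}
    (hv : v ∈ Φ.fin c) : v.ord (x - algebraMap K F c) = 1 := by
  have hsum := Φ.sum_fin c
  have hpos : ∀ w ∈ Φ.fin c, 1 ≤ w.ord (x - algebraMap K F c) := fun w hw =>
    (Φ.mem_fin c w).mp hw
  by_contra hne
  have hlt : 1 < v.ord (x - algebraMap K F c) := lt_of_le_of_ne (hpos v hv) (Ne.symm hne)
  have : ∑ w ∈ Φ.fin c, (1 : ℤ) < ∑ w ∈ Φ.fin c, w.ord (x - algebraMap K F c) :=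
    Finset.sum_lt_sum hpos ⟨v, hv, hlt⟩
  rw [Finset.sum_const, hsum, hc] at this
  simp at this

end FibreData

/-! ### Hurwitz: the degree of `div(dx)` -/

section Hurwitz

variable [HasCanonicalDivisor (K := K) (F := F)]

/-- **Hurwitz formula** for `div(dx)`: given the fibre data of `x`, the local formula for
`ord_v(dx)` and a finite set `B` of values outside of which `x` is unramified. -/
theorem degree_canonicalDivisorOf_D {x : F} {n : ℕ} (Φ : FibreData (K := K) x n)
    (hdx : D K F x ≠ 0)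
    (hdeg1 : ∀ v : Place K F, v.deg = 1)
    (hfin : ∀ (v : Place K F) (c : K), 0 < v.ord (x - algebraMap K F c) →
      v.ordDifferential (D K F x) = v.ord (x - algebraMap K F c) - 1)
    (hinf : ∀ v : Place K F, v.ord x < 0 → v.ordDifferential (D K F x) = v.ord x - 1)
    (B : Finset K) (hB : ∀ c, c ∉ B → (Φ.fin c).card = n) :
    Divisor.degree (canonicalDivisorOf hdx) =
      ∑ c ∈ B, ((n : ℤ) - (Φ.fin c).card) - n - Φ.inf.card := by
  classical
  set Dv := canonicalDivisorOf hdx with hDv
  have hval : ∀ v, Dv v = v.ordDifferential (D K F x) := canonicalDivisorOf_apply hdx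
  -- the support is contained in the union of the special fibres
  set s : Finset (Place K F) := Φ.inf ∪ B.biUnion Φ.fin with hs
  have hsupp : Dv.support ⊆ s := by
    intro v hv
    rw [Finsupp.mem_support_iff, hval] at hv
    rcases Φ.cases v with h | ⟨c, hc⟩
    · exact Finset.mem_union_left _ h
    · by_cases hcB : c ∈ B
      · exact Finset.mem_union_right _ (Finset.mem_biUnion.mpr ⟨c, hcB, hc⟩)
      · exfalso
        apply hv
        rw [hfin v c ((Φ.mem_fin c v).mp hc), Φ.ord_eq_one_of_card_eq (hB c hcB) hc]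
        simp
  rw [degree_eq_sum_of_deg_one Dv s hsupp hdeg1, hs]
  have hdisj : Disjoint Φ.inf (B.biUnion Φ.fin) := by
    rw [Finset.disjoint_biUnion_right]
    exact fun c _ => Φ.disjoint_inf_fin c
  rw [Finset.sum_union hdisj, Finset.sum_biUnion]
  · have h1 : ∑ v ∈ Φ.inf, Dv v = -(n : ℤ) - Φ.inf.card := by
      have : ∀ v ∈ Φ.inf, Dv v = v.ord x - 1 := fun v hv => by
        rw [hval, hinf v ((Φ.mem_inf v).mp hv)]
      rw [Finset.sum_congr rfl this, Finset.sum_sub_distrib, Φ.sum_inf]
      simp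
    have h2 : ∀ c ∈ B, ∑ v ∈ Φ.fin c, Dv v = (n : ℤ) - (Φ.fin c).card := fun c _ => by
      have : ∀ v ∈ Φ.fin c, Dv v = v.ord (x - algebraMap K F c) - 1 := fun v hv => by
        rw [hval, hfin v c ((Φ.mem_fin c v).mp hv)]
      rw [Finset.sum_congr rfl this, Finset.sum_sub_distrib, Φ.sum_fin]
      simp
    rw [h1, Finset.sum_congr rfl h2]
    ring
  · intro c _ c' _ hcc
    exact Φ.disjoint_fin hcc

/-- independence of the chosen differential: `deg div ω = deg div(dx)` for every `ω ≠ 0`,
as soon as principal divisors have degree `0`. -/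
theorem degree_canonicalDivisorOf_eq {x : F} (hdx : D K F x ≠ 0)
    (hspan : ∀ ω : Ω[F⁄K], ∃ f : F, ω = f • D K F x)
    (hsmul : ∀ (v : Place K F) (f : F), f ≠ 0 →
      v.ordDifferential (f • D K F x) = v.ord f + v.ordDifferential (D K F x))
    (hprin : ∀ f : F, f ≠ 0 → ∀ E : Divisor K F, (∀ v, E v = v.ord f) → Divisor.degree E = 0)
    {ω : Ω[F⁄K]} (hω : ω ≠ 0) :
    Divisor.degree (canonicalDivisorOf hω) = Divisor.degree (canonicalDivisorOf hdx) := by
  obtain ⟨f, rfl⟩ := hspan ω
  have hf : f ≠ 0 := fun h => hω (by rw [h, zero_smul])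
  have h0 := hprin f hf (canonicalDivisorOf hω - canonicalDivisorOf hdx) (fun v => by
    rw [Finsupp.sub_apply, canonicalDivisorOf_apply, canonicalDivisorOf_apply, hsmul v f hf]
    ring)
  rw [map_sub, sub_eq_zero] at h0
  exact h0

/-- the genus in terms of `deg div(dx)` -/
theorem genus_eq_of_degree {x : F} (hdx : D K F x ≠ 0)
    (hspan : ∀ ω : Ω[F⁄K], ∃ f : F, ω = f • D K F x)
    (hsmul : ∀ (v : Place K F) (f : F), f ≠ 0 →
      v.ordDifferential (f • D K F x) = v.ord f + v.ordDifferential (D K F x))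
    (hprin : ∀ f : F, f ≠ 0 → ∀ E : Divisor K F, (∀ v, E v = v.ord f) → Divisor.degree E = 0) :
    AlgebraicCurve.genus K F = (Divisor.degree (canonicalDivisorOf hdx) + 2).toNat / 2 := by
  have hex : ∃ ω : Ω[F⁄K], ω ≠ 0 := ⟨_, hdx⟩
  rw [AlgebraicCurve.genus, dif_pos hex,
    degree_canonicalDivisorOf_eq hdx hspan hsmul hprin hex.choose_spec]

/-- **FF4, final form.** -/
theorem genus_eq_of_hurwitz {x : F} {n : ℕ} (Φ : FibreData (K := K) x n)
    (hdx : D K F x ≠ 0)
    (hspan : ∀ ω : Ω[F⁄K], ∃ f : F, ω = f • D K F x)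
    (hsmul : ∀ (v : Place K F) (f : F), f ≠ 0 →
      v.ordDifferential (f • D K F x) = v.ord f + v.ordDifferential (D K F x))
    (hprin : ∀ f : F, f ≠ 0 → ∀ E : Divisor K F, (∀ v, E v = v.ord f) → Divisor.degree E = 0)
    (hdeg1 : ∀ v : Place K F, v.deg = 1)
    (hfin : ∀ (v : Place K F) (c : K), 0 < v.ord (x - algebraMap K F c) →
      v.ordDifferential (D K F x) = v.ord (x - algebraMap K F c) - 1)
    (hinf : ∀ v : Place K F, v.ord x < 0 → v.ordDifferential (D K F x) = v.ord x - 1)
    (B : Finset K) (hB : ∀ c, c ∉ B → (Φ.fin c).card = n) :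
    AlgebraicCurve.genus K F =
      (∑ c ∈ B, ((n : ℤ) - (Φ.fin c).card) - n - Φ.inf.card + 2).toNat / 2 := by
  rw [genus_eq_of_degree hdx hspan hsmul hprin,
    degree_canonicalDivisorOf_D Φ hdx hdeg1 hfin hinf B hB]

/-- two branch values `c₁ ≠ c₂` (for `x = j`: `0` and `1728`) and a genus candidate `g`. -/
theorem genus_eq_of_hurwitz_two {x : F} {n : ℕ} (Φ : FibreData (K := K) x n)
    (hdx : D K F x ≠ 0)
    (hspan : ∀ ω : Ω[F⁄K], ∃ f : F, ω = f • D K F x)
    (hsmul : ∀ (v : Place K F) (f : F), f ≠ 0 →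
      v.ordDifferential (f • D K F x) = v.ord f + v.ordDifferential (D K F x))
    (hprin : ∀ f : F, f ≠ 0 → ∀ E : Divisor K F, (∀ v, E v = v.ord f) → Divisor.degree E = 0)
    (hdeg1 : ∀ v : Place K F, v.deg = 1)
    (hfin : ∀ (v : Place K F) (c : K), 0 < v.ord (x - algebraMap K F c) →
      v.ordDifferential (D K F x) = v.ord (x - algebraMap K F c) - 1)
    (hinf : ∀ v : Place K F, v.ord x < 0 → v.ordDifferential (D K F x) = v.ord x - 1)
    {c₁ c₂ : K} (hc : c₁ ≠ c₂) (hunr : ∀ c, c ≠ c₁ → c ≠ c₂ → (Φ.fin c).card = n)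
    {g : ℕ}
    (hg : (2 * g : ℤ) - 2 = (n : ℤ) - (Φ.fin c₁).card - (Φ.fin c₂).card - Φ.inf.card) :
    AlgebraicCurve.genus K F = g := by
  classical
  rw [genus_eq_of_hurwitz Φ hdx hspan hsmul hprin hdeg1 hfin hinf {c₁, c₂}
    (fun c hcB => by
      simp only [Finset.mem_insert, Finset.mem_singleton, not_or] at hcB
      exact hunr c hcB.1 hcB.2)]
  rw [Finset.sum_pair hc]
  have : ((n : ℤ) - (Φ.fin c₁).card + ((n : ℤ) - (Φ.fin c₂).card) - n - Φ.inf.card + 2)
      = 2 * g := by linarith
  rw [this]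
  have h2 : ((2 * g : ℤ)).toNat = 2 * g := by
    have : (2 * g : ℤ) = ((2 * g : ℕ) : ℤ) := by push_cast; ring
    rw [this, Int.toNat_natCast]
  rw [h2]
  omega

end Hurwitz

end Fermat.Agent.S24.Hurwitz
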