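import Fermat.Agent.S24.Defs
import Fermat.Agent.S24.Hurwitz

/-!
# T24 / FF4 adapter (helper31)

Builds the `FibreData` consumed by `Hurwitz.genus_eq_of_hurwitz_two` from statements in the
`placesOver` / `placesOverInfty` / `Nat.card` / `finsum` language of `S24/Defs.lean`
(the shape produced by LOC / NORM).
-/

set_option autoImplicit false

noncomputable section

open AlgebraicCurve

namespace Fermat.Agent.S24.Hurwitz

variable {K F : Type*} [Field K] [Field F] [Algebra K F]

/-- `FibreData` from finiteness of the fibres, `∑ e_v = n` (as `finsum`s over the subtypes) and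
the case distinction "pole of `x` or zero of some `x - c`". -/
def FibreData.ofFinite (x : F) (n : ℕ)
    (hfin : ∀ c : K, (placesOver x c).Finite)
    (hinf : (placesOverInfty K x).Finite)
    (hsum : ∀ c : K, ∑ᶠ v : placesOver x c, (v : Place K F).ord (x - algebraMap K F c) = n)
    (hsuminf : ∑ᶠ v : placesOverInfty K x, (v : Place K F).ord x = -(n : ℤ))
    (hcases : ∀ v : Place K F, v.ord x < 0 ∨ ∃ c : K, 0 < v.ord (x - algebraMap K F c)) :
    FibreData (K := K) x n where
  fin c := (hfin c).toFinset
  inf := hinf.toFinset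
  mem_fin c v := by rw [Set.Finite.mem_toFinset]; rfl
  mem_inf v := by rw [Set.Finite.mem_toFinset]; rfl
  sum_fin c := by
    rw [← hsum c, finsum_set_coe_eq_finsum_mem (placesOver x c)
      (f := fun v : Place K F => v.ord (x - algebraMap K F c)),
      finsum_mem_eq_finite_toFinset_sum _ (hfin c)]
  sum_inf := by
    rw [← hsuminf, finsum_set_coe_eq_finsum_mem (placesOverInfty K x)
      (f := fun v : Place K F => v.ord x),
      finsum_mem_eq_finite_toFinset_sum _ hinf]
  cases v := by
    rcases hcases v with h | ⟨c, hc⟩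
    · exact Or.inl (by rw [Set.Finite.mem_toFinset]; exact h)
    · exact Or.inr ⟨c, by rw [Set.Finite.mem_toFinset]; exact hc⟩

theorem FibreData.ofFinite_card_fin (x : F) (n : ℕ)
    (hfin : ∀ c : K, (placesOver x c).Finite)
    (hinf : (placesOverInfty K x).Finite)
    (hsum : ∀ c : K, ∑ᶠ v : placesOver x c, (v : Place K F).ord (x - algebraMap K F c) = n)
    (hsuminf : ∑ᶠ v : placesOverInfty K x, (v : Place K F).ord x = -(n : ℤ))
    (hcases : ∀ v : Place K F, v.ord x < 0 ∨ ∃ c : K, 0 < v.ord (x - algebraMap K F c))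
    (c : K) :
    ((FibreData.ofFinite x n hfin hinf hsum hsuminf hcases).fin c).card
      = Nat.card (placesOver x c) := by
  show (hfin c).toFinset.card = _
  rw [Nat.card_coe_set_eq, Set.ncard_eq_toFinset_card _ (hfin c)]

theorem FibreData.ofFinite_card_inf (x : F) (n : ℕ)
    (hfin : ∀ c : K, (placesOver x c).Finite)
    (hinf : (placesOverInfty K x).Finite)
    (hsum : ∀ c : K, ∑ᶠ v : placesOver x c, (v : Place K F).ord (x - algebraMap K F c) = n)
    (hsuminf : ∑ᶠ v : placesOverInfty K x, (v : Place K F).ord x = -(n : ℤ))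
    (hcases : ∀ v : Place K F, v.ord x < 0 ∨ ∃ c : K, 0 < v.ord (x - algebraMap K F c)) :
    (FibreData.ofFinite x n hfin hinf hsum hsuminf hcases).inf.card
      = Nat.card (placesOverInfty K x) := by
  show hinf.toFinset.card = _
  rw [Nat.card_coe_set_eq, Set.ncard_eq_toFinset_card _ hinf]

/-- the fibre over `∞` in terms of the local parameter `x⁻¹` -/
theorem placesOverInfty_eq (x : F) :
    placesOverInfty K x = {v : Place K F | 0 < v.ord x⁻¹} := by
  ext v
  show v.ord x < 0 ↔ 0 < v.ord x⁻¹
  rw [Place.ord_inv]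
  omega

end Fermat.Agent.S24.Hurwitz
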