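import Mathlib
import Fermat.Prelude.Def_AlgebraicCurve_CanonicalDivisor

set_option autoImplicit false
set_option linter.style.haveILetI false

open KaehlerDifferential IntermediateField Polynomial AlgebraicCurve
open scoped IntermediateField.algebraAdjoinAdjoin

noncomputable section

namespace Fermat.Agent.S24.Diff

universe u v

variable {K : Type u} {F : Type v} [Field K] [Field F] [Algebra K F]

/-! ### Differentials of a field extension -/

/-- The elements of `F` whose differential lies in a given `F`-subspace form an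
intermediate field. -/
def diffField (W : Submodule F Ω[F⁄K]) : IntermediateField K F where
  carrier := {y | D K F y ∈ W}
  mul_mem' := by
    intro a b ha hb
    show D K F (a * b) ∈ W
    rw [Derivation.leibniz]
    exact W.add_mem (W.smul_mem _ hb) (W.smul_mem _ ha)
  add_mem' := by
    intro a b ha hb
    show D K F (a + b) ∈ W
    rw [map_add]
    exact W.add_mem ha hb
  algebraMap_mem' := by
    intro r
    show D K F (algebraMap K F r) ∈ W
    rw [Derivation.map_algebraMap]
    exact W.zero_mem
  inv_mem' := by
    intro a ha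
    show D K F a⁻¹ ∈ W
    rw [Derivation.leibniz_inv]
    exact W.smul_mem _ ha
  one_mem' := by
    show D K F 1 ∈ W
    rw [Derivation.map_one_eq_zero]
    exact W.zero_mem
  zero_mem' := by
    show D K F 0 ∈ W
    rw [map_zero]
    exact W.zero_mem

theorem mem_diffField {W : Submodule F Ω[F⁄K]} {y : F} :
    y ∈ diffField W ↔ D K F y ∈ W := Iff.rfl

/-- If `F` is separable algebraic over an intermediate field `E`, then `Ω[F⁄K]` is spanned by the
differentials of the elements of `E`. -/
theorem span_D_intermediate_eq_top (E : IntermediateField K F) [Algebra.IsSeparable E F] :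
    Submodule.span F (Set.range fun e : E => D K F (e : F)) = ⊤ := by
  haveI : Algebra.FormallyUnramified E F := Algebra.FormallyUnramified.of_isSeparable E F
  haveI : Subsingleton Ω[F⁄E] := inferInstance
  rw [eq_top_iff]
  rintro ω -
  obtain ⟨t, rfl⟩ := (KaehlerDifferential.exact_mapBaseChange_map K E F ω).mp
    (Subsingleton.elim _ _)
  induction t using TensorProduct.induction_on with
  | zero => simp
  | add a b ha hb => rw [map_add]; exact Submodule.add_mem _ ha hb
  | tmul f η =>
    rw [KaehlerDifferential.mapBaseChange_tmul]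
    refine Submodule.smul_mem _ _ ?_
    have hη : η ∈ Submodule.span E (Set.range (D K E)) := by
      rw [KaehlerDifferential.span_range_derivation]; trivial
    induction hη using Submodule.span_induction with
    | mem y hy =>
      obtain ⟨e, rfl⟩ := hy
      rw [KaehlerDifferential.map_D]
      exact Submodule.subset_span ⟨e, rfl⟩
    | zero => simp
    | add a b _ _ ha hb => rw [map_add]; exact Submodule.add_mem _ ha hb
    | smul c a _ ha =>
      rw [map_smul]
      have : c • (KaehlerDifferential.map K K E F) a =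
          (c : F) • (KaehlerDifferential.map K K E F) a := rfl
      rw [this]
      exact Submodule.smul_mem _ _ ha

/-- (Δ1) If `F` is algebraic over `K(x)` (characteristic zero), then `dx` spans `Ω[F⁄K]`. -/
theorem span_D_eq_top [CharZero K] (x : F) (h : Algebra.IsAlgebraic K⟮x⟯ F) :
    Submodule.span F {D K F x} = ⊤ := by
  haveI : CharZero F := charZero_of_injective_algebraMap (algebraMap K F).injective
  haveI : Algebra.IsSeparable K⟮x⟯ F := Algebra.IsAlgebraic.isSeparable_of_perfectField
  have hle : K⟮x⟯ ≤ diffField (Submodule.span F {D K F x}) := by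
    rw [adjoin_simple_le_iff]
    exact Submodule.subset_span rfl
  rw [eq_top_iff, ← span_D_intermediate_eq_top K⟮x⟯, Submodule.span_le]
  rintro _ ⟨e, rfl⟩
  exact hle e.2

/-- `dX ≠ 0` in `Ω[K(X)⁄K]`. -/
theorem ratFunc_D_X_ne_zero : D K (RatFunc K) (RatFunc.X) ≠ 0 := by
  intro h
  have hloc := KaehlerDifferential.isLocalizedModule_map K K[X] (RatFunc K) (nonZeroDivisors K[X])
  have h1 : KaehlerDifferential.map K K K[X] (RatFunc K) (D K K[X] X) = 0 := by
    rw [KaehlerDifferential.map_D, RatFunc.algebraMap_X, h]
  rw [IsLocalizedModule.eq_zero_iff (nonZeroDivisors K[X])] at h1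
  obtain ⟨s, hs⟩ := h1
  have h2 := congrArg (KaehlerDifferential.polynomialEquiv K) hs
  rw [map_zero, Submonoid.smul_def, map_smul, KaehlerDifferential.polynomialEquiv_D,
    derivative_X, smul_eq_mul, mul_one] at h2
  exact nonZeroDivisors.coe_ne_zero s h2

theorem D_ne_zero_of_map {A B : Type*} [CommRing A] [CommRing B] [Algebra K A] [Algebra K B]
    [Algebra A B] [IsScalarTower K A B] (a : A) (h : D K B (algebraMap A B a) ≠ 0) :
    D K A a ≠ 0 := fun h0 => h (by rw [← KaehlerDifferential.map_D K K A B, h0, map_zero])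

theorem D_ne_zero_of_algEquiv {A B : Type*} [CommRing A] [CommRing B] [Algebra K A] [Algebra K B]
    (e : A ≃ₐ[K] B) (a : A) (h : D K B (e a) ≠ 0) : D K A a ≠ 0 := by
  letI : Algebra A B := e.toAlgHom.toRingHom.toAlgebra
  haveI : IsScalarTower K A B := IsScalarTower.of_algebraMap_eq fun r => (e.commutes r).symm
  exact D_ne_zero_of_map a h

/-- `d(gen) ≠ 0` in `Ω[K(x)⁄K]` for transcendental `x`. -/
theorem D_gen_ne_zero (x : F) (hx : Transcendental K x) :
    D K K⟮x⟯ (AdjoinSimple.gen K x) ≠ 0 := by
  apply D_ne_zero_of_algEquiv (RatFunc.algEquivOfTranscendental x hx).symm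
  rw [RatFunc.algEquivOfTranscendental_symm_gen]
  exact ratFunc_D_X_ne_zero

/-- (Δ2) If `x` is transcendental and `F` is algebraic over `K(x)` (characteristic zero), then
`dx ≠ 0`. -/
theorem D_ne_zero [CharZero K] (x : F) (hx : Transcendental K x)
    (h : Algebra.IsAlgebraic K⟮x⟯ F) : D K F x ≠ 0 := by
  intro h0
  haveI : CharZero F := charZero_of_injective_algebraMap (algebraMap K F).injective
  haveI : Algebra.IsSeparable K⟮x⟯ F := Algebra.IsAlgebraic.isSeparable_of_perfectField
  haveI : Algebra.FormallyEtale K⟮x⟯ F := Algebra.FormallyEtale.of_isSeparable K⟮x⟯ F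
  have h1 := KaehlerDifferential.tensorKaehlerEquivOfFormallyEtale_symm_D_algebraMap K K⟮x⟯ F
    (AdjoinSimple.gen K x)
  have h2 : algebraMap K⟮x⟯ F (AdjoinSimple.gen K x) = x := rfl
  rw [h2, h0, map_zero] at h1
  have hinj := Module.Flat.tensorProduct_mk_injective K⟮x⟯ Ω[K⟮x⟯⁄K] F
  refine D_gen_ne_zero x hx (hinj ?_)
  rw [map_zero]
  exact h1.symm

/-- A derivation detects non-vanishing of a differential. -/
theorem D_ne_zero_of_derivation {M : Type*} [AddCommGroup M] [Module F M] [Module K M]
    [IsScalarTower K F M] (δ : Derivation K F M) {y : F} (hy : δ y ≠ 0) : D K F y ≠ 0 := by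
  intro h
  apply hy
  rw [← Derivation.liftKaehlerDifferential_comp_D δ y, h, map_zero]

theorem nontrivial_kaehler [CharZero K] (x : F) (hx : Transcendental K x)
    (h : Algebra.IsAlgebraic K⟮x⟯ F) : Nontrivial Ω[F⁄K] :=
  ⟨⟨_, _, D_ne_zero x hx h⟩⟩

theorem finrank_kaehler [CharZero K] (x : F) (hx : Transcendental K x)
    (h : Algebra.IsAlgebraic K⟮x⟯ F) : Module.finrank F Ω[F⁄K] = 1 := by
  rw [finrank_eq_one_iff']
  refine ⟨D K F x, D_ne_zero x hx h, fun w => ?_⟩
  have hw : w ∈ Submodule.span F {D K F x} := by rw [span_D_eq_top x h]; trivial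
  exact Submodule.mem_span_singleton.mp hw

/-- every differential is a multiple of `dx` -/
theorem exists_eq_smul_D [CharZero K] (x : F) (h : Algebra.IsAlgebraic K⟮x⟯ F) (ω : Ω[F⁄K]) :
    ∃ f : F, ω = f • D K F x := by
  have hw : ω ∈ Submodule.span F {D K F x} := by rw [span_D_eq_top x h]; trivial
  obtain ⟨f, hf⟩ := Submodule.mem_span_singleton.mp hw
  exact ⟨f, hf.symm⟩

/-- every nonzero differential is a nonzero multiple of `dx` -/
theorem exists_ne_zero_eq_smul_D [CharZero K] (x : F) (h : Algebra.IsAlgebraic K⟮x⟯ F)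
    {ω : Ω[F⁄K]} (hω : ω ≠ 0) : ∃ f : F, f ≠ 0 ∧ ω = f • D K F x := by
  obtain ⟨f, hf⟩ := exists_eq_smul_D x h ω
  refine ⟨f, ?_, hf⟩
  rintro rfl
  exact hω (by rw [hf, zero_smul])

/-! ### Transcendence degree one -/

open Cardinal in
/-- In transcendence degree one, `F` is algebraic over `K(π)` for every transcendental `π`. -/
theorem isAlgebraic_adjoin_of_transcendental (x π : F) (h : Algebra.IsAlgebraic K⟮x⟯ F)
    (hπ : Transcendental K π) : Algebra.IsAlgebraic K⟮π⟯ F := by
  have h1 : Algebra.IsAlgebraic (Algebra.adjoin K ({x} : Set F)) F := by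
    rw [IsFractionRing.comap_isAlgebraic_iff (K := K⟮x⟯)]
    exact h
  have h2 : Algebra.trdeg K F ≤ 1 := by
    have := Algebra.IsAlgebraic.trdeg_le_cardinalMk K ({x} : Set F) (A := F)
    simpa using this
  have h3 : AlgebraicIndependent K (fun _ : PUnit.{v+1} => π) := by
    rw [algebraicIndependent_unique_type_iff]; exact hπ
  have h4 : IsTranscendenceBasis K (fun _ : PUnit.{v+1} => π) :=
    h3.isTranscendenceBasis_of_trdeg_le_of_finite (by simpa using h2)
  have h5 := h4.isAlgebraic_field
  have h6 : Set.range (fun _ : PUnit.{v+1} => π) = {π} := by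
    ext y; simp [eq_comm]
  rwa [h6] at h5

/-! ### Places -/

/-- constants have order zero -/
theorem ord_algebraMap (v : Place K F) (a : K) : v.ord (algebraMap K F a) = 0 := by
  rcases eq_or_ne a 0 with rfl | ha
  · simp
  · have hu : IsUnit (algebraMap K v.toValuationSubring a) :=
      (ha.isUnit).map (algebraMap K v.toValuationSubring)
    have := v.ord_coe_unit hu.unit
    simpa using this

/-- elements algebraic over the constant field lie in every valuation ring -/
theorem mem_of_isAlgebraic (v : Place K F) {y : F} (hy : IsAlgebraic K y) :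
    y ∈ v.toValuationSubring := by
  have h1 : IsIntegral K y := hy.isIntegral
  have h2 : IsIntegral v.toValuationSubring y := h1.tower_top
  obtain ⟨z, hz⟩ := (IsIntegrallyClosed.isIntegral_iff (R := v.toValuationSubring) (K := F)).mp h2
  rw [← hz]
  exact z.2

/-- nonzero elements algebraic over the constant field have order zero at every place -/
theorem ord_eq_zero_of_isAlgebraic (v : Place K F) {y : F} (hy : IsAlgebraic K y) (hy0 : y ≠ 0) :
    v.ord y = 0 := by
  have h1 := mem_of_isAlgebraic v hy
  have h2 := mem_of_isAlgebraic v hy.inv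
  have hu : IsUnit (⟨y, h1⟩ : v.toValuationSubring) :=
    IsUnit.of_mul_eq_one ⟨y⁻¹, h2⟩ (Subtype.ext (mul_inv_cancel₀ hy0))
  simpa using v.ord_coe_unit hu.unit

theorem transcendental_of_ord_ne_zero (v : Place K F) {y : F} (hy : v.ord y ≠ 0) :
    Transcendental K y := by
  intro halg
  rcases eq_or_ne y 0 with rfl | hy0
  · simp at hy
  · exact hy (ord_eq_zero_of_isAlgebraic v halg hy0)

/-- (Δ3) The differential `dCoord` of the Prelude is `dπ` for some uniformizer `π`. -/
theorem exists_uniformizer_dCoord (v : Place K F) :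
    ∃ π : F, v.ord π = 1 ∧ v.dCoord = D K F π := by
  refine ⟨((IsDiscreteValuationRing.exists_irreducible v.toValuationSubring).choose : F), ?_, rfl⟩
  exact v.ord_coe_irreducible
    (IsDiscreteValuationRing.exists_irreducible v.toValuationSubring).choose_spec

/-- (Δ4) In a function field of one variable of characteristic zero, every place satisfies
`DCoordGenerates`. -/
theorem dCoordGenerates [CharZero K] (x : F) (h : Algebra.IsAlgebraic K⟮x⟯ F) (v : Place K F) :
    v.DCoordGenerates := by
  obtain ⟨π, hπ, hd⟩ := exists_uniformizer_dCoord v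
  have hπt : Transcendental K π := transcendental_of_ord_ne_zero v (by rw [hπ]; exact one_ne_zero)
  refine ⟨?_⟩
  rw [hd]
  exact span_D_eq_top π (isAlgebraic_adjoin_of_transcendental x π h hπt)

/-! ### The differential coefficient via an arbitrary derivation -/

/-- (Δ5) For every derivation `δ` of `F` into an `F`-module, `coeff(dy) • δ π = δ y`. -/
theorem differentialCoeff_D_smul {M : Type*} [AddCommGroup M] [Module F M] [Module K M]
    [IsScalarTower K F M] (δ : Derivation K F M) (v : Place K F) [v.DCoordGenerates]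
    {π : F} (hπ : v.dCoord = D K F π) (y : F) :
    v.differentialCoeff (D K F y) • δ π = δ y := by
  have h := v.differentialCoeff_smul_dCoord (D K F y)
  rw [hπ] at h
  have h2 := congrArg δ.liftKaehlerDifferential h
  rw [map_smul, Derivation.liftKaehlerDifferential_comp_D,
    Derivation.liftKaehlerDifferential_comp_D] at h2
  exact h2

theorem differentialCoeff_D_eq_div (δ : Derivation K F F) (v : Place K F) [v.DCoordGenerates]
    {π : F} (hπ : v.dCoord = D K F π) (hδ : δ π ≠ 0) (y : F) :
    v.differentialCoeff (D K F y) = δ y / δ π := by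
  have h := differentialCoeff_D_smul δ v hπ y
  rw [smul_eq_mul] at h
  rw [eq_div_iff hδ, h]

theorem ordDifferential_D_eq (δ : Derivation K F F) (v : Place K F) [v.DCoordGenerates]
    {π : F} (hπ : v.dCoord = D K F π) (hδ : δ π ≠ 0) (y : F) :
    v.ordDifferential (D K F y) = v.ord (δ y / δ π) := by
  rw [Place.ordDifferential, differentialCoeff_D_eq_div δ v hπ hδ y]

/-! ### Orders of differentials and the degree of the canonical divisor -/

theorem degree_eq_zero_of_isPrincipal [HasPrincipalDivisors K F] {P : Divisor K F}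
    (hP : P.IsPrincipal) : Divisor.degree P = 0 := by
  obtain ⟨f, hf, hPf⟩ := hP
  obtain ⟨Q, hQ, hQ0⟩ := HasPrincipalDivisors.exists_divisor (K := K) f hf
  have : P = Q := Finsupp.ext fun v => by rw [hPf v, hQ v]
  rw [this, hQ0]

section Degree

variable [CharZero K] (x : F) (hx : Transcendental K x) (h : Algebra.IsAlgebraic K⟮x⟯ F)
include hx h

theorem differentialCoeff_D_ne_zero (v : Place K F) : v.differentialCoeff (D K F x) ≠ 0 := by
  haveI := dCoordGenerates x h v
  intro h0
  have h1 := v.differentialCoeff_smul_dCoord (D K F x)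
  rw [h0, zero_smul] at h1
  exact D_ne_zero x hx h h1.symm

/-- (Δ6) `ord_v(f dx) = ord_v(f) + ord_v(dx)` -/
theorem ordDifferential_smul_D (v : Place K F) {f : F} (hf : f ≠ 0) :
    v.ordDifferential (f • D K F x) = v.ord f + v.ordDifferential (D K F x) := by
  haveI := dCoordGenerates x h v
  haveI := nontrivial_kaehler x hx h
  exact v.ordDifferential_smul hf (differentialCoeff_D_ne_zero x hx h v)

/-- (Δ7) The degree of the divisor of any nonzero differential equals that of `dx`. -/
theorem degree_canonicalDivisorOf_eq [HasCanonicalDivisor (K := K) (F := F)]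
    [HasPrincipalDivisors K F] {ω : Ω[F⁄K]} (hω : ω ≠ 0) :
    Divisor.degree (canonicalDivisorOf hω) =
      Divisor.degree (canonicalDivisorOf (D_ne_zero x hx h)) := by
  obtain ⟨f, hf, rfl⟩ := exists_ne_zero_eq_smul_D x h hω
  have hP : (canonicalDivisorOf hω - canonicalDivisorOf (D_ne_zero x hx h)).IsPrincipal := by
    refine ⟨f, hf, fun v => ?_⟩
    rw [Finsupp.sub_apply, canonicalDivisorOf_apply, canonicalDivisorOf_apply,
      ordDifferential_smul_D x hx h v hf]
    ring
  have h0 := degree_eq_zero_of_isPrincipal hP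
  rw [map_sub, sub_eq_zero] at h0
  exact h0

/-- The genus of the Prelude computed from the divisor of `dx`. -/
theorem genus_eq [HasCanonicalDivisor (K := K) (F := F)] [HasPrincipalDivisors K F] :
    genus K F = (Divisor.degree (canonicalDivisorOf (D_ne_zero x hx h)) + 2).toNat / 2 := by
  have hex : ∃ ω : Ω[F⁄K], ω ≠ 0 := ⟨_, D_ne_zero x hx h⟩
  rw [genus, dif_pos hex, degree_canonicalDivisorOf_eq x hx h]

end Degree

end Fermat.Agent.S24.Diff

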