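import Mathlib
import Fermat.Agent.S24.LOC
import Fermat.Agent.S24.Hurwitz
import Fermat.Agent.S24.Differentials

/-!
# S24 / N6 = FF3 : principal divisors have degree zero (helper30)

Wrapper deriving `HasPrincipalDivisors K F` (and the hypothesis `hprin` of `Hurwitz.lean`) from
the fundamental identity "`∑_{w : zeros of y} ord_w y = [F : K(y)]`" for every transcendental
`y : F` (the output of NORM, in the `Fibre` language of `LOC.lean`) together with `deg v = 1`.
-/

set_option autoImplicit false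

noncomputable section

namespace Fermat.Agent.S24.Principal

open AlgebraicCurve IntermediateField Fermat.Agent.S24

variable {K F : Type*} [Field K] [Field F] [Algebra K F]

/-- `K(y⁻¹) = K(y)` -/
theorem adjoin_simple_inv (y : F) : K⟮y⁻¹⟯ = K⟮y⟯ := by
  apply le_antisymm
  · rw [adjoin_simple_le_iff]
    exact inv_mem (mem_adjoin_simple_self K y)
  · rw [adjoin_simple_le_iff]
    have h : (y⁻¹)⁻¹ ∈ K⟮y⁻¹⟯ := inv_mem (mem_adjoin_simple_self K y⁻¹)
    rwa [inv_inv] at h

theorem finrank_adjoin_simple_inv (y : F) :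
    Module.finrank K⟮y⁻¹⟯ F = Module.finrank K⟮y⟯ F :=
  congrArg (fun E : IntermediateField K F => Module.finrank E F) (adjoin_simple_inv y)

theorem transcendental_inv {y : F} (hy : Transcendental K y) : Transcendental K y⁻¹ := by
  intro h
  apply hy
  have := h.inv
  rwa [inv_inv] at this

/-- the sum over the fibre as a `Finset` sum -/
theorem finsum_fibre_eq_sum (y : F) (g : Place K F → ℤ)
    (hfin : {w : Place K F | 0 < w.ord y}.Finite) :
    ∑ᶠ w : Fibre K y, g w.1 = ∑ w ∈ hfin.toFinset, g w := by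
  rw [← finsum_mem_eq_finite_toFinset_sum _ hfin]
  exact finsum_set_coe_eq_finsum_mem {w : Place K F | 0 < w.ord y} (f := g)

/-- The divisor of `f`, given finiteness of the sets of zeros and poles and the two sums. -/
theorem exists_divisor {f : F} (hdeg1 : ∀ v : Place K F, v.deg = 1)
    [h0fin : Finite (Fibre K f)] [h1fin : Finite (Fibre K f⁻¹)] {n : ℤ}
    (h0 : ∑ᶠ w : Fibre K f, w.1.ord f = n) (h1 : ∑ᶠ w : Fibre K f⁻¹, w.1.ord f⁻¹ = n) :
    ∃ D : Divisor K F, (∀ v : Place K F, D v = v.ord f) ∧ Divisor.degree D = 0 := by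
  classical
  have hZ : {w : Place K F | 0 < w.ord f}.Finite := Set.finite_coe_iff.mp h0fin
  have hP : {w : Place K F | 0 < w.ord f⁻¹}.Finite := Set.finite_coe_iff.mp h1fin
  have hsupp : (Function.support fun v : Place K F => v.ord f).Finite := by
    refine (hZ.union hP).subset fun v hv => ?_
    have hv' : v.ord f ≠ 0 := hv
    rcases lt_or_gt_of_ne hv' with h | h
    · right
      show 0 < v.ord f⁻¹
      rw [Place.ord_inv]; omega
    · left; exact h
  refine ⟨Finsupp.ofSupportFinite _ hsupp, fun v => rfl, ?_⟩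
  have hsub : (Finsupp.ofSupportFinite (fun v : Place K F => v.ord f) hsupp).support
      ⊆ hZ.toFinset ∪ hP.toFinset := by
    intro v hv
    rw [Finsupp.mem_support_iff] at hv
    have hv' : v.ord f ≠ 0 := hv
    rw [Finset.mem_union, Set.Finite.mem_toFinset, Set.Finite.mem_toFinset]
    rcases lt_or_gt_of_ne hv' with h | h
    · right
      show 0 < v.ord f⁻¹
      rw [Place.ord_inv]; omega
    · left; exact h
  rw [Hurwitz.degree_eq_sum_of_deg_one _ _ hsub hdeg1]
  have hdisj : Disjoint hZ.toFinset hP.toFinset := by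
    rw [Finset.disjoint_left]
    intro v hv hv'
    rw [Set.Finite.mem_toFinset] at hv hv'
    have h2 : 0 < v.ord f⁻¹ := hv'
    have h3 : 0 < v.ord f := hv
    rw [Place.ord_inv] at h2
    omega
  rw [Finset.sum_union hdisj]
  have e0 : ∑ v ∈ hZ.toFinset, (Finsupp.ofSupportFinite (fun v : Place K F => v.ord f) hsupp) v
      = n := by
    rw [← h0, finsum_fibre_eq_sum f (fun w => w.ord f) hZ]
    rfl
  have e1 : ∑ v ∈ hP.toFinset, (Finsupp.ofSupportFinite (fun v : Place K F => v.ord f) hsupp) v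
      = -n := by
    rw [← h1, finsum_fibre_eq_sum f⁻¹ (fun w => w.ord f⁻¹) hP, ← Finset.sum_neg_distrib]
    refine Finset.sum_congr rfl fun v _ => ?_
    show v.ord f = -v.ord f⁻¹
    rw [Place.ord_inv]; ring
  rw [e0, e1]; ring

/-- **N6 / FF3.** Principal divisors have degree zero, from the fundamental identity for every
transcendental element. -/
theorem hasPrincipalDivisors_of_fibre_sums (hdeg1 : ∀ v : Place K F, v.deg = 1)
    (H : ∀ y : F, Transcendental K y →
      Finite (Fibre K y) ∧ ∑ᶠ w : Fibre K y, w.1.ord y = (Module.finrank K⟮y⟯ F : ℤ)) :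
    HasPrincipalDivisors K F := by
  refine ⟨fun f hf => ?_⟩
  by_cases hfa : IsAlgebraic K f
  · refine ⟨0, fun v => ?_, map_zero _⟩
    rw [Finsupp.zero_apply, Diff.ord_eq_zero_of_isAlgebraic v hfa hf]
  · have hft : Transcendental K f := hfa
    obtain ⟨hfin0, hs0⟩ := H f hft
    obtain ⟨hfin1, hs1⟩ := H f⁻¹ (transcendental_inv hft)
    rw [finrank_adjoin_simple_inv] at hs1
    exact exists_divisor hdeg1 hs0 hs1

/-- the hypothesis `hprin` of `Hurwitz.genus_eq_of_hurwitz_two` -/
theorem hprin_of_hasPrincipalDivisors [HasPrincipalDivisors K F] (f : F) (hf : f ≠ 0)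
    (E : Divisor K F) (hE : ∀ v : Place K F, E v = v.ord f) : Divisor.degree E = 0 :=
  Diff.degree_eq_zero_of_isPrincipal ⟨f, hf, hE⟩

/-- The fundamental identity `∑_w ord_w x = [F : K(x)]` from the norm formula `hN` of `LOC.lean`
(applied to `f := x`), as soon as `x` has at least one zero. -/
theorem sum_ord_eq_finrank_of_norm (x : F) [FiniteDimensional K⟮x⟯ F]
    (hne : Nonempty (Fibre K x))
    (hN : ∀ f : F, f ≠ 0 → ∀ w₀ : Place K F, 0 < w₀.ord x →
      w₀.ord (algebraMap K⟮x⟯ F (Algebra.norm K⟮x⟯ f)) = w₀.ord x * ∑ᶠ w : Fibre K x, w.1.ord f) :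
    ∑ᶠ w : Fibre K x, w.1.ord x = (Module.finrank K⟮x⟯ F : ℤ) := by
  obtain ⟨⟨w₀, hw₀⟩⟩ := hne
  have hx0 : x ≠ 0 := fun h => by rw [h, w₀.ord_zero] at hw₀; exact lt_irrefl _ hw₀
  have h := hN x hx0 w₀ hw₀
  have hgen : algebraMap K⟮x⟯ F (AdjoinSimple.gen K x) = x := AdjoinSimple.algebraMap_gen K x
  have hnorm : Algebra.norm K⟮x⟯ x = (AdjoinSimple.gen K x) ^ Module.finrank K⟮x⟯ F := by
    have h2 := Algebra.norm_algebraMap (R := K⟮x⟯) (S := F) (AdjoinSimple.gen K x)
    rwa [hgen] at h2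
  rw [hnorm, map_pow, hgen] at h
  have hpow : w₀.ord (x ^ Module.finrank K⟮x⟯ F) = (Module.finrank K⟮x⟯ F : ℤ) * w₀.ord x := by
    have := w₀.ord_zpow x (Module.finrank K⟮x⟯ F : ℤ)
    rwa [zpow_natCast] at this
  rw [hpow, mul_comm] at h
  exact (mul_left_cancel₀ hw₀.ne' h).symm

end Fermat.Agent.S24.Principal
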