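import Mathlib
import Fermat.Agent.S24.Setup
import Fermat.Agent.S24.Principal
import Fermat.Agent.S24.HurwitzAdapter
import Fermat.Agent.S24_helper38.DiffOrd

/-!
# S24 / FF1 + FF3: final exports

For `K` algebraically closed of characteristic zero and `x : F` a generator (`IsGen K x`):
* `FF1.hasPrincipalDivisors` : principal divisors have degree zero (FF3 / N6);
* `FF1.fibreData` : the `Hurwitz.FibreData` of `x` with `n = [F : K(x)]`;
* `FF1.residueTrivial`, `FF1.essFiniteType` : the hypotheses of helper38's local `dx` formula;
* `FF1.ordDifferential_of_pos`, `FF1.ordDifferential_of_neg` : the local `dx` formula itself.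
-/

set_option autoImplicit false
set_option linter.unusedSectionVars false

noncomputable section

namespace Fermat.Agent.S24.FF1

open AlgebraicCurve IntermediateField KaehlerDifferential IsDedekindDomain
open Fermat.Agent.S24 Fermat.Agent.S24_helper6 IsDedekindDomain.HeightOneSpectrum
open scoped IntermediateField.algebraAdjoinAdjoin

variable {K F : Type*} [Field K] [Field F] [Algebra K F]

/-! ### Generators -/

theorem adjoin_simple_sub (x : F) (c : K) : K⟮x - algebraMap K F c⟯ = K⟮x⟯ := by
  apply le_antisymm
  · rw [adjoin_simple_le_iff]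
    exact sub_mem (mem_adjoin_simple_self K x) (IntermediateField.algebraMap_mem _ c)
  · rw [adjoin_simple_le_iff]
    have h : x - algebraMap K F c + algebraMap K F c ∈ K⟮x - algebraMap K F c⟯ :=
      add_mem (mem_adjoin_simple_self K _) (IntermediateField.algebraMap_mem _ c)
    rwa [sub_add_cancel] at h

theorem finrank_adjoin_simple_sub (x : F) (c : K) :
    Module.finrank K⟮x - algebraMap K F c⟯ F = Module.finrank K⟮x⟯ F :=
  congrArg (fun E : IntermediateField K F => Module.finrank E F) (adjoin_simple_sub x c)

theorem transcendental_sub {x : F} (hx : Transcendental K x) (c : K) :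
    Transcendental K (x - algebraMap K F c) := by
  intro h
  apply hx
  have := h.add (isAlgebraic_algebraMap (R := K) (A := F) c)
  rwa [sub_add_cancel] at this

theorem isGen_sub (x : F) [hx : IsGen K x] (c : K) : IsGen K (x - algebraMap K F c) :=
  IsGen.of_transcendental x (transcendental_sub hx.transcendental c)

theorem isGen_inv (x : F) [hx : IsGen K x] : IsGen K x⁻¹ :=
  IsGen.of_transcendental x (Principal.transcendental_inv hx.transcendental)

theorem trdeg_le_one (x : F) [hx : IsGen K x] : Algebra.trdeg K F ≤ 1 := by
  have h : Algebra.IsAlgebraic K⟮x⟯ F := Algebra.IsAlgebraic.of_finite K⟮x⟯ F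
  have h1 : Algebra.IsAlgebraic (Algebra.adjoin K ({x} : Set F)) F := by
    rw [IsFractionRing.comap_isAlgebraic_iff (K := K⟮x⟯)]
    exact h
  have := Algebra.IsAlgebraic.trdeg_le_cardinalMk K ({x} : Set F) (A := F)
  simpa using this

variable [IsAlgClosed K] [CharZero K]

/-! ### FF3: principal divisors -/

/-- **FF3 / N6**: principal divisors have degree zero. -/
theorem hasPrincipalDivisors (x : F) [IsGen K x] : HasPrincipalDivisors K F :=
  Principal.hasPrincipalDivisors_of_fibre_sums (fun v => PlaceB.deg_eq_one v x) (fun y hy => by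
    have : IsGen K y := IsGen.of_transcendental x hy
    exact ⟨finite_fibre K y, sum_ord_fibre K y⟩)

theorem hprin (x : F) [IsGen K x] (f : F) (hf : f ≠ 0) (E : Divisor K F)
    (hE : ∀ v : Place K F, E v = v.ord f) : Divisor.degree E = 0 := by
  have := hasPrincipalDivisors (K := K) x
  exact Principal.hprin_of_hasPrincipalDivisors f hf E hE

/-! ### FF1: the fibre data of `x` -/

theorem finite_placesOver (x : F) [IsGen K x] (c : K) : (placesOver x c).Finite := by
  have : IsGen K (x - algebraMap K F c) := isGen_sub x c
  exact Set.finite_coe_iff.mp (finite_fibre K (x - algebraMap K F c))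

theorem finite_placesOverInfty (x : F) [IsGen K x] : (placesOverInfty K x).Finite := by
  have : IsGen K x⁻¹ := isGen_inv x
  rw [Hurwitz.placesOverInfty_eq]
  exact Set.finite_coe_iff.mp (finite_fibre K x⁻¹)

theorem sum_placesOver (x : F) [IsGen K x] (c : K) :
    ∑ᶠ v : placesOver x c, (v : Place K F).ord (x - algebraMap K F c)
      = (Module.finrank K⟮x⟯ F : ℤ) := by
  have : IsGen K (x - algebraMap K F c) := isGen_sub x c
  rw [← finrank_adjoin_simple_sub x c]
  exact sum_ord_fibre K (x - algebraMap K F c)

theorem sum_placesOverInfty (x : F) [IsGen K x] :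
    ∑ᶠ v : placesOverInfty K x, (v : Place K F).ord x = -(Module.finrank K⟮x⟯ F : ℤ) := by
  have : IsGen K x⁻¹ := isGen_inv x
  have h := sum_ord_fibre K x⁻¹
  rw [Principal.finrank_adjoin_simple_inv] at h
  have h2 : ∑ᶠ w : Fibre K x⁻¹, w.1.ord x⁻¹ = ∑ᶠ w ∈ {v : Place K F | 0 < v.ord x⁻¹}, w.ord x⁻¹ :=
    finsum_set_coe_eq_finsum_mem {v : Place K F | 0 < v.ord x⁻¹}
      (f := fun v : Place K F => v.ord x⁻¹)
  rw [← h, h2, finsum_set_coe_eq_finsum_mem (placesOverInfty K x)
    (f := fun v : Place K F => v.ord x), Hurwitz.placesOverInfty_eq, ← finsum_neg_distrib]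
  refine finsum_congr fun v => ?_
  rw [← finsum_neg_distrib]
  refine finsum_congr fun _ => ?_
  rw [Place.ord_inv]
  ring

/-- **FF1**: the fibre data of a generator `x`, with `n = [F : K(x)]`. -/
def fibreData (x : F) [IsGen K x] : Hurwitz.FibreData (K := K) x (Module.finrank K⟮x⟯ F) :=
  Hurwitz.FibreData.ofFinite x _ (finite_placesOver x) (finite_placesOverInfty x)
    (sum_placesOver x) (sum_placesOverInfty x) (fun v => PlaceB.pole_or_center v x)

theorem fibreData_card_fin (x : F) [IsGen K x] (c : K) :
    ((fibreData (K := K) x).fin c).card = Nat.card (placesOver x c) :=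
  Hurwitz.FibreData.ofFinite_card_fin x _ _ _ _ _ _ c

theorem fibreData_card_inf (x : F) [IsGen K x] :
    (fibreData (K := K) x).inf.card = Nat.card (placesOverInfty K x) :=
  Hurwitz.FibreData.ofFinite_card_inf x _ _ _ _ _ _

/-! ### The hypotheses of the local `dx` formula -/

open Fermat.Agent.S24_helper38 in
/-- the residue field of every place is `K` -/
theorem residueTrivial (x : F) [IsGen K x] (v : Place K F) : ResidueTrivial v := by
  intro f hf
  by_cases hfa : IsAlgebraic K f
  · obtain ⟨c, hc⟩ := mem_range_of_isAlgebraic hfa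
    exact ⟨c, Or.inl hc.symm⟩
  · have hgen : IsGen K f := IsGen.of_transcendental x hfa
    obtain ⟨c, hc⟩ := PlaceB.exists_center v f hf
    exact ⟨c, Or.inr hc⟩

/-! ### `O_v` is essentially of finite type over `K` -/

theorem essFiniteType_of_eq {B : Type*} [CommRing B] [IsDedekindDomain B] [Algebra K B]
    [Algebra B F] [IsScalarTower K B F] [IsFractionRing B F] [Algebra.FiniteType K B]
    (W : ValuationSubring F) [Algebra K W]
    (hK : ∀ a : K, ((algebraMap K W a : W) : F) = algebraMap K F a)
    (P : HeightOneSpectrum B) (hW : W = valuationSubringAtPrime F P) :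
    Algebra.EssFiniteType K W := by
  subst hW
  have hst : IsScalarTower K B (valuationSubringAtPrime F P) :=
    IsScalarTower.of_algebraMap_eq (fun a => Subtype.ext (by
      rw [hK]
      exact IsScalarTower.algebraMap_apply K B F a))
  have h1 : Algebra.EssFiniteType B (valuationSubringAtPrime F P) :=
    Algebra.EssFiniteType.of_isLocalization _ P.asIdeal.primeCompl
  exact Algebra.EssFiniteType.comp K B (valuationSubringAtPrime F P)

section Ess

variable (K) (x : F) [hx : IsGen K x]

theorem finiteType_Rx : Algebra.FiniteType K (Rx K x) := by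
  rw [← Subalgebra.fg_iff_finiteType]
  have := Subalgebra.fg_adjoin_finset (R := K) (A := F) {x}
  simpa using this

theorem finiteType_Ax : Algebra.FiniteType K (Ax K x) :=
  Algebra.FiniteType.trans (S := Rx K x) (finiteType_Rx K x) inferInstance


theorem essFiniteType_of_mem (v : Place K F) (h : x ∈ v.toValuationSubring) :
    Algebra.EssFiniteType K v.toValuationSubring := by
  have := finiteType_Ax K x
  have hB := containsB_of_mem K x v h
  refine essFiniteType_of_eq (B := Ax K x) v.toValuationSubring (fun a => v.coe_algebraMap a)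
    (primeOfPlace v hB) ?_
  rw [valuationSubringAtPrime_eq_valuationSubring]
  exact (congrArg Place.toValuationSubring (placeOfPrime_primeOfPlace v hB)).symm

end Ess

/-- every place has a valuation ring essentially of finite type over `K` -/
theorem essFiniteType (x : F) [IsGen K x] (v : Place K F) :
    Algebra.EssFiniteType K v.toValuationSubring := by
  rcases v.toValuationSubring.mem_or_inv_mem x with h | h
  · exact essFiniteType_of_mem K x v h
  · have : IsGen K x⁻¹ := isGen_inv x
    exact essFiniteType_of_mem K x⁻¹ v h

/-! ### The local `dx` formula -/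

/-- order of `dx` at a zero of `x - c` -/
theorem ordDifferential_of_pos (x : F) [IsGen K x] (v : Place K F) (c : K)
    (h : 0 < v.ord (x - algebraMap K F c)) :
    v.ordDifferential (D K F x) = v.ord (x - algebraMap K F c) - 1 := by
  have := essFiniteType (K := K) x v
  exact Fermat.Agent.S24_helper38.ordDifferential_D_of_pos (trdeg_le_one x) (residueTrivial x v) h

/-- order of `dx` at a pole of `x` -/
theorem ordDifferential_of_neg (x : F) [IsGen K x] (v : Place K F) (h : v.ord x < 0) :
    v.ordDifferential (D K F x) = v.ord x - 1 := by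
  have := essFiniteType (K := K) x v
  exact Fermat.Agent.S24_helper38.ordDifferential_D_of_neg (trdeg_le_one x) (residueTrivial x v) h

end Fermat.Agent.S24.FF1
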