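import Fermat.Agent.S24.FinalC
import Fermat.Agent.S24.Norm

/-!
# T24 / final assembly, step D (helper31)

The four fibre counts of `FinalC.genus_eq_genusFormula` from `OrbitData` (LOC + NORM, helper47):
for each of the fibres `j = c` (`c ≠ 0, 1728`, `g = 1`), `j = 0` (`g = S T`), `j = 1728`
(`g = S`), `j = ∞` (`g = T`) one needs an `OrbitData Kbar x' (I0 N)` with the four analytic
properties `hnorm / hsymm / hg / hdiv` of the orbit lemma (`k = Kbar⟮jF N⟯` for all fibres).
The degree `[F_N : ℚ̄(j)] = ψ(N)` is *deduced* from the fibre at infinity.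
-/

set_option autoImplicit false

noncomputable section

open AlgebraicCurve IntermediateField MulAction

namespace Fermat.Agent.S24.FinalD

open scoped MatrixGroups

section Abstract

variable {K F : Type*} [Field K] [Field F] [Algebra K F] [IsAlgClosed K] [CharZero K]

/-- the analytic input of the orbit lemma for the fibre `{w | 0 < w.ord x'}`, the local
monodromy being `g` acting on `I`; norms are taken down to the fixed field `k`. -/
structure FibreInput (k : IntermediateField K F) (x' : F) (I : Type*) [Fintype I]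
    {G : Type*} [Group G] [MulAction G I] (g : G) : Prop where
  exists_data : ∃ D : OrbitData K x' I,
    (∀ f : F, f ≠ 0 → ∀ i₀ : I,
      ∑ i, D.V i f = D.V i₀ (algebraMap k F (Algebra.norm k f))) ∧
    (∀ i f, D.V (g • i) f = D.V i f) ∧
    (∀ i : I, g ^ D.e₀ • i = i) ∧
    (∀ (i : I) (h : ℕ), h ∣ D.e₀ → g ^ h • i = i → ∀ f : F, f ≠ 0 →
      ((D.e₀ / h : ℕ) : ℤ) ∣ D.V i f)

variable {k : IntermediateField K F} [FiniteDimensional k F] {x' : F} {I : Type*} [Fintype I]
  [Nonempty I] {G : Type*} [Group G] [MulAction G I] {g : G}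

theorem FibreInput.card (H : FibreInput k x' I g) (hx' : Transcendental K x')
    (hk : k = K⟮x'⟯) :
    Nat.card (Fibre K x') = Nat.card (orbitRel.Quotient (Subgroup.zpowers g) I) := by
  obtain ⟨D, hnorm, hsymm, hg, hdiv⟩ := H.exists_data
  have : FiniteDimensional K⟮x'⟯ F := hk ▸ (inferInstance : FiniteDimensional k F)
  exact (Norm.fibre_orbits x' hx' k hk g D hnorm hsymm hg hdiv).2.1

theorem FibreInput.sum_ord (H : FibreInput k x' I g) (hx' : Transcendental K x')
    (hk : k = K⟮x'⟯) :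
    ∑ᶠ w : Fibre K x', w.1.ord x' = Fintype.card I := by
  obtain ⟨D, hnorm, hsymm, hg, hdiv⟩ := H.exists_data
  have : FiniteDimensional K⟮x'⟯ F := hk ▸ (inferInstance : FiniteDimensional k F)
  exact (Norm.fibre_orbits x' hx' k hk g D hnorm hsymm hg hdiv).2.2.1

/-- the degree `[F : k]` is the number of valuations -/
theorem FibreInput.finrank_eq (H : FibreInput k x' I g) (hx' : Transcendental K x')
    (hk : k = K⟮x'⟯) : Module.finrank k F = Fintype.card I := by
  subst hk
  have : IsGen K x' := ⟨hx', inferInstance⟩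
  have h1 := sum_ord_fibre K x'
  rw [H.sum_ord hx' rfl] at h1
  exact_mod_cast h1.symm

end Abstract

open ModularCurve ModularGroup

/-- **S24 from `IsGen Kbar (jF N)` and the four analytic fibre inputs.** -/
theorem genus_eq_genusFormula (N : ℕ) [NeZero N]
    [HasCanonicalDivisor (K := Kbar) (F := FN N)] [hgenr : IsGen Kbar (jF N)]
    (Hgen : ∀ c : Kbar, c ≠ 0 → c ≠ 1728 →
      FibreInput Kbar⟮jF N⟯ (jF N - algebraMap Kbar (FN N) c) (I0 N) (1 : SL(2, ℤ)))
    (H0 : FibreInput Kbar⟮jF N⟯ (jF N - algebraMap Kbar (FN N) 0) (I0 N) (S * T))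
    (H1728 : FibreInput Kbar⟮jF N⟯ (jF N - algebraMap Kbar (FN N) 1728) (I0 N) S)
    (Hinf : FibreInput Kbar⟮jF N⟯ (jF N)⁻¹ (I0 N) T) :
    (AlgebraicCurve.genus Kbar (FN N) : ℚ) = genusFormula N := by
  have hx := hgenr.transcendental
  have hsub : ∀ c : Kbar, Kbar⟮jF N⟯ = Kbar⟮jF N - algebraMap Kbar (FN N) c⟯ := fun c =>
    (Norm.adjoin_simple_sub_algebraMap (jF N) c).symm
  have hinv : Kbar⟮jF N⟯ = Kbar⟮(jF N)⁻¹⟯ := (Norm.adjoin_simple_inv (jF N)).symm
  have hxc : ∀ c : Kbar, Transcendental Kbar (jF N - algebraMap Kbar (FN N) c) := fun c =>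
    Norm.transcendental_sub_algebraMap hx c
  have hxi : Transcendental Kbar (jF N)⁻¹ := Norm.transcendental_inv hx
  have hn : Module.finrank Kbar⟮jF N⟯ (FN N) = dedekindPsi N := by
    rw [Hinf.finrank_eq hxi hinv, Comb.card_I0]
  refine FinalC.genus_eq_genusFormula N hn ?_ ?_ ?_ ?_
  · intro c hc0 hc1
    have h1 := ((Hgen c hc0 hc1).card (hxc c) (hsub c)).trans
      (Comb.numOrbits_permOf N (1 : SL(2, ℤ))).symm
    have : permOf N (1 : SL(2, ℤ)) = 1 := MulAction.toPerm_one _ _
    rw [h1, this, FinalB.numOrbits_one, Comb.card_I0]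
  · exact (H0.card (hxc 0) (hsub 0)).trans (Comb.numOrbits_permOf N (S * T)).symm
  · exact (H1728.card (hxc 1728) (hsub 1728)).trans (Comb.numOrbits_permOf N S).symm
  · exact (Hinf.card hxi hinv).trans (Comb.numOrbits_permOf N T).symm

end Fermat.Agent.S24.FinalD
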