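import Mathlib
import Fermat.Agent.S24.Setup
import Fermat.Agent.S24.Principal

/-!
# S24 / N6 = FF3, closed form (helper30)

`HasPrincipalDivisors K F` for a function field in one variable over an algebraically closed field
of characteristic zero: `Principal.hasPrincipalDivisors_of_fibre_sums` fed with helper75's
`Setup.finite_fibre` / `Setup.sum_ord_fibre` and `PlaceB.deg_eq_one`.
-/

set_option autoImplicit false

namespace Fermat.Agent.S24.Principal

open AlgebraicCurve IntermediateField Fermat.Agent.S24

variable {K F : Type*} [Field K] [Field F] [Algebra K F]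

/-- **N6 / FF3**: principal divisors have degree zero. -/
theorem hasPrincipalDivisors_of_isGen [IsAlgClosed K] [CharZero K] (x : F) [IsGen K x] :
    HasPrincipalDivisors K F :=
  hasPrincipalDivisors_of_fibre_sums (fun v => PlaceB.deg_eq_one v x) fun y hy => by
    have : IsGen K y := IsGen.of_transcendental x hy
    exact ⟨finite_fibre K y, sum_ord_fibre K y⟩

/-- the hypothesis `hprin` of `Hurwitz.genus_eq_of_hurwitz_two`, outright. -/
theorem hprin_of_isGen [IsAlgClosed K] [CharZero K] (x : F) [IsGen K x] (f : F) (hf : f ≠ 0)
    (E : Divisor K F) (hE : ∀ v : Place K F, E v = v.ord f) : Divisor.degree E = 0 :=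
  have := hasPrincipalDivisors_of_isGen (K := K) x
  hprin_of_hasPrincipalDivisors f hf E hE

end Fermat.Agent.S24.Principal
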