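import Mathlib
import Fermat.Prelude.Def_ModularCurve_GenusNumerics

/-!
# T24 / FIN : the final arithmetic (helper31)

`2g - 2 = n - r₁ - r₂ - r_∞` with `3 r₁ = n + 2 ν₃`, `2 r₂ = n + ν₂`, `n = ψ(N)`,
`r_∞ = cuspCount N` gives `g = genusFormula N`.
-/

set_option autoImplicit false

namespace Fermat.Agent.S24.GenusArith

open ModularCurve

/-- pure arithmetic: the Hurwitz count in the Prelude's `genusFormula` shape. -/
theorem cast_eq_genusFormula (N : ℕ) {n r₁ r₂ rinf g : ℕ}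
    (hn : n = dedekindPsi N)
    (h₁ : 3 * r₁ = n + 2 * nuThree N)
    (h₂ : 2 * r₂ = n + nuTwo N)
    (hinf : rinf = cuspCount N)
    (hg : (2 * g : ℤ) - 2 = (n : ℤ) - r₁ - r₂ - rinf) :
    (g : ℚ) = genusFormula N := by
  have hgq : (2 * g : ℚ) - 2 = (n : ℚ) - r₁ - r₂ - rinf := by exact_mod_cast hg
  have h₁q : (3 : ℚ) * r₁ = n + 2 * nuThree N := by exact_mod_cast h₁
  have h₂q : (2 : ℚ) * r₂ = n + nuTwo N := by exact_mod_cast h₂
  rw [genusFormula, ← hn, ← hinf]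
  linarith

end Fermat.Agent.S24.GenusArith
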