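import Mathlib
import Fermat.Agent.S24.Interface
import Fermat.Agent.S24.Differentials
import Fermat.Agent.S24.Hurwitz

/-!
# T24 / M5 : abstract Riemann–Hurwitz ⇒ genus of the prelude (helper31)

`theorem m5 (h1 : Iface.M1 K F) (h2 : Iface.M2 K F) (h3 : Iface.M3 K F) : Iface.M5 K F`
-/

set_option autoImplicit false

noncomputable section

open KaehlerDifferential AlgebraicCurve IntermediateField

namespace Fermat.Agent.S24.Global

universe u v

variable {K : Type u} {F : Type v} [Field K] [Field F] [Algebra K F]

theorem ord_pow (v : Place K F) (f : F) (n : ℕ) : v.ord (f ^ n) = n * v.ord f := by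
  have := v.ord_zpow f (n : ℤ)
  rwa [zpow_natCast] at this

/-- sign transfer along a ramification relation `ord_v = e * ord_w`, `e > 0`. -/
theorem pos_iff_of_ram {e : ℕ} (he : 0 < e) {a b : ℤ} (h : a = e * b) : 0 < a ↔ 0 < b := by
  have he' : (0 : ℤ) < e := by exact_mod_cast he
  constructor
  · intro ha
    rw [h] at ha
    exact pos_of_mul_pos_iff_of_pos_left' ha he'
  · intro hb
    rw [h]
    exact mul_pos he' hb
where
  pos_of_mul_pos_iff_of_pos_left' {x y : ℤ} (hxy : 0 < x * y) (hx : 0 < x) : 0 < y := by
    by_contra hy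
    push Not at hy
    have : x * y ≤ 0 := mul_nonpos_of_nonneg_of_nonpos hx.le hy
    omega

theorem neg_iff_of_ram {e : ℕ} (he : 0 < e) {a b : ℤ} (h : a = e * b) : a < 0 ↔ b < 0 := by
  have h' : -a = e * (-b) := by rw [h]; ring
  have := pos_iff_of_ram he h'
  constructor
  · intro ha
    have := this.mp (by omega)
    omega
  · intro hb
    have := this.mpr (by omega)
    omega

/-- The places of `K(x)` over the points `c` and `∞` (from M1) and the identification of the
fibres of `x` with the sets of places above them (from M2). -/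
theorem exists_rat_places (K : Type u) (F : Type v) [Field K] [Field F] [Algebra K F]
    (h1 : Iface.M1 K F) (h2 : Iface.M2 K F) [IsAlgClosed K] [CharZero K] (x : F)
    (hx : Transcendental K x) [FiniteDimensional K⟮x⟯ F] :
    ∃ (wc : K → Place K K⟮x⟯) (winf : Place K K⟮x⟯),
      (∀ c, (wc c).deg = 1 ∧
        (wc c).ord (AdjoinSimple.gen K x - algebraMap K K⟮x⟯ c) = 1 ∧
        placesOver x c = placesAbove (F := F) (wc c)) ∧
      winf.deg = 1 ∧ winf.ord (AdjoinSimple.gen K x)⁻¹ = 1 ∧
        placesOverInfty K x = placesAbove (F := F) winf := by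
  classical
  set gen : K⟮x⟯ := AdjoinSimple.gen K x with hgen
  have hgenx : algebraMap K⟮x⟯ F gen = x := AdjoinSimple.algebraMap_gen K x
  obtain ⟨hWc, ⟨winf, hwinf_deg, hwinf_ord⟩, hcasesE, huniq, huniqinf, -⟩ := h1 x hx
  obtain ⟨hex, -, hram, -, -, -⟩ := h2 K⟮x⟯
  choose wc hwc_deg hwc_ord using hWc
  have hwinf_neg : winf.ord gen < 0 := by
    have := winf.ord_inv gen
    rw [hwinf_ord] at this
    omega
  choose res hres_mem using fun v : Place K F => (hex v).exists
  have hxc : ∀ c : K, x - algebraMap K F c = algebraMap K⟮x⟯ F (gen - algebraMap K K⟮x⟯ c) := by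
    intro c
    rw [map_sub, hgenx, ← IsScalarTower.algebraMap_apply]
  refine ⟨wc, winf, fun c => ⟨hwc_deg c, hwc_ord c, ?_⟩, hwinf_deg, hwinf_ord, ?_⟩
  · ext v
    constructor
    · intro hv
      have hv' : 0 < v.ord (x - algebraMap K F c) := hv
      obtain ⟨e, he, hev⟩ := hram (res v) v (hres_mem v)
      rw [hxc c] at hv'
      have hw : 0 < (res v).ord (gen - algebraMap K K⟮x⟯ c) :=
        (pos_iff_of_ram he (hev _)).mp hv'
      have : res v = wc c := huniq _ _ c hw (by rw [hwc_ord]; exact one_pos)
      rw [← this]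
      exact hres_mem v
    · intro hv
      obtain ⟨e, he, hev⟩ := hram (wc c) v hv
      show 0 < v.ord (x - algebraMap K F c)
      rw [hxc c]
      exact (pos_iff_of_ram he (hev _)).mpr (by rw [hwc_ord]; exact one_pos)
  · ext v
    constructor
    · intro hv
      have hv' : v.ord x < 0 := hv
      obtain ⟨e, he, hev⟩ := hram (res v) v (hres_mem v)
      rw [← hgenx] at hv'
      have hw : (res v).ord gen < 0 := (neg_iff_of_ram he (hev _)).mp hv'
      have : res v = winf := huniqinf _ _ hw hwinf_neg
      rw [← this]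
      exact hres_mem v
    · intro hv
      obtain ⟨e, he, hev⟩ := hram winf v hv
      show v.ord x < 0
      rw [← hgenx]
      exact (neg_iff_of_ram he (hev _)).mpr hwinf_neg

theorem m5 (K : Type u) (F : Type v) [Field K] [Field F] [Algebra K F]
    (h1 : Iface.M1 K F) (h2 : Iface.M2 K F) (h3 : Iface.M3 K F) : Iface.M5 K F := by
  classical
  intro _ _ x hx _ _ B r rinf hr hunr hrinf hlocfin hlocinf d hd hd0 _
  -- notation
  set n : ℕ := Module.finrank K⟮x⟯ F with hn
  set gen : K⟮x⟯ := AdjoinSimple.gen K x with hgen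
  have hgenx : algebraMap K⟮x⟯ F gen = x := AdjoinSimple.algebraMap_gen K x
  have halg : Algebra.IsAlgebraic K⟮x⟯ F := Algebra.IsAlgebraic.of_finite K⟮x⟯ F
  -- unpack the interfaces
  obtain ⟨hWc, ⟨winf, hwinf_deg, hwinf_ord⟩, hcasesE, huniq, huniqinf, hprod⟩ := h1 x hx
  obtain ⟨hex, hfinne, hram, hdeg, hnorm, -⟩ := h2 K⟮x⟯
  obtain ⟨hdx, hspan⟩ := h3 x hx
  choose wc hwc_deg hwc_ord using hWc
  have hwinf_neg : winf.ord gen < 0 := by
    have := winf.ord_inv gen
    rw [hwinf_ord] at this
    omega
  -- every place of `K(x)` has degree one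
  have hdegE : ∀ w : Place K K⟮x⟯, w.deg = 1 := by
    intro w
    rcases hcasesE w with h | ⟨c, hc⟩
    · rw [huniqinf w winf h hwinf_neg]; exact hwinf_deg
    · rw [huniq w (wc c) c hc (by rw [hwc_ord]; exact one_pos)]; exact hwc_deg c
  -- restriction of places
  choose res hres_mem using fun v : Place K F => (hex v).exists
  have hres_eq : ∀ (v : Place K F) (w : Place K K⟮x⟯), v ∈ placesAbove (F := F) w → w = res v :=
    fun v w hw => (hex v).unique hw (hres_mem v)
  have hdegF : ∀ v : Place K F, v.deg = 1 := fun v =>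
    hdeg (res v) (hdegE _) v (hres_mem v)
  -- the elements `x - c`
  have hxc : ∀ c : K, x - algebraMap K F c = algebraMap K⟮x⟯ F (gen - algebraMap K K⟮x⟯ c) := by
    intro c
    rw [map_sub, hgenx, ← IsScalarTower.algebraMap_apply]
  -- fibres = places above
  have hfibre : ∀ c : K, placesOver x c = placesAbove (F := F) (wc c) := by
    intro c
    ext v
    constructor
    · intro hv
      have hv' : 0 < v.ord (x - algebraMap K F c) := hv
      obtain ⟨e, he, hev⟩ := hram (res v) v (hres_mem v)
      rw [hxc c] at hv'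
      have hw : 0 < (res v).ord (gen - algebraMap K K⟮x⟯ c) :=
        (pos_iff_of_ram he (hev _)).mp hv'
      have : res v = wc c := huniq _ _ c hw (by rw [hwc_ord]; exact one_pos)
      rw [← this]
      exact hres_mem v
    · intro hv
      obtain ⟨e, he, hev⟩ := hram (wc c) v hv
      show 0 < v.ord (x - algebraMap K F c)
      rw [hxc c]
      exact (pos_iff_of_ram he (hev _)).mpr (by rw [hwc_ord]; exact one_pos)
  have hfibreinf : placesOverInfty K x = placesAbove (F := F) winf := by
    ext v
    constructor
    · intro hv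
      have hv' : v.ord x < 0 := hv
      obtain ⟨e, he, hev⟩ := hram (res v) v (hres_mem v)
      rw [← hgenx] at hv'
      have hw : (res v).ord gen < 0 := (neg_iff_of_ram he (hev _)).mp hv'
      have : res v = winf := huniqinf _ _ hw hwinf_neg
      rw [← this]
      exact hres_mem v
    · intro hv
      obtain ⟨e, he, hev⟩ := hram winf v hv
      show v.ord x < 0
      rw [← hgenx]
      exact (neg_iff_of_ram he (hev _)).mpr hwinf_neg
  have hfinc : ∀ c, (placesOver x c).Finite := fun c => by
    rw [hfibre c]; exact (hfinne _).1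
  have hfininf : (placesOverInfty K x).Finite := by
    rw [hfibreinf]; exact (hfinne _).1
  -- nonvanishing facts
  have hgenc_ne : ∀ c : K, gen - algebraMap K K⟮x⟯ c ≠ 0 := by
    intro c h0
    have := hwc_ord c
    rw [h0, Place.ord_zero] at this
    omega
  have hgen_ne : gen ≠ 0 := by
    intro h0
    rw [h0, Place.ord_zero] at hwinf_neg
    omega
  -- the fibre data
  let Φ : Hurwitz.FibreData (K := K) x n :=
    { fin := fun c => (hfinc c).toFinset
      inf := hfininf.toFinset
      mem_fin := fun c v => by rw [Set.Finite.mem_toFinset]; rfl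
      mem_inf := fun v => by rw [Set.Finite.mem_toFinset]; rfl
      sum_fin := fun c => by
        have hne : x - algebraMap K F c ≠ 0 := by
          rw [hxc c]
          exact fun h0 => hgenc_ne c ((map_eq_zero_iff _ (algebraMap K⟮x⟯ F).injective).mp h0)
        have h := hnorm (wc c) (hwc_deg c) (x - algebraMap K F c) hne (hfinc c).toFinset
          (fun v => by rw [Set.Finite.mem_toFinset, hfibre c])
        rw [← h, hxc c, Algebra.norm_algebraMap, ord_pow, hwc_ord, mul_one]
      sum_inf := by
        have hne : x⁻¹ ≠ 0 := by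
          rw [← hgenx]
          exact inv_ne_zero
            (fun h0 => hgen_ne ((map_eq_zero_iff _ (algebraMap K⟮x⟯ F).injective).mp h0))
        have h := hnorm winf hwinf_deg x⁻¹ hne hfininf.toFinset
          (fun v => by rw [Set.Finite.mem_toFinset, hfibreinf])
        have h2 : x⁻¹ = algebraMap K⟮x⟯ F gen⁻¹ := by rw [map_inv₀, hgenx]
        rw [h2, Algebra.norm_algebraMap, ord_pow, hwinf_ord, mul_one, ← h2] at h
        have h3 : ∑ v ∈ hfininf.toFinset, v.ord x⁻¹ = -∑ v ∈ hfininf.toFinset, v.ord x := by
          rw [← Finset.sum_neg_distrib]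
          exact Finset.sum_congr rfl fun v _ => v.ord_inv x
        rw [h3] at h
        show ∑ v ∈ hfininf.toFinset, v.ord x = -(n : ℤ)
        omega
      cases := fun v => by
        rcases hcasesE (res v) with h | ⟨c, hc⟩
        · left
          rw [Set.Finite.mem_toFinset, hfibreinf]
          have hw : res v = winf := huniqinf _ _ h hwinf_neg
          rw [← hw]
          exact hres_mem v
        · right
          refine ⟨c, ?_⟩
          rw [Set.Finite.mem_toFinset, hfibre c]
          have hw : res v = wc c := huniq _ _ c hc (by rw [hwc_ord]; exact one_pos)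
          rw [← hw]
          exact hres_mem v }
  -- principal divisors have degree zero
  have hprin : ∀ f : F, f ≠ 0 → ∀ E : Divisor K F, (∀ v, E v = v.ord f) →
      Divisor.degree E = 0 := by
    intro f hf E hE
    set a : K⟮x⟯ := Algebra.norm K⟮x⟯ f with ha
    have ha0 : a ≠ 0 := Algebra.norm_ne_zero_iff.mpr hf
    obtain ⟨S, hS0, hSsum⟩ := hprod a ha0
    set S' : Finset (Place K K⟮x⟯) := S ∪ E.support.image res with hS'
    have hS'sum : ∑ w ∈ S', w.ord a = 0 := by
      rw [← hSsum]
      symm
      exact Finset.sum_subset Finset.subset_union_left (fun w _ hw => hS0 w hw)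
    set A : Place K K⟮x⟯ → Finset (Place K F) := fun w => (hfinne w).1.toFinset with hA
    have hAmem : ∀ w v, v ∈ A w ↔ v ∈ placesAbove (F := F) w := fun w v => by
      rw [hA]; exact Set.Finite.mem_toFinset _
    have hAsum : ∀ w, w.ord a = ∑ v ∈ A w, v.ord f := fun w =>
      hnorm w (hdegE w) f hf (A w) (hAmem w)
    have hdisj : (S' : Set (Place K K⟮x⟯)).PairwiseDisjoint A := by
      intro w _ w' _ hww
      rw [Function.onFun, Finset.disjoint_left]
      intro v hv hv'
      exact hww ((hres_eq v w ((hAmem w v).mp hv)).trans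
        (hres_eq v w' ((hAmem w' v).mp hv')).symm)
    set U : Finset (Place K F) := S'.biUnion A with hU
    have hsupp : E.support ⊆ U := by
      intro v hv
      rw [hU, Finset.mem_biUnion]
      exact ⟨res v, Finset.mem_union_right _ (Finset.mem_image_of_mem res hv),
        (hAmem _ _).mpr (hres_mem v)⟩
    rw [Hurwitz.degree_eq_sum_of_deg_one E U hsupp hdegF, Finset.sum_congr rfl (fun v _ => hE v),
      hU, Finset.sum_biUnion hdisj, ← hS'sum]
    exact Finset.sum_congr rfl fun w _ => (hAsum w).symm
  -- unramified fibres have `n` points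
  have hcard : ∀ c, c ∉ B → (Φ.fin c).card = n := by
    intro c hc
    have h1 : ∀ v ∈ Φ.fin c, v.ord (x - algebraMap K F c) = 1 := fun v hv =>
      hunr c hc v ((Φ.mem_fin c v).mp hv)
    have h2 := Φ.sum_fin c
    rw [Finset.sum_congr rfl h1, Finset.sum_const] at h2
    simpa using h2
  -- apply Hurwitz
  have hsmul : ∀ (v : Place K F) (f : F), f ≠ 0 →
      v.ordDifferential (f • D K F x) = v.ord f + v.ordDifferential (D K F x) :=
    fun v f hf => Diff.ordDifferential_smul_D x hx halg v hf
  have hgenus := Hurwitz.genus_eq_of_hurwitz Φ hdx hspan hsmul hprin hdegF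
    (fun v c hvc => hlocfin c v hvc) (fun v hv => hlocinf v hv) B hcard
  have hfc : ∀ c ∈ B, (Φ.fin c).card = r c := by
    intro c hc
    rw [← hr c hc, Nat.card_coe_set_eq, Set.ncard_eq_toFinset_card _ (hfinc c)]
  have hic : Φ.inf.card = rinf := by
    rw [← hrinf, Nat.card_coe_set_eq, Set.ncard_eq_toFinset_card _ hfininf]
  have hdeq : (∑ c ∈ B, ((n : ℤ) - (Φ.fin c).card) - n - Φ.inf.card + 2) = d + 2 := by
    rw [hd, hic, Finset.sum_congr rfl (fun c hc => by rw [hfc c hc])]
  rw [hgenus, hdeq, Int.natCast_div, Int.toNat_of_nonneg hd0]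
  rfl

end Fermat.Agent.S24.Global
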