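import Mathlib
import Fermat.Agent.S24.Interface
import Fermat.Agent.S24.Global
import Fermat.Agent.S24.GenusArith

/-!
# T24 / M13 : final assembly of S24 from the interface statements (helper31)

`genus_eq_genusFormula : M1 → M2 → M3 → M4 → M4b → M7 → M8 → M9 → M11 → M12 → S24`.
(`M5` is `Global.m5`, `M10` enters through `M7`.)
-/

set_option autoImplicit false

noncomputable section

open KaehlerDifferential AlgebraicCurve IntermediateField ModularCurve
open scoped MatrixGroups

namespace Fermat.Agent.S24.Final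

/-! ### Transport of a `LocalDatum` along an equality of the local parameter -/

section Transport

variable {K F : Type*} [Field K] [Field F] [Algebra K F] {x s s' : F} {I : Type*}

/-- transport along `s = s'` -/
def congrS (h : s = s') (L : LocalDatum K x s I) : LocalDatum K x s' I := h ▸ L

theorem congrS_ρ (h : s = s') (L : LocalDatum K x s I) : (congrS h L).ρ = L.ρ := by
  subst h; rfl

theorem congrS_Ew (h : s = s') (L : LocalDatum K x s I) : (congrS h L).Ew = L.Ew := by
  subst h; rfl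

/-- the "computed by an expansion" statement is insensitive to the transport -/
theorem computed_congrS (h : s = s') (L : LocalDatum K x s I) (v : Place K F)
    (hv : ∃ (i : I) (m : ℕ), 0 < m ∧ ∀ f : F, f ≠ 0 →
      (congrS h L).O.ord ((congrS h L).σ i f) = m * v.ord f) :
    ∃ (i : I) (m : ℕ), 0 < m ∧ ∀ f : F, f ≠ 0 → L.O.ord (L.σ i f) = m * v.ord f := by
  subst h; exact hv

end Transport

/-- a positive multiple `m * a = 1` with `a > 0` forces `a = 1` -/
theorem eq_one_of_mul_eq_one {m : ℕ} {a : ℤ} (hm : 0 < m) (ha : 0 < a) (h : (m : ℤ) * a = 1) :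
    a = 1 := by
  have hm' : (1 : ℤ) ≤ m := by exact_mod_cast hm
  nlinarith

/-! ### The abstract assembly -/

section Abstract

variable {K F : Type} [Field K] [Field F] [Algebra K F]

/-- The key lemma `M4` applied at the point `c` (in the `placesOver` language). -/
theorem m4_fin (h1 : Iface.M1 K F) (h2 : Iface.M2 K F) (h4 : Iface.M4 K F)
    [IsAlgClosed K] [CharZero K] (x : F) (hx : Transcendental K x) [FiniteDimensional K⟮x⟯ F]
    (I : Type) [Fintype I] (hcard : Fintype.card I = Module.finrank K⟮x⟯ F)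
    (c : K) (L : LocalDatum K x (x - algebraMap K F c) I) :
    Nat.card (placesOver x c) = numOrbits L.ρ ∧
      ∀ v ∈ placesOver x c, ∃ (i : I) (m : ℕ), 0 < m ∧
        ∀ f : F, f ≠ 0 → L.O.ord (L.σ i f) = m * v.ord f := by
  obtain ⟨wc, winf, hwc, -, -, -⟩ := Global.exists_rat_places K F h1 h2 x hx
  have hgenx : algebraMap K⟮x⟯ F (AdjoinSimple.gen K x) = x := AdjoinSimple.algebraMap_gen K x
  have hsc : x - algebraMap K F c
      = algebraMap K⟮x⟯ F (AdjoinSimple.gen K x - algebraMap K K⟮x⟯ c) := by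
    rw [map_sub, hgenx, ← IsScalarTower.algebraMap_apply]
  have h := h4 x hx (AdjoinSimple.gen K x - algebraMap K K⟮x⟯ c) (wc c) (hwc c).1 (hwc c).2.1
    I hcard (congrS hsc L)
  rw [← (hwc c).2.2, congrS_ρ] at h
  exact ⟨h.1, fun v hv => computed_congrS hsc L v (h.2 v hv)⟩

/-- The key lemma `M4` applied at `∞`. -/
theorem m4_inf (h1 : Iface.M1 K F) (h2 : Iface.M2 K F) (h4 : Iface.M4 K F)
    [IsAlgClosed K] [CharZero K] (x : F) (hx : Transcendental K x) [FiniteDimensional K⟮x⟯ F]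
    (I : Type) [Fintype I] (hcard : Fintype.card I = Module.finrank K⟮x⟯ F)
    (L : LocalDatum K x x⁻¹ I) :
    Nat.card (placesOverInfty K x) = numOrbits L.ρ ∧
      ∀ v ∈ placesOverInfty K x, ∃ (i : I) (m : ℕ), 0 < m ∧
        ∀ f : F, f ≠ 0 → L.O.ord (L.σ i f) = m * v.ord f := by
  obtain ⟨wc, winf, -, hwinf_deg, hwinf_ord, hfibinf⟩ :=
    Global.exists_rat_places K F h1 h2 x hx
  have hgenx : algebraMap K⟮x⟯ F (AdjoinSimple.gen K x) = x := AdjoinSimple.algebraMap_gen K x
  have hsinf : x⁻¹ = algebraMap K⟮x⟯ F (AdjoinSimple.gen K x)⁻¹ := by rw [map_inv₀, hgenx]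
  have h := h4 x hx (AdjoinSimple.gen K x)⁻¹ winf hwinf_deg hwinf_ord I hcard (congrS hsinf L)
  rw [← hfibinf, congrS_ρ] at h
  exact ⟨h.1, fun v hv => computed_congrS hsinf L v (h.2 v hv)⟩

/-- **Abstract final assembly**: two branch values `c₁ ≠ c₂`, local data everywhere. -/
theorem genus_of_localData (h1 : Iface.M1 K F) (h2 : Iface.M2 K F) (h3 : Iface.M3 K F)
    (h4 : Iface.M4 K F) (h4b : Iface.M4b K F)
    [IsAlgClosed K] [CharZero K] [HasCanonicalDivisor (K := K) (F := F)]
    (x : F) (hx : Transcendental K x) [FiniteDimensional K⟮x⟯ F]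
    (I : Type) [Fintype I] (hcard : Fintype.card I = Module.finrank K⟮x⟯ F)
    (L : ∀ c : K, LocalDatum K x (x - algebraMap K F c) I) (Linf : LocalDatum K x x⁻¹ I)
    {c₁ c₂ : K} (hc : c₁ ≠ c₂) (hgen : ∀ c, c ≠ c₁ → c ≠ c₂ → (L c).Ew = 1)
    (d : ℤ)
    (hd : d = (Fintype.card I : ℤ) - numOrbits (L c₁).ρ - numOrbits (L c₂).ρ - numOrbits Linf.ρ)
    (h0 : 0 ≤ d + 2) (hev : Even d) :
    (AlgebraicCurve.genus K F : ℤ) = (d + 2) / 2 := by
  classical
  have hM4 := fun c => m4_fin h1 h2 h4 x hx I hcard c (L c)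
  have hM4inf := m4_inf h1 h2 h4 x hx I hcard Linf
  have hDx : ∀ c : K, D K F (x - algebraMap K F c) = D K F x := by
    intro c
    rw [map_sub, Derivation.map_algebraMap, sub_zero]
  refine Global.m5 K F h1 h2 h3 x hx {c₁, c₂} (fun c => numOrbits (L c).ρ) (numOrbits Linf.ρ)
    (fun c _ => (hM4 c).1) ?_ hM4inf.1 ?_ ?_ d ?_ h0 hev
  · intro c hcB v hv
    have hc1 : c ≠ c₁ := fun h => hcB (by rw [h]; simp)
    have hc2 : c ≠ c₂ := fun h => hcB (by rw [h]; simp)
    obtain ⟨i, m, hm, hσ⟩ := (hM4 c).2 v hv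
    have hvpos : 0 < v.ord (x - algebraMap K F c) := hv
    have hne : x - algebraMap K F c ≠ 0 := fun h0 => by
      rw [h0, Place.ord_zero] at hvpos; exact lt_irrefl _ hvpos
    have h := hσ _ hne
    rw [(L c).ord_s i, hgen c hc1 hc2] at h
    exact eq_one_of_mul_eq_one hm hvpos (by exact_mod_cast h.symm)
  · intro c v hv
    obtain ⟨i, m, hm, hσ⟩ := (hM4 c).2 v hv
    have hvpos : 0 < v.ord (x - algebraMap K F c) := hv
    exact h4b x hx v (L c).M (L c).O ((L c).σ i) m hm hσ _ hvpos.ne' (hDx c)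
  · intro v hv
    obtain ⟨i, m, hm, hσ⟩ := hM4inf.2 v hv
    have hvneg : v.ord x < 0 := hv
    exact h4b x hx v Linf.M Linf.O (Linf.σ i) m hm hσ x hvneg.ne rfl
  · rw [Finset.sum_pair hc, hd, hcard]
    ring

end Abstract

/-! ### Transitivity of `⟨S, T⟩` on the coset space -/

theorem permOf_mul (N : ℕ) (g h : SL(2, ℤ)) : permOf N (g * h) = permOf N g * permOf N h := by
  ext i
  simp only [permOf, MulAction.toPerm_apply, Equiv.Perm.coe_mul, Function.comp_apply, mul_smul]

theorem transitive_I0 (N : ℕ) (i k : I0 N) :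
    ∃ g ∈ Subgroup.closure ({permOf N ModularGroup.S, permOf N ModularGroup.T} :
      Set (Equiv.Perm (I0 N))), g i = k := by
  induction i using Quotient.inductionOn with | _ a => ?_
  induction k using Quotient.inductionOn with | _ b => ?_
  have hγ : b * a⁻¹ ∈ Subgroup.closure ({ModularGroup.S, ModularGroup.T} : Set SL(2, ℤ)) := by
    rw [SpecialLinearGroup.SL2Z_generators]; trivial
  refine ⟨permOf N (b * a⁻¹), ?_, ?_⟩
  · have h := Subgroup.mem_map_of_mem (MulAction.toPermHom SL(2, ℤ) (I0 N)) hγ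
    rw [MonoidHom.map_closure, Set.image_pair] at h
    exact h
  · show (b * a⁻¹) • (QuotientGroup.mk a : I0 N) = QuotientGroup.mk b
    rw [MulAction.Quotient.smul_mk, smul_eq_mul, inv_mul_cancel_right]

/-! ### The modular assembly -/

theorem genus_eq_genusFormula (N : ℕ) [NeZero N]
    [HasCanonicalDivisor (K := Kbar) (F := FN N)]
    (h1 : Iface.M1 Kbar (FN N)) (h2 : Iface.M2 Kbar (FN N)) (h3 : Iface.M3 Kbar (FN N))
    (h4 : Iface.M4 Kbar (FN N)) (h4b : Iface.M4b Kbar (FN N))
    (h7 : Iface.M7 N) (h8 : Iface.M8 N) (h9 : Iface.M9 N) (h11 : Iface.M11 N)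
    (h12 : Iface.M12) :
    (AlgebraicCurve.genus Kbar (FN N) : ℚ) = genusFormula N := by
  classical
  obtain ⟨hx, hfd, hfr⟩ := h9
  obtain ⟨hcardI, hS, hST, hT⟩ := h11
  choose L hLgen hL1728 hL0 using h7
  obtain ⟨Linf, -, hLinfρ⟩ := h8
  have hcard : Fintype.card (I0 N) = Module.finrank Kbar⟮jF N⟯ (FN N) := hcardI.trans hfr.symm
  have h1728 : (0 : Kbar) ≠ 1728 := by norm_num
  obtain ⟨heven, hnonneg⟩ := h12 (I0 N) (permOf N ModularGroup.S) (permOf N ModularGroup.T)
    (transitive_I0 N)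
  set d : ℤ := (Fintype.card (I0 N) : ℤ) - numOrbits (permOf N ModularGroup.S)
      - numOrbits (permOf N ModularGroup.T)
      - numOrbits (permOf N ModularGroup.S * permOf N ModularGroup.T) with hd
  have hgenus := genus_of_localData h1 h2 h3 h4 h4b (jF N) hx (I0 N) hcard L Linf h1728
    (fun c hc0 hc1 => (hLgen c hc0 hc1).1) d
    (by rw [hd, (hL0 0 rfl).2, (hL1728 1728 rfl).2, hLinfρ, permOf_mul]; ring)
    hnonneg heven
  obtain ⟨k, hk⟩ := heven
  have hg2 : (2 : ℤ) * (AlgebraicCurve.genus Kbar (FN N) : ℤ) - 2 = d := by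
    rw [hgenus]; omega
  refine GenusArith.cast_eq_genusFormula N (n := Fintype.card (I0 N))
    (r₁ := numOrbits (permOf N (ModularGroup.S * ModularGroup.T)))
    (r₂ := numOrbits (permOf N ModularGroup.S))
    (rinf := numOrbits (permOf N ModularGroup.T)) hcardI ?_ ?_ hT ?_
  · rw [hST, hcardI]
  · rw [hS, hcardI]
  · rw [hg2, hd, permOf_mul]; ring

end Fermat.Agent.S24.Final
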