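import Fermat.Agent.S24.Interface
import Fermat.Agent.S24_helper44.CycleCount
import Fermat.Agent.S24_helper44.ScottPerm

/-!
S24, module M12: parity and the Ree / Scott inequality for a transitive pair of permutations,
in the interface shape `Iface.M12` (wrapper around `Fermat.Agent.S24_helper44`).
-/

set_option autoImplicit false

namespace Fermat.Agent.S24.Ree

open Fermat.Agent.S24 Fermat.Agent.S24_helper44

theorem numOrbits_eq_cyc {I : Type*} (ρ : Equiv.Perm I) : numOrbits ρ = cyc ρ := rfl

theorem m12 : Iface.M12 := by
  intro I _ _ a b htrans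
  classical
  have h1 := even_cyc_add a b
  have h2 := cyc_add_cyc_add_cyc_le a b htrans
  have ha := cyc_le_card a
  have hb := cyc_le_card b
  have hab := cyc_le_card (a * b)
  simp only [numOrbits_eq_cyc]
  constructor
  · obtain ⟨m, hm⟩ := h1
    refine ⟨(Fintype.card I : ℤ) - m, ?_⟩
    have hm' : ((cyc a : ℤ) + cyc b + cyc (a * b) + Fintype.card I) = m + m := by
      exact_mod_cast hm
    linarith
  · have h2' : ((cyc a : ℤ) + cyc b + cyc (a * b)) ≤ Fintype.card I + 2 := by exact_mod_cast h2
    linarith

end Fermat.Agent.S24.Ree
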