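import Mathlib
import Fermat.Agent.S24.Interface
import Fermat.Agent.S24.Hurwitz
import Fermat.Agent.S24.Differentials
import Fermat.Agent.S24.GenusArith
import Fermat.Agent.S24.LOC
import Fermat.Agent.S24.Comb
import Fermat.Agent.S24.Ree
import Fermat.Agent.S24.Final

/-!
# T24 : final assembly in the `F`-language (helper31)

As ruled by the T24 lead (board 479): everything speaks about the fibres
`Fibre K s = {v : Place K F // 0 < v.ord s}` for `s = x - c` and `s = x⁻¹`.

* `Hurwitz.FibreData.card_fin` / `card_inf` : the cardinalities of `FibreData` in `Fibre` language;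
* `genus_of_counts` : abstract final step from the fibre counts `#Fibre = #orbits`;
* `genus_eq_genusFormula_of_counts` : the S24 statement from `FibreData (jF N) ψ(N)`, the
  differential facts, and the four count statements.
-/

set_option autoImplicit false

noncomputable section

open KaehlerDifferential AlgebraicCurve IntermediateField ModularCurve
open scoped MatrixGroups

namespace Fermat.Agent.S24

namespace Hurwitz.FibreData

variable {K F : Type*} [Field K] [Field F] [Algebra K F] {x : F} {n : ℕ}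
  (Φ : Hurwitz.FibreData (K := K) x n)

theorem card_fin (c : K) :
    (Φ.fin c).card = Nat.card (Fibre K (x - algebraMap K F c)) := by
  classical
  have e : Fibre K (x - algebraMap K F c) ≃ {v // v ∈ Φ.fin c} :=
    Equiv.subtypeEquivRight fun v => ((Φ.mem_fin c v)).symm
  rw [Nat.card_congr e, Nat.card_eq_fintype_card, Fintype.card_coe]

theorem card_inf : Φ.inf.card = Nat.card (Fibre K x⁻¹) := by
  classical
  have e : Fibre K x⁻¹ ≃ {v // v ∈ Φ.inf} :=
    Equiv.subtypeEquivRight fun v => by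
      rw [Φ.mem_inf, Place.ord_inv]
      constructor <;> intro h <;> omega
  rw [Nat.card_congr e, Nat.card_eq_fintype_card, Fintype.card_coe]

end Hurwitz.FibreData

namespace FinalB

theorem numOrbits_one (I : Type*) [Fintype I] : numOrbits (1 : Equiv.Perm I) = Fintype.card I := by
  classical
  unfold numOrbits
  rw [← Nat.card_eq_fintype_card]
  refine Nat.card_congr (Equiv.symm (Equiv.ofBijective
    (fun i => (Quotient.mk'' i : MulAction.orbitRel.Quotient
      (Subgroup.zpowers (1 : Equiv.Perm I)) I)) ⟨?_, ?_⟩))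
  · intro i k h
    have h' := Quotient.exact' h
    change i ∈ MulAction.orbit (Subgroup.zpowers (1 : Equiv.Perm I)) k at h'
    obtain ⟨⟨g, hg⟩, rfl⟩ := h'
    rw [Subgroup.zpowers_one_eq_bot, Subgroup.mem_bot] at hg
    subst hg
    rfl
  · intro o
    induction o using Quotient.inductionOn' with | _ i => exact ⟨i, rfl⟩

section Abstract

variable {K F : Type*} [Field K] [Field F] [Algebra K F]

/-- **Abstract final step** in the `F`-language. -/
theorem genus_of_counts [HasCanonicalDivisor (K := K) (F := F)]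
    {x : F} {n : ℕ} (Φ : Hurwitz.FibreData (K := K) x n)
    (hdx : D K F x ≠ 0)
    (hspan : ∀ ω : Ω[F⁄K], ∃ f : F, ω = f • D K F x)
    (hsmul : ∀ (v : Place K F) (f : F), f ≠ 0 →
      v.ordDifferential (f • D K F x) = v.ord f + v.ordDifferential (D K F x))
    (hprin : ∀ f : F, f ≠ 0 → ∀ E : Divisor K F, (∀ v, E v = v.ord f) → Divisor.degree E = 0)
    (hdeg1 : ∀ v : Place K F, v.deg = 1)
    (hfin : ∀ (v : Place K F) (c : K), 0 < v.ord (x - algebraMap K F c) →
      v.ordDifferential (D K F x) = v.ord (x - algebraMap K F c) - 1)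
    (hinf : ∀ v : Place K F, v.ord x < 0 → v.ordDifferential (D K F x) = v.ord x - 1)
    {c₁ c₂ : K} (hc : c₁ ≠ c₂) {r₁ r₂ rinf : ℕ}
    (hgen : ∀ c, c ≠ c₁ → c ≠ c₂ → Nat.card (Fibre K (x - algebraMap K F c)) = n)
    (h₁ : Nat.card (Fibre K (x - algebraMap K F c₁)) = r₁)
    (h₂ : Nat.card (Fibre K (x - algebraMap K F c₂)) = r₂)
    (hinfty : Nat.card (Fibre K x⁻¹) = rinf)
    {g : ℕ} (hg : (2 * g : ℤ) - 2 = (n : ℤ) - r₁ - r₂ - rinf) :
    AlgebraicCurve.genus K F = g := by
  refine Hurwitz.genus_eq_of_hurwitz_two Φ hdx hspan hsmul hprin hdeg1 hfin hinf hc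
    (fun c hc1 hc2 => by rw [Φ.card_fin, hgen c hc1 hc2]) ?_
  rw [Φ.card_fin, Φ.card_fin, Φ.card_inf, h₁, h₂, hinfty]
  exact hg

/-- Variant with the differential facts supplied by `Diff` (helper30): only
`Transcendental K x` and `F` algebraic over `K(x)` are needed. -/
theorem genus_of_counts' [CharZero K] [HasCanonicalDivisor (K := K) (F := F)]
    {x : F} (hx : Transcendental K x) (halg : Algebra.IsAlgebraic K⟮x⟯ F)
    {n : ℕ} (Φ : Hurwitz.FibreData (K := K) x n)
    (hprin : ∀ f : F, f ≠ 0 → ∀ E : Divisor K F, (∀ v, E v = v.ord f) → Divisor.degree E = 0)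
    (hdeg1 : ∀ v : Place K F, v.deg = 1)
    (hfin : ∀ (v : Place K F) (c : K), 0 < v.ord (x - algebraMap K F c) →
      v.ordDifferential (D K F x) = v.ord (x - algebraMap K F c) - 1)
    (hinf : ∀ v : Place K F, v.ord x < 0 → v.ordDifferential (D K F x) = v.ord x - 1)
    {c₁ c₂ : K} (hc : c₁ ≠ c₂) {r₁ r₂ rinf : ℕ}
    (hgen : ∀ c, c ≠ c₁ → c ≠ c₂ → Nat.card (Fibre K (x - algebraMap K F c)) = n)
    (h₁ : Nat.card (Fibre K (x - algebraMap K F c₁)) = r₁)
    (h₂ : Nat.card (Fibre K (x - algebraMap K F c₂)) = r₂)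
    (hinfty : Nat.card (Fibre K x⁻¹) = rinf)
    {g : ℕ} (hg : (2 * g : ℤ) - 2 = (n : ℤ) - r₁ - r₂ - rinf) :
    AlgebraicCurve.genus K F = g :=
  genus_of_counts Φ (Diff.D_ne_zero x hx halg) (Diff.exists_eq_smul_D x halg)
    (fun v _ hf => Diff.ordDifferential_smul_D x hx halg v hf) hprin hdeg1 hfin hinf hc
    hgen h₁ h₂ hinfty hg

end Abstract

/-- **S24 from the fibre data of `j`, the local formula for `dj` and the four counts.** -/
theorem genus_eq_genusFormula_of_counts (N : ℕ) [NeZero N]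
    [HasCanonicalDivisor (K := Kbar) (F := FN N)]
    (hx : Transcendental Kbar (jF N)) (halg : Algebra.IsAlgebraic Kbar⟮jF N⟯ (FN N))
    (Φ : Hurwitz.FibreData (K := Kbar) (jF N) (dedekindPsi N))
    (hprin : ∀ f : FN N, f ≠ 0 → ∀ E : Divisor Kbar (FN N), (∀ v, E v = v.ord f) →
      Divisor.degree E = 0)
    (hdeg1 : ∀ v : Place Kbar (FN N), v.deg = 1)
    (hfin : ∀ (v : Place Kbar (FN N)) (c : Kbar), 0 < v.ord (jF N - algebraMap Kbar (FN N) c) →
      v.ordDifferential (D Kbar (FN N) (jF N)) = v.ord (jF N - algebraMap Kbar (FN N) c) - 1)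
    (hinf : ∀ v : Place Kbar (FN N), v.ord (jF N) < 0 →
      v.ordDifferential (D Kbar (FN N) (jF N)) = v.ord (jF N) - 1)
    (hgen : ∀ c : Kbar, c ≠ 0 → c ≠ 1728 →
      Nat.card (Fibre Kbar (jF N - algebraMap Kbar (FN N) c)) = dedekindPsi N)
    (h0 : Nat.card (Fibre Kbar (jF N - algebraMap Kbar (FN N) 0))
      = numOrbits (permOf N (ModularGroup.S * ModularGroup.T)))
    (h1728 : Nat.card (Fibre Kbar (jF N - algebraMap Kbar (FN N) 1728))
      = numOrbits (permOf N ModularGroup.S))
    (hinfty : Nat.card (Fibre Kbar (jF N)⁻¹) = numOrbits (permOf N ModularGroup.T)) :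
    (AlgebraicCurve.genus Kbar (FN N) : ℚ) = genusFormula N := by
  classical
  obtain ⟨hcardI, hS, hST, hT⟩ := Comb.m11 N
  obtain ⟨heven, hnonneg⟩ := Ree.m12 (I0 N) (permOf N ModularGroup.S) (permOf N ModularGroup.T)
    (Final.transitive_I0 N)
  rw [← Final.permOf_mul, hcardI] at heven hnonneg
  obtain ⟨k, hk⟩ := heven
  have hne : (0 : Kbar) ≠ 1728 := by norm_num
  have hk1 : 0 ≤ k + 1 := by omega
  have hkn : (((k + 1).toNat : ℕ) : ℤ) = k + 1 := Int.toNat_of_nonneg hk1
  have hg : (2 * ((k + 1).toNat : ℕ) : ℤ) - 2 = (dedekindPsi N : ℤ)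
      - numOrbits (permOf N (ModularGroup.S * ModularGroup.T))
      - numOrbits (permOf N ModularGroup.S) - numOrbits (permOf N ModularGroup.T) := by
    rw [hkn]; omega
  have hgenus := genus_of_counts' hx halg Φ hprin hdeg1 hfin hinf hne hgen h0 h1728 hinfty hg
  rw [hgenus]
  exact GenusArith.cast_eq_genusFormula N rfl hST hS hT hg

end FinalB

end Fermat.Agent.S24
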