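import Mathlib
import Fermat.Agent.S24.FinalB
import Fermat.Agent.S24.FF1

/-!
# S24 from `Iface.M9` and the four fibre counts (helper75)

All algebraic hypotheses of `FinalB.genus_eq_genusFormula_of_counts` are discharged by `FF1`.
-/

set_option autoImplicit false

open AlgebraicCurve IntermediateField ModularCurve KaehlerDifferential
open scoped MatrixGroups

namespace Fermat.Agent.S24.Asm

/-- S24 from `M9` and the four counts. -/
theorem genus_of_m9_counts (N : ℕ) [NeZero N]
    [HasCanonicalDivisor (K := Kbar) (F := FN N)]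
    (h9 : Iface.M9 N)
    (hgen : ∀ c : Kbar, c ≠ 0 → c ≠ 1728 →
      Nat.card (Fibre Kbar (jF N - algebraMap Kbar (FN N) c)) = dedekindPsi N)
    (h0 : Nat.card (Fibre Kbar (jF N - algebraMap Kbar (FN N) 0))
      = numOrbits (permOf N (ModularGroup.S * ModularGroup.T)))
    (h1728 : Nat.card (Fibre Kbar (jF N - algebraMap Kbar (FN N) 1728))
      = numOrbits (permOf N ModularGroup.S))
    (hinfty : Nat.card (Fibre Kbar (jF N)⁻¹) = numOrbits (permOf N ModularGroup.T)) :
    (AlgebraicCurve.genus Kbar (FN N) : ℚ) = genusFormula N := by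
  obtain ⟨hx, hfd, hdeg⟩ := h9
  have hgenr : IsGen Kbar (jF N) := ⟨hx, hfd⟩
  have halg : Algebra.IsAlgebraic Kbar⟮jF N⟯ (FN N) := Algebra.IsAlgebraic.of_finite _ _
  exact FinalB.genus_eq_genusFormula_of_counts N hx halg (hdeg ▸ FF1.fibreData (jF N))
    (FF1.hprin (jF N)) (fun v => PlaceB.deg_eq_one v (jF N))
    (fun v c h => FF1.ordDifferential_of_pos (jF N) v c h)
    (fun v h => FF1.ordDifferential_of_neg (jF N) v h) hgen h0 h1728 hinfty

end Fermat.Agent.S24.Asm
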