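import Mathlib
import Fermat.Agent.S24.Norm
import Fermat.Agent.S24.Comb
import Fermat.Agent.S24.FF1
import Fermat.Agent.S24_helper62.CuspEmb
import Fermat.Agent.S24_helper76.CuspOrbit

/-!
# S24: the number of places over `j = ∞` (helper75)

`hinfty` of `FinalB.genus_eq_genusFormula_of_counts`, unconditionally:
helper62's cusp embeddings (C1)–(C4), helper76's `CuspOrbit`, helper47's `Norm`.
-/

set_option autoImplicit false

open AlgebraicCurve IntermediateField ModularCurve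
open scoped MatrixGroups

namespace Fermat.Agent.S24.CuspFinal

open Fermat.Agent.S24_helper62 Fermat.Agent.S24_helper76.CuspOrbit

theorem card_fibre_infty (N : ℕ) [NeZero N] :
    Nat.card (Fibre Kbar (jF N)⁻¹) = cuspCount N := by
  obtain ⟨hx, hfd, -⟩ := m9 N
  have hxinv : Transcendental Kbar (jF N)⁻¹ := Norm.transcendental_inv hx
  have hgen : IsGen Kbar (jF N) := ⟨hx, hfd⟩
  have hfd' : FiniteDimensional Kbar⟮(jF N)⁻¹⟯ (FN N) := (FF1.isGen_inv (K := Kbar) (jF N)).finite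
  have hk : Kbar⟮jF N⟯ = Kbar⟮(jF N)⁻¹⟯ := (Norm.adjoin_simple_inv (K := Kbar) (jF N)).symm
  obtain ⟨hfin, hN, hWA⟩ := Norm.fibre_package (jF N)⁻¹ hxinv Kbar⟮jF N⟯ hk
  obtain ⟨ζ, hζ, hC4⟩ := exists_zeta_cuspSigma_T_smul N
  exact Fermat.Agent.S24_helper76.CuspOrbit.card_fibre_infty_eq_cuspCount (σ := cuspSigma N) (cuspSigma_jF N) (cuspSigma_injective N)
    (fun a ha m => cuspSigma_sym N a ha m) ζ hζ hC4 hN hWA

/-- `hinfty` in the shape of `FinalB` -/
theorem hinfty (N : ℕ) [NeZero N] :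
    Nat.card (Fibre Kbar (jF N)⁻¹) = numOrbits (permOf N ModularGroup.T) := by
  rw [card_fibre_infty N, (Comb.m11 N).2.2.2]

end Fermat.Agent.S24.CuspFinal
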