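import Mathlib
import Fermat.Agent.S24.Differentials
import Fermat.Agent.S24.Interface

/-!
# S24 / M4b : the order of `dx` at a place computed by an expansion (helper30)

If a place `v` of `F / K` is computed by an embedding `σ : F →ₐ[K] M` into a valued differential
field (`OrdField K M`: an order function together with a `K`-derivation lowering nonzero orders
by exactly one), i.e. `ord (σ f) = m * v.ord f` with `0 < m`, then for every `s : F` with
`v.ord s ≠ 0` one has `ord_v(ds) = ord_v(s) - 1` (orders of differentials in the sense of the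
Prelude: `Place.ordDifferential`).

The proof applies `Diff.differentialCoeff_D_smul` to the derivation `der ∘ σ : F → M`.
-/

set_option autoImplicit false

noncomputable section

namespace Fermat.Agent.S24.ExpDiff

open AlgebraicCurve KaehlerDifferential IntermediateField Fermat.Agent.S24 Fermat.Agent.S24.Diff

universe u w

variable {K : Type*} {F : Type*} [Field K] [Field F] [Algebra K F]

/-- the differential coefficient of `ds` at `v`, computed inside a valued differential field `M`
which is an `F`-algebra: `coeff(ds) * der π = der s`. -/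
theorem algebraMap_differentialCoeff_mul {M : Type*} [Field M] [Algebra K M] [Algebra F M]
    [IsScalarTower K F M] (δ : Derivation K M M) (v : Place K F) [v.DCoordGenerates]
    {π : F} (hπ : v.dCoord = D K F π) (s : F) :
    algebraMap F M (v.differentialCoeff (D K F s)) * δ (algebraMap F M π)
      = δ (algebraMap F M s) := by
  have key := differentialCoeff_D_smul (δ.compAlgebraMap F) v hπ s
  rw [Derivation.compAlgebraMap_apply, Derivation.compAlgebraMap_apply,
    Algebra.smul_def] at key
  exact key

/-- **Local formula for `ord_v(ds)` from an expansion** (algebra form): `M` is an `F`-algebra. -/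
theorem ordDifferential_D_of_algebra [CharZero K] (x : F) (halg : Algebra.IsAlgebraic K⟮x⟯ F)
    (v : Place K F) {M : Type*} [Field M] [Algebra K M] [Algebra F M] [IsScalarTower K F M]
    (O : OrdField K M) (m : ℕ) (hm : 0 < m)
    (hσ : ∀ f : F, f ≠ 0 → O.ord (algebraMap F M f) = m * v.ord f)
    (s : F) (hs : v.ord s ≠ 0) :
    v.ordDifferential (D K F s) = v.ord s - 1 := by
  have := dCoordGenerates x halg v
  obtain ⟨π, hπ1, hπd⟩ := exists_uniformizer_dCoord v
  have key := algebraMap_differentialCoeff_mul O.der v hπd s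
  have hπ0 : π ≠ 0 := fun h => by rw [h, v.ord_zero] at hπ1; exact zero_ne_one hπ1
  have hs0 : s ≠ 0 := fun h => hs (by rw [h, v.ord_zero])
  have hmZ : (m : ℤ) ≠ 0 := by exact_mod_cast hm.ne'
  have hσπ0 : algebraMap F M π ≠ 0 := by
    rwa [Ne, map_eq_zero_iff _ (algebraMap F M).injective]
  have hσs0 : algebraMap F M s ≠ 0 := by
    rwa [Ne, map_eq_zero_iff _ (algebraMap F M).injective]
  have hordπ : O.ord (algebraMap F M π) = m := by rw [hσ π hπ0, hπ1, mul_one]
  have hords : O.ord (algebraMap F M s) = m * v.ord s := hσ s hs0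
  obtain ⟨hdπ0, hdπ⟩ := O.ord_der _ hσπ0 (by rw [hordπ]; exact hmZ)
  obtain ⟨hds0, hds⟩ := O.ord_der _ hσs0 (by rw [hords]; exact mul_ne_zero hmZ hs)
  set c := v.differentialCoeff (D K F s) with hc
  have hc0 : c ≠ 0 := fun h => by
    rw [h, map_zero, zero_mul] at key
    exact hds0 key.symm
  have hσc0 : algebraMap F M c ≠ 0 := by
    rwa [Ne, map_eq_zero_iff _ (algebraMap F M).injective]
  have h1 := congrArg O.ord key
  rw [O.ord_mul _ _ hσc0 hdπ0, hσ c hc0, hdπ, hds, hordπ, hords] at h1
  rw [Place.ordDifferential, ← hc]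
  have h2 : (m : ℤ) * v.ord c = m * (v.ord s - 1) := by linarith
  exact mul_left_cancel₀ hmZ h2

/-- **Local formula for `ord_v(ds)` from an expansion** `σ : F →ₐ[K] M`. -/
theorem ordDifferential_D_of_expansion [CharZero K] (x : F) (halg : Algebra.IsAlgebraic K⟮x⟯ F)
    (v : Place K F) {M : Type*} [Field M] [Algebra K M] (O : OrdField K M) (σ : F →ₐ[K] M)
    (m : ℕ) (hm : 0 < m) (hσ : ∀ f : F, f ≠ 0 → O.ord (σ f) = m * v.ord f)
    (s : F) (hs : v.ord s ≠ 0) :
    v.ordDifferential (D K F s) = v.ord s - 1 :=
  @ordDifferential_D_of_algebra K F _ _ _ _ x halg v M _ _ σ.toRingHom.toAlgebra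
    (@IsScalarTower.of_algebraMap_eq K F M _ _ _ _ σ.toRingHom.toAlgebra _
      (fun c => (σ.commutes c).symm)) O m hm hσ s hs

/-- the shape `hfin` of `Hurwitz.lean`: at a zero of `x - c`. -/
theorem ordDifferential_D_of_expansion_fin [CharZero K] (x : F)
    (halg : Algebra.IsAlgebraic K⟮x⟯ F)
    (v : Place K F) {M : Type*} [Field M] [Algebra K M] (O : OrdField K M) (σ : F →ₐ[K] M)
    (m : ℕ) (hm : 0 < m) (hσ : ∀ f : F, f ≠ 0 → O.ord (σ f) = m * v.ord f)
    (c : K) (hc : 0 < v.ord (x - algebraMap K F c)) :
    v.ordDifferential (D K F x) = v.ord (x - algebraMap K F c) - 1 := by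
  have h := ordDifferential_D_of_expansion x halg v O σ m hm hσ (x - algebraMap K F c) hc.ne'
  rwa [map_sub, Derivation.map_algebraMap, sub_zero] at h

/-- the shape `hinf` of `Hurwitz.lean`: at a pole of `x`. -/
theorem ordDifferential_D_of_expansion_inf [CharZero K] (x : F)
    (halg : Algebra.IsAlgebraic K⟮x⟯ F)
    (v : Place K F) {M : Type*} [Field M] [Algebra K M] (O : OrdField K M) (σ : F →ₐ[K] M)
    (m : ℕ) (hm : 0 < m) (hσ : ∀ f : F, f ≠ 0 → O.ord (σ f) = m * v.ord f)
    (hx : v.ord x < 0) :
    v.ordDifferential (D K F x) = v.ord x - 1 :=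
  ordDifferential_D_of_expansion x halg v O σ m hm hσ x hx.ne

end Fermat.Agent.S24.ExpDiff

namespace Fermat.Agent.S24

open AlgebraicCurve KaehlerDifferential IntermediateField

universe u w

/-- **Interface M3**: `Ω[F/K] = F·dx` and `dx ≠ 0`. -/
theorem m3 (K : Type u) (F : Type w) [Field K] [Field F] [Algebra K F] : Iface.M3 K F := by
  intro _ x hx _
  have halg : Algebra.IsAlgebraic K⟮x⟯ F := Algebra.IsAlgebraic.of_finite _ _
  exact ⟨Diff.D_ne_zero x hx halg, fun ω => Diff.exists_eq_smul_D x halg ω⟩

/-- **Interface M4b**: the order of `dx` at a place computed by an expansion. -/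
theorem m4b (K : Type u) (F : Type w) [Field K] [Field F] [Algebra K F] : Iface.M4b K F := by
  intro _ _ x _ _ v M _ _ O σ m hm hσ s hs hD
  have halg : Algebra.IsAlgebraic K⟮x⟯ F := Algebra.IsAlgebraic.of_finite _ _
  rw [← hD]
  exact ExpDiff.ordDifferential_D_of_expansion x halg v O σ m hm hσ s hs

end Fermat.Agent.S24
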