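import Fermat.Agent.S24.FinalB
import Fermat.Agent.S24.FF1

/-!
# T24 / final assembly, step C (helper31)

Everything on the *algebraic function field* side of the final chain is discharged from
`[IsGen Kbar (jF N)]` (`j` transcendental, `F_N / ℚ̄(j)` finite) by `FF1.lean` (helper75):
fibre data, `hprin`, `deg v = 1`, the local formula for `ord_v (dj)`.

What remains as hypotheses of `FinalC.genus_eq_genusFormula`: `[IsGen Kbar (jF N)]`, the degree
`finrank = dedekindPsi N`, and the four fibre counts.
-/

set_option autoImplicit false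

noncomputable section

open AlgebraicCurve IntermediateField

namespace Fermat.Agent.S24.FinalC

variable {K F : Type*} [Field K] [Field F] [Algebra K F] [IsAlgClosed K] [CharZero K]

/-- `FF1.fibreData` with the degree renamed -/
def fibreData' (x : F) [IsGen K x] {n : ℕ} (hn : Module.finrank K⟮x⟯ F = n) :
    Hurwitz.FibreData (K := K) x n :=
  hn ▸ FF1.fibreData x

omit [IsAlgClosed K] [CharZero K] in
theorem isAlgebraic_of_isGen (x : F) [IsGen K x] : Algebra.IsAlgebraic K⟮x⟯ F :=
  Algebra.IsAlgebraic.of_finite _ _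

end Fermat.Agent.S24.FinalC

namespace Fermat.Agent.S24.FinalC

open ModularCurve KaehlerDifferential

/-- **S24 from: `j` is a generator of degree `ψ(N)`, and the four fibre counts.** -/
theorem genus_eq_genusFormula (N : ℕ) [NeZero N]
    [HasCanonicalDivisor (K := Kbar) (F := FN N)] [hgenr : IsGen Kbar (jF N)]
    (hn : Module.finrank Kbar⟮jF N⟯ (FN N) = dedekindPsi N)
    (hgen : ∀ c : Kbar, c ≠ 0 → c ≠ 1728 →
      Nat.card (Fibre Kbar (jF N - algebraMap Kbar (FN N) c)) = dedekindPsi N)
    (h0 : Nat.card (Fibre Kbar (jF N - algebraMap Kbar (FN N) 0))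
      = numOrbits (permOf N (ModularGroup.S * ModularGroup.T)))
    (h1728 : Nat.card (Fibre Kbar (jF N - algebraMap Kbar (FN N) 1728))
      = numOrbits (permOf N ModularGroup.S))
    (hinfty : Nat.card (Fibre Kbar (jF N)⁻¹) = numOrbits (permOf N ModularGroup.T)) :
    (AlgebraicCurve.genus Kbar (FN N) : ℚ) = genusFormula N :=
  FinalB.genus_eq_genusFormula_of_counts N hgenr.transcendental (isAlgebraic_of_isGen (jF N))
    (fibreData' (jF N) hn) (FF1.hprin (jF N)) (fun v => PlaceB.deg_eq_one v (jF N))
    (fun v c h => FF1.ordDifferential_of_pos (jF N) v c h)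
    (fun v h => FF1.ordDifferential_of_neg (jF N) v h) hgen h0 h1728 hinfty

end Fermat.Agent.S24.FinalC
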