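import Fermat.Agent.S24_helper82.Realize
import Fermat.Agent.S24.InteriorOrbit
import Fermat.Agent.S24.DegreeNorm
import Fermat.Agent.S24_helper66.CosetSepJ
import Fermat.Agent.S24_helper62.CuspEmb

/-!
# S24 — glue at the interior points

* `realization N : Interior.Realization N` from helper82's `realize N`;
* `Sig_injective` : the translates `Sig N g`, `g ∈ SL₂(ℤ)/Γ₀(N)`, are pairwise distinct
  (via `CosetSepJ`: the conjugates of `j(N τ)` are pairwise distinct);
* `hprod` : the product formula `N(f)~ ∘ g₀⁻¹ = ∏ f~ ∘ g⁻¹` in the shape required by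
  `Interior.Realization.hnorm_of_prod` (via `DegreeNorm` and `M9`).
-/

set_option autoImplicit false

noncomputable section

namespace Fermat.Agent.S24.InteriorGlue

open UpperHalfPlane ModularCurve IntermediateField
open Fermat.Agent.S24 Fermat.Agent.S24_helper82 Fermat.Agent.S24_helper62
open Fermat.Agent.S28 Fermat.Agent.S28.CuspExp
open scoped MatrixGroups

variable (N : ℕ) [NeZero N]

/-- the realization of `F_N` by meromorphic functions on `ℍ` (helper82's `realize`) -/
def realization : Interior.Realization N where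
  ι := iotaC
  R := (realize N : FN N →+* Mer)
  R_const a := by
    show realize N (algebraMap Kbar (FN N) a) = algebraMap ℂ Mer (iotaC a)
    rw [AlgHom.commutes]
    rfl
  jH := jDilHol 1 one_pos
  jH_apply τ := by
    show jDil 1 one_pos τ = _
    rw [jDil_one]
    rfl
  R_j := realize_jF N
  R_inv γ hγ f := compM_realize_of_mem_Gamma0 N hγ f

@[simp] theorem realization_R (f : FN N) : (realization N).R f = realize N f := rfl

@[simp] theorem realization_ι : (realization N).ι = iotaC := rfl

theorem Nn_pos : 0 < N := Nat.pos_of_ne_zero (NeZero.ne N)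

/-- the translates at the generator `j(q^N)` -/
theorem Sig_jdF_N (g : SL(2, ℤ)) :
    Sig N g (jdF N N dvd_rfl) = algebraMap Hol Mer (compSL g⁻¹ (jDilHol N (Nn_pos N))) := by
  rw [Sig_apply, realize_jdF, compM_algebraMap]

/-- **distinctness**: `Sig N g` determines the coset `g Γ₀(N)` (already at the generator
`j(q^N)`) -/
theorem coset_eq_of_Sig_jdF_eq {g g' : SL(2, ℤ)}
    (h : Sig N g (jdF N N dvd_rfl) = Sig N g' (jdF N N dvd_rfl)) : (g : I0 N) = g' := by
  rw [Sig_jdF_N, Sig_jdF_N] at h
  have h' : compSL g⁻¹ (jDilHol N (Nn_pos N)) = compSL g'⁻¹ (jDilHol N (Nn_pos N)) :=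
    IsFractionRing.injective Hol Mer h
  apply Fermat.Agent.S24_helper66.CosetSep.coset_eq_of_jDil_eq (Nn_pos N) g g'
  intro τ
  have := congrArg (fun F : Hol => (F : ℍ → ℂ) τ) h'
  simpa [jDilHol] using this

theorem Sig_injective {g g' : SL(2, ℤ)} (h : Sig N g = Sig N g') : (g : I0 N) = g' :=
  coset_eq_of_Sig_jdF_eq N (by rw [h])

/-- the family of ring homs `f ↦ (realize f) ∘ (out q)⁻¹` -/
def rho (q : I0 N) : FN N →+* Mer := (compM (q.out)⁻¹).comp (realize N : FN N →+* Mer)

theorem rho_apply (q : I0 N) (f : FN N) :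
    rho N q f = compM (q.out)⁻¹ (realize N f) := rfl

theorem rho_eq_Sig (q : I0 N) (f : FN N) : rho N q f = Sig N (q.out) f := rfl

theorem rho_injective : Function.Injective (rho N) := by
  intro q q' h
  have h1 : (q.out : I0 N) = (q'.out : SL(2, ℤ)) := by
    apply coset_eq_of_Sig_jdF_eq
    rw [← rho_eq_Sig, ← rho_eq_Sig, h]
  have e1 : ((q.out : SL(2, ℤ)) : I0 N) = q := Quotient.out_eq' q
  have e2 : ((q'.out : SL(2, ℤ)) : I0 N) = q' := Quotient.out_eq' q'
  rw [← e1, ← e2, h1]

theorem rho_const (q : I0 N) (c : Kbar) :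
    rho N q (algebraMap Kbar (FN N) c) = algebraMap ℂ Mer (iotaC c) := by
  rw [rho_apply, AlgHom.commutes, algebraMap_Kbar_Mer, compM_const]

theorem rho_jF (q : I0 N) : rho N q (jF N) = algebraMap Hol Mer (jDilHol 1 one_pos) := by
  rw [rho_eq_Sig, Sig_jF]

/-- **the product formula** at the interior points, in the shape of
`Interior.Realization.hnorm_of_prod` (with `k = ℚ̄(j)`). -/
theorem hprod (f : FN N) (i₀ : I0 N) :
    compM (i₀.out)⁻¹
        ((realization N).R (algebraMap Kbar⟮jF N⟯ (FN N) (Algebra.norm Kbar⟮jF N⟯ f)))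
      = ∏ i : I0 N, compM (i.out)⁻¹ ((realization N).R f) := by
  have h := DegreeNorm.norm_eq_prod (m9 N) (Comb.m11 N).1 (rho N) i₀
    (fun q c => by rw [rho_const, rho_const]) (fun q => by rw [rho_jF, rho_jF])
    (rho_injective N) f
  exact h

end Fermat.Agent.S24.InteriorGlue
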