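import Mathlib
import Fermat.Agent.S24_helper66.NormEmb

/-!
# S24: norm / trace product formula from `card ι = [F : k]` distinct embeddings

Variant of `S24_helper66.NormEmb` in which the trace hypothesis is replaced by the knowledge of
the degree: if `F / k` is finite of degree `n` (characteristic zero) and `σ i : F →ₐ[k] L`
(`i : ι`, `card ι = n`) are pairwise distinct, then they are all the embeddings, hence
`N_{F/k}(f) ↦ ∏ i, σ i f`.  Used at the interior points of the upper half plane, the degree
`[F_N : K(j)] = ψ(N)` being known from the cusp expansions.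
-/

set_option autoImplicit false

namespace Fermat.Agent.S24.NormCard

open Fermat.Agent.S24_helper66 IntermediateField

section Abstract

variable {k F L : Type*} [Field k] [Field F] [Field L] [Algebra k F] [Algebra k L] [CharZero k]
variable {ι : Type*} [Fintype ι]

/-- the embeddings into an algebraic closure of `L` are the `σ i` followed by `L → L̄` -/
theorem bijective_comp_algebraicClosure [FiniteDimensional k F] (σ : ι → (F →ₐ[k] L))
    (hinj : Function.Injective σ) (hcard : Fintype.card ι = Module.finrank k F) :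
    Function.Bijective fun i : ι =>
      (IsScalarTower.toAlgHom k L (AlgebraicClosure L)).comp (σ i) := by
  have hinj' : Function.Injective fun i : ι =>
      (IsScalarTower.toAlgHom k L (AlgebraicClosure L)).comp (σ i) := by
    intro i j hij
    refine hinj (AlgHom.ext fun f => ?_)
    have := congrArg (fun φ : F →ₐ[k] AlgebraicClosure L => φ f) hij
    exact (algebraMap L (AlgebraicClosure L)).injective this
  have : Algebra.IsAlgebraic k F := Algebra.IsAlgebraic.of_finite k F
  refine (Fintype.bijective_iff_injective_and_card _).mpr ⟨hinj', ?_⟩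
  rw [AlgHom.card k F (AlgebraicClosure L), hcard]

/-- norm formula -/
theorem algebraMap_norm_eq_prod [FiniteDimensional k F] (σ : ι → (F →ₐ[k] L))
    (hinj : Function.Injective σ) (hcard : Fintype.card ι = Module.finrank k F) (f : F) :
    algebraMap k L (Algebra.norm k f) = ∏ i, σ i f := by
  have : Algebra.IsAlgebraic k F := Algebra.IsAlgebraic.of_finite k F
  apply (algebraMap L (AlgebraicClosure L)).injective
  rw [← IsScalarTower.algebraMap_apply, Algebra.norm_eq_prod_embeddings k (AlgebraicClosure L) f,
    map_prod]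
  exact (Fintype.prod_bijective _ (bijective_comp_algebraicClosure σ hinj hcard) _ _
    fun i => rfl).symm

/-- trace formula -/
theorem algebraMap_trace_eq_sum [FiniteDimensional k F] (σ : ι → (F →ₐ[k] L))
    (hinj : Function.Injective σ) (hcard : Fintype.card ι = Module.finrank k F) (f : F) :
    algebraMap k L (Algebra.trace k F f) = ∑ i, σ i f := by
  have : Algebra.IsAlgebraic k F := Algebra.IsAlgebraic.of_finite k F
  apply (algebraMap L (AlgebraicClosure L)).injective
  rw [← IsScalarTower.algebraMap_apply, trace_eq_sum_embeddings (AlgebraicClosure L), map_sum]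
  exact (Fintype.sum_bijective _ (bijective_comp_algebraicClosure σ hinj hcard) _ _
    fun i => rfl).symm

/-- every embedding is one of the `σ i` -/
theorem algHom_mem_range [FiniteDimensional k F] (σ : ι → (F →ₐ[k] L))
    (hinj : Function.Injective σ) (hcard : Fintype.card ι = Module.finrank k F)
    (τ : F →ₐ[k] L) : ∃ i, τ = σ i := by
  obtain ⟨i, hi⟩ := (bijective_comp_algebraicClosure σ hinj hcard).2
    ((IsScalarTower.toAlgHom k L (AlgebraicClosure L)).comp τ)
  refine ⟨i, AlgHom.ext fun f => ?_⟩
  have := congrArg (fun φ : F →ₐ[k] AlgebraicClosure L => φ f) hi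
  exact ((algebraMap L (AlgebraicClosure L)).injective this).symm

end Abstract

section Wrapper

variable {K F L : Type*} [Field K] [Field F] [Field L] [Algebra K F] [Algebra K L] [CharZero K]
variable {ι : Type*} [Fintype ι]
variable {j : F} {σ : ι → (F →ₐ[K] L)} {i₀ : ι}

/-- **norm formula**, `K`-linear shape: `σ i : F →ₐ[K] L` pairwise distinct, all agreeing at `j`,
and as many as the degree `[F : K(j)]`. -/
theorem emb_norm_eq_prod [FiniteDimensional K⟮j⟯ F] (hj : ∀ i, σ i j = σ i₀ j)
    (hinj : Function.Injective σ) (hcard : Fintype.card ι = Module.finrank K⟮j⟯ F) (f : F) :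
    σ i₀ ((Algebra.norm K⟮j⟯ f : K⟮j⟯) : F) = ∏ i, σ i f := by
  let _ := algebraOfEmb j σ i₀
  have hinj' : Function.Injective (liftEmb j σ i₀ hj) := fun i i' h =>
    hinj (AlgHom.ext fun f => congrArg (fun φ : F →ₐ[K⟮j⟯] L => φ f) h)
  exact algebraMap_norm_eq_prod (liftEmb j σ i₀ hj) hinj' hcard f

/-- **trace formula**, `K`-linear shape. -/
theorem emb_trace_eq_sum [FiniteDimensional K⟮j⟯ F] (hj : ∀ i, σ i j = σ i₀ j)
    (hinj : Function.Injective σ) (hcard : Fintype.card ι = Module.finrank K⟮j⟯ F) (f : F) :
    σ i₀ ((Algebra.trace K⟮j⟯ F f : K⟮j⟯) : F) = ∑ i, σ i f := by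
  let _ := algebraOfEmb j σ i₀
  have hinj' : Function.Injective (liftEmb j σ i₀ hj) := fun i i' h =>
    hinj (AlgHom.ext fun f => congrArg (fun φ : F →ₐ[K⟮j⟯] L => φ f) h)
  exact algebraMap_trace_eq_sum (liftEmb j σ i₀ hj) hinj' hcard f

/-- every `K`-embedding agreeing with `σ i₀` at `j` is one of the `σ i`. -/
theorem algHom_mem_range_of_fixes [FiniteDimensional K⟮j⟯ F] (hj : ∀ i, σ i j = σ i₀ j)
    (hinj : Function.Injective σ) (hcard : Fintype.card ι = Module.finrank K⟮j⟯ F)
    (τ : F →ₐ[K] L) (hτ : τ j = σ i₀ j) : ∃ i, τ = σ i := by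
  let _ := algebraOfEmb j σ i₀
  have hinj' : Function.Injective (liftEmb j σ i₀ hj) := fun i i' h =>
    hinj (AlgHom.ext fun f => congrArg (fun φ : F →ₐ[K⟮j⟯] L => φ f) h)
  let τ' : F →ₐ[K⟮j⟯] L :=
    { (τ : F →+* L) with
      commutes' := fun c => algHom_eq_on_adjoin_simple τ (σ i₀) j hτ c }
  obtain ⟨i, hi⟩ := algHom_mem_range (liftEmb j σ i₀ hj) hinj' hcard τ'
  refine ⟨i, AlgHom.ext fun f => ?_⟩
  exact congrArg (fun φ : F →ₐ[K⟮j⟯] L => φ f) hi

end Wrapper

end Fermat.Agent.S24.NormCard
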